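import Fermat.Agent.LT.TF.Trace.Shift
import Fermat.Agent.LT.TF.Regular
import Fermat.Agent.LT.TF.EllipticTerm

/-!
Finite combinations of right translates of cusp forms with parameter zero, the operator of a finite
part of a test, and pullback by a field automorphism.
-/

set_option autoImplicit false
set_option linter.style.haveILetI false
set_option linter.unusedSectionVars false

noncomputable section

namespace FLTAgent.LT.TraceTheta

open NumberField IsDedekindDomain MeasureTheory
open FLTAgent.LT.RS FLTAgent.LT.Red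

variable {F : Type} [Field F] [NumberField F] [IsTotallyComplex F] {N : ℕ}

local notation "HS" => HeightOneSpectrum (𝓞 F)

/-- Constant terms of a combination of translates. -/
theorem cusp_sum_Rt {ι : Type*} (S : Finset ι) (c : ι → ℂ) (g : ι → GF F) {φ : Form F}
    (hN : 0 < N) (hφ : CuspZero N φ) : Cusp (∑ i ∈ S, c i • Rt (g i) φ) := by
  classical
  set ψ := ∑ i ∈ S, c i • Rt (g i) φ with hψ
  intro h m hm hinv x
  have happ : ∀ y, ψ y h = ∑ i ∈ S, c i * φ y (h * g i) := fun y => by
    simp [hψ, Finset.sum_apply, Pi.smul_apply, Rt_apply]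
  have hc : Continuous fun y => ψ y h := by
    simp only [happ]
    exact continuous_finsetSum _ fun i _ => continuous_const.mul (hφ.cont _)
  -- a common period
  choose p hp using fun i : ι => (exists_period_Rt hN hφ (g i) h).2
  set P := ∏ i ∈ S, p i with hP
  have hP0 : 0 < P := Finset.prod_pos fun i _ => (hp i).pos
  have hpi : ∀ i ∈ S, HasPeriod φ (h * g i) (m * P) := fun i hi => by
    have hrest : 0 < ∏ k ∈ S.erase i, p k := Finset.prod_pos fun k _ => (hp k).pos
    have h1 : HasPeriod φ (h * g i) (p i) := ⟨(hp i).pos, fun β y => (hp i).inv β y⟩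
    rw [hP, ← Finset.mul_prod_erase _ _ hi, ← mul_assoc, mul_comm m, mul_assoc]
    exact h1.mul (Nat.mul_pos hm hrest)
  -- dilate the box
  set f : (Idx F → ℝ) → ℂ := fun y => ψ (translate (boxVec m y) x) h with hf
  have hft : Continuous fun y : Idx F → ℝ => translate (boxVec m y) x := continuous_pi fun w =>
    (continuous_const.add ((continuous_apply w).comp (continuous_boxVec m))).prodMk continuous_const
  have hfz : ZPeriodic f := ⟨hc.comp hft, fun y v => by
    show ψ _ h = ψ _ h
    rw [boxVec_add, boxVec_rvec, show translate (boxVec m y + fun w => (m : ℂ) * w.embedding (intOf v : F)) x =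
      translate (fun w => (m : ℂ) * w.embedding (intOf v : F)) (translate (boxVec m y) x) from
        funext fun w => Prod.ext (by simp [translate, add_assoc]) rfl, hinv]⟩
  have hdil := fc_dilate hfz hP0 0
  have hz : ∀ u : (Idx F → ℝ) → ℂ, fc u 0 = ∫ y in boxSet (Idx F), u y := fun u => by
    rw [fc]
    exact setIntegral_congr_fun measurableSet_boxSet fun y _ => by simp [FLTAgent.LT.Theta31.echar]
  rw [smul_zero, hz, hz] at hdil
  show ∫ y in boxSet (Idx F), f y = 0
  rw [← hdil]
  simp only [hf, ← boxVec_smul, happ]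
  rw [integral_finsetSum]
  · refine Finset.sum_eq_zero fun i hi => ?_
    rw [integral_const_mul]
    exact mul_eq_zero_of_right _
      (hφ.cusp (h * g i) (m * P) (Nat.mul_pos hm hP0) (hpi i hi).inv x)
  · intro i _
    refine IntegrableOn.mono_set (t := Set.Icc (fun _ => (0 : ℝ)) fun _ => 1) ?_ ?_
    · refine (continuous_const.mul ((hφ.cont _).comp ?_)).integrableOn_Icc
      exact continuous_pi fun w => (continuous_const.add
        ((continuous_apply w).comp (continuous_boxVec _))).prodMk continuous_const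
    · exact fun y hy => ⟨fun j => (hy j trivial).1, fun j => (hy j trivial).2.le⟩

/-- A combination of translates with the invariance is a cusp form with parameter zero. -/
theorem cuspZero_sum_Rt {ι : Type*} (S : Finset ι) (c : ι → ℂ) (g : ι → GF F) {φ : Form F}
    (hN : 0 < N) (hφ : CuspZero N φ)
    (hr : ∀ k, InLevel N k → ∀ x h,
      (∑ i ∈ S, c i • Rt (g i) φ) x (h * k) = (∑ i ∈ S, c i • Rt (g i) φ) x h) :
    CuspZero N (∑ i ∈ S, c i • Rt (g i) φ) := by
  classical
  have happ : ∀ x h, (∑ i ∈ S, c i • Rt (g i) φ) x h = ∑ i ∈ S, c i * φ x (h * g i) :=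
    fun x h => by simp [Finset.sum_apply, Pi.smul_apply, Rt_apply]
  obtain ⟨C, hC⟩ := hφ.bdd
  refine ⟨fun h => ?_, ⟨∑ i ∈ S, ‖c i‖ * C, fun x h => ?_⟩,
    ⟨fun γ x h => ?_, hr, fun a x h => ?_⟩, cusp_sum_Rt S c g hN hφ, ?_⟩
  · simp only [happ]
    exact continuous_finsetSum _ fun i _ => continuous_const.mul (hφ.cont _)
  · rw [happ]
    refine (norm_sum_le _ _).trans (Finset.sum_le_sum fun i _ => ?_)
    rw [norm_mul]
    exact mul_le_mul_of_nonneg_left (hC _ _) (norm_nonneg _)
  · simp only [happ, mul_assoc, hφ.aut.left_inv]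
  · simp only [happ]
    refine Finset.sum_congr rfl fun i _ => ?_
    rw [mul_assoc, Red.scalarGF_comm, ← mul_assoc, hφ.aut.central]
  · intro w x h H hH hHs
    simp only [happ, Finset.mul_sum]
    rw [integral_finsetSum]
    · refine Finset.sum_congr rfl fun i _ => ?_
      simp only [mul_left_comm _ (c i)]
      rw [integral_const_mul, hφ.eigen w x (h * g i) H hH hHs]
    · intro i _
      obtain ⟨R, hR⟩ := hHs.isBounded.subset_closedBall 0
      refine (Continuous.integrable_of_hasCompactSupport ?_ ?_)
      · exact (hH.comp (Hyp.continuous_coshDist.comp (continuous_const.prodMk continuous_id))).mul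
          (continuous_const.mul ((hφ.cont _).comp
            (continuous_const.update w continuous_id)))
      · refine HasCompactSupport.intro (isCompact_coshBall (x w) R) fun q hq => ?_
        by_contra hne
        have h1 := hR (subset_tsupport _ (left_ne_zero_of_mul hne))
        rw [Metric.mem_closedBall, dist_zero_right, Real.norm_eq_abs] at h1
        exact hq ((le_abs_self _).trans h1)

/-- The operator of the finite part of a test. -/
def finAct (N : ℕ) (f : GF F → ℂ) (φ : Form F) : Form F := fun x g =>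
  ∑ᶠ c : Cos F N, f c.out * φ x (g * c.out)

/-- The operator as a sum over any representatives of the support. -/
theorem finAct_eq_sum {f : GF F → ℂ} (hf : ∀ u ∈ UZ F N, ∀ g, f (g * u) = f g) {φ : Form F}
    (hφ : Automorphic N φ) (C : Finset (Cos F N)) (hC : ∀ c : Cos F N, f c.out ≠ 0 → c ∈ C)
    (r : Cos F N → GF F) (hr : ∀ c ∈ C, ((r c : GF F) : Cos F N) = c) :
    finAct N f φ = ∑ c ∈ C, f (r c) • Rt (r c) φ := by
  funext x g
  rw [finAct, finsum_eq_sum_of_support_subset _ fun c hc =>
    Finset.mem_coe.2 (hC c (left_ne_zero_of_mul hc))]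
  simp only [Finset.sum_apply, Pi.smul_apply, Rt_apply, smul_eq_mul]
  refine Finset.sum_congr rfl fun c hc => ?_
  have hu : (r c)⁻¹ * c.out ∈ UZ F N :=
    QuotientGroup.eq.1 ((hr c hc).trans (QuotientGroup.out_eq' c).symm)
  rw [show c.out = r c * ((r c)⁻¹ * c.out) by group, hf _ hu, ← mul_assoc, hφ.mul_UZ _ _ hu]

/-- Left equivariance of the operator. -/
theorem finAct_translate {f : GF F → ℂ} (hf : ∀ u ∈ UZ F N, ∀ g, f (g * u) = f g) {φ : Form F}
    (hφ : Automorphic N φ) {h : GF F} {κ : ℂ} (hκ : ∀ g, f (h * g) = κ * f g) (x : Xinf F)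
    (g : GF F) : κ * finAct N f φ x (g * h) = finAct N f φ x g := by
  rw [finAct, finAct, mul_finsum,
    ← finsum_comp_equiv (MulAction.toPerm (α := GF F) (β := Cos F N) h) (f := fun c : Cos F N => f c.out * φ x (g * c.out))]
  refine finsum_congr fun c => ?_
  obtain ⟨u, hu, e⟩ : ∃ u ∈ UZ F N, (h • c).out = h * c.out * u :=
    ⟨_, QuotientGroup.eq.1 ((show ((h * c.out : GF F) : Cos F N) = h • c by
      conv_rhs => rw [← QuotientGroup.out_eq' c]
      rfl).trans (QuotientGroup.out_eq' _).symm), (mul_inv_cancel_left _ _).symm⟩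
  show _ = f (h • c).out * φ x (g * (h • c).out)
  rw [e, hf _ hu, hκ, show g * (h * c.out * u) = g * h * c.out * u by group, hφ.mul_UZ _ _ hu]
  ring

/-- The operator preserves cusp forms. -/
theorem cuspZero_finAct (hN : 0 < N) {f : GF F → ℂ}
    (hr : ∀ u ∈ UZ F N, ∀ g, f (g * u) = f g) (hl : ∀ u ∈ UZ F N, ∀ g, f (u * g) = f g)
    (hfin : ((QuotientGroup.mk : GF F → Cos F N) '' Function.support f).Finite)
    {φ : Form F} (hφ : CuspZero N φ) : CuspZero N (finAct N f φ) := by
  classical
  have hC : ∀ c : Cos F N, f c.out ≠ 0 → c ∈ hfin.toFinset := fun c hc =>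
    hfin.mem_toFinset.2 ⟨c.out, hc, QuotientGroup.out_eq' c⟩
  have e := finAct_eq_sum hr hφ.aut hfin.toFinset hC Quotient.out fun c _ => QuotientGroup.out_eq' c
  have hinv : ∀ k, InLevel N k → ∀ x g, finAct N f φ x (g * k) = finAct N f φ x g :=
    fun k hk x g => by
      simpa using finAct_translate hr hφ.aut (h := k) (κ := 1)
        (fun y => by rw [one_mul]; exact hl k (mem_UZ.2 ⟨k, hk, 1, by simp [scalarGF]⟩) y) x g
  rw [e] at hinv ⊢
  exact cuspZero_sum_Rt _ _ _ hN hφ hinv

/-- Translations with trivial component at `v` commute with `T_v`. -/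
theorem hecke_Rt (v : HS) {h : GF F}
    (hh : Red.loc v (h : Matrix (Fin 2) (Fin 2) (Af F)) = 1) (φ : Form F) :
    hecke v (Rt h φ) = Rt h (hecke v φ) := by
  funext x g
  rw [Rt_apply, Aleph.hecke_eq_hOp, Aleph.hecke_eq_hOp]
  refine Finset.sum_congr rfl fun r _ => ?_
  have hc : Aleph.hRep v r * h = h * Aleph.hRep v r := Units.ext (Red.loc_ext fun w => by
    rw [Units.val_mul, Units.val_mul, Red.loc_mul, Red.loc_mul]
    rcases eq_or_ne w v with rfl | hw
    · rw [hh, mul_one, one_mul]
    · rw [(Aleph.loc_hRep_ne v hw r).1, one_mul, mul_one])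
  rw [Rt_apply, mul_assoc, hc, ← mul_assoc]

/-! ### Pullback by an automorphism -/

theorem liftFun_conj (f : H3 → ENNReal) (x : ℂ × ℝ) :
    Hyp.liftFun (fun p => f (conjH3 p)) x = Hyp.liftFun f ((starRingEnd ℂ) x.1, x.2) := by
  by_cases h : 0 < x.2 <;> simp [Hyp.liftFun, conjH3, h]

theorem measurable_conjH3 : Measurable conjH3 :=
  (Complex.continuous_conj.measurable.comp measurable_fst).prodMk measurable_snd

theorem measurePreserving_conjH3 : MeasurePreserving conjH3 hypMeasure hypMeasure := by
  refine ⟨measurable_conjH3, Measure.ext fun s hs => ?_⟩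
  have hm : Measurable (s.indicator fun _ : H3 => (1 : ENNReal)) := measurable_const.indicator hs
  have hm' : Measurable fun p => s.indicator (fun _ : H3 => (1 : ENNReal)) (conjH3 p) :=
    hm.comp measurable_conjH3
  rw [Measure.map_apply measurable_conjH3 hs, ← lintegral_indicator_one (measurable_conjH3 hs),
    ← lintegral_indicator_one hs]
  rw [show (conjH3 ⁻¹' s).indicator (1 : H3 → ENNReal) =
      fun p => s.indicator (fun _ => (1 : ENNReal)) (conjH3 p) from funext fun p => by
    by_cases h : conjH3 p ∈ s <;> simp [h]]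
  show _ = ∫⁻ p, s.indicator (fun _ => (1 : ENNReal)) p ∂hypMeasure
  rw [Hyp.lintegral_hyp hm', Hyp.lintegral_hyp hm]
  simp only [liftFun_conj]
  have hR : MeasurePreserving (Prod.map Complex.conjLIE id : ℂ × ℝ → ℂ × ℝ) volume volume :=
    Complex.conjLIE.measurePreserving.prod (MeasurePreserving.id volume)
  have hF : Measurable fun x : ℂ × ℝ =>
      ENNReal.ofReal ((x.2 ^ 3)⁻¹) * Hyp.liftFun (s.indicator fun _ => (1 : ENNReal)) x :=
    (by fun_prop : Measurable fun x : ℂ × ℝ => ENNReal.ofReal ((x.2 ^ 3)⁻¹)).mul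
      (Hyp.measurable_liftFun hm)
  rw [← hR.lintegral_comp hF]
  rfl

theorem coshDist_conjH3 (p q : H3) : coshDist (conjH3 p) (conjH3 q) = coshDist p q := by
  simp [coshDist, conjH3, ← map_sub, Complex.normSq_conj]

variable (τ : F ≃+* F)

theorem comap_equiv_inj {u u' : InfinitePlace F}
    (h : u.comap (τ : F →+* F) = u'.comap (τ : F →+* F)) : u = u' := by
  have e : ∀ v : InfinitePlace F, (v.comap (τ : F →+* F)).comap (τ.symm : F →+* F) = v := fun v =>
    Subtype.ext (AbsoluteValue.ext fun x => by
      show v (τ (τ.symm x)) = v x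
      rw [τ.apply_symm_apply])
  rw [← e u, h, e u']

/-- One place of a point moves to one place of its pullback. -/
theorem infMap_update [DecidableEq (InfinitePlace F)] (x : Xinf F) (w : InfinitePlace F) :
    ∃ (u : InfinitePlace F) (c : H3 → H3), (c = id ∨ c = conjH3) ∧
      infMap (τ : F →+* F) x u = c (x w) ∧
      ∀ q, infMap (τ : F →+* F) (Function.update x w q) =
        Function.update (infMap (τ : F →+* F) x) u (c q) := by
  classical
  set u := w.comap (τ.symm : F →+* F) with hu
  have hw : u.comap (τ : F →+* F) = w := Subtype.ext (AbsoluteValue.ext fun y => by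
    show w (τ.symm (τ y)) = w y
    rw [τ.symm_apply_apply])
  refine ⟨u, if (u.comap (τ : F →+* F)).embedding = u.embedding.comp (τ : F →+* F) then id else conjH3,
    by split_ifs <;> simp, ?_, fun q => funext fun v => ?_⟩
  · simp only [infMap]
    rw [hw]
    split_ifs <;> rfl
  · rcases eq_or_ne v u with rfl | hv
    · simp only [Function.update_self, infMap]
      rw [hw]
      split_ifs <;> simp
    · have hne : v.comap (τ : F →+* F) ≠ w := fun h => hv (comap_equiv_inj τ (h.trans hw.symm))
      rw [Function.update_of_ne hv]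
      simp only [infMap, Function.update_of_ne hne]

theorem zeroEigen_Tform {φ : Form F} (h : ZeroEigen φ) : ZeroEigen (Tform τ φ) := by
  classical
  intro w x g H hH hHs
  obtain ⟨u, c, hc, hx, hup⟩ := infMap_update τ x w
  have key := h u (infMap (τ : F →+* F) x) (gfMap (τ : F →+* F) g) H hH hHs
  refine Eq.trans ?_ (key.trans rfl)
  show ∫ q, H (coshDist (x w) q) *
    φ (infMap (τ : F →+* F) (Function.update x w q)) (gfMap (τ : F →+* F) g) ∂hypMeasure = _
  simp only [hup, hx]
  rcases hc with rfl | rfl
  · rfl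
  · rw [← measurePreserving_conjH3.integral_comp (MeasurableEquiv.measurableEmbedding
      ⟨⟨conjH3, conjH3, fun p => by simp [conjH3], fun p => by simp [conjH3]⟩,
        measurable_conjH3, measurable_conjH3⟩)]
    have e : ∀ q : H3, coshDist (x w) (conjH3 q) = coshDist (conjH3 (x w)) q := fun q => by
      rw [← coshDist_conjH3 (x w) (conjH3 q)]
      simp [conjH3]
    have e' : ∀ q : H3, conjH3 (conjH3 q) = q := fun q => by simp [conjH3]
    simp only [e, e']

theorem intLin_smul {d : Type*} [Fintype d] (A : d → d → ℤ) (a : ℝ) (y : d → ℝ) :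
    intLin A (a • y) = a • intLin A y := by
  funext i
  simp [intLin, Finset.mul_sum, mul_left_comm]

theorem infMap_translate_box (m : ℕ) (y : Idx F → ℝ) (x : Xinf F) :
    infMap (τ : F →+* F) (translate (boxVec m y) x) =
      translate (boxVec m (intLin (galMat τ) y)) (infMap (τ : F →+* F) x) := by
  funext w
  simp only [infMap, translate, conjH3, boxVec_galMat]
  simp only [boxVec, ← embedding_comap τ w]
  split_ifs with h <;> simp [Complex.conj_ofReal, map_sum]

theorem cusp_Tform (hN : 0 < N) {φ : Form F} (hφ : CuspZero N φ) : Cusp (Tform τ φ) := by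
  intro g m hm hinv x
  obtain ⟨P, hP⟩ := exists_hasPeriod hN hφ.aut (gfMap (τ : F →+* F) g)
  set A := galMat τ
  set x' := infMap (τ : F →+* F) x
  set g' := gfMap (τ : F →+* F) g
  have happ : ∀ z, Tform τ φ z g = φ (infMap (τ : F →+* F) z) g' := fun z => rfl
  have hcont : ∀ (k : ℕ), Continuous fun y : Idx F → ℝ => φ (translate (boxVec k y) x') g' :=
    fun k => (hφ.cont g').comp (continuous_pi fun w => (continuous_const.add
      ((continuous_apply w).comp (continuous_boxVec k))).prodMk continuous_const)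
  have hper : ∀ (k : ℕ) (z : Xinf F) (ψ : Form F) (h : GF F),
      (∀ (β : 𝓞 F) z, ψ (translate (fun w => (k : ℂ) * w.embedding (β : F)) z) h = ψ z h) →
      ∀ y v, ψ (translate (boxVec k (y + FLTAgent.LT.Theta31.rvec v)) z) h =
        ψ (translate (boxVec k y) z) h := fun k z ψ h hi y v => by
    rw [boxVec_add, boxVec_rvec,
      show translate (boxVec k y + fun w => (k : ℂ) * w.embedding (intOf v : F)) z =
        translate (fun w => (k : ℂ) * w.embedding (intOf v : F)) (translate (boxVec k y) z) from
        funext fun w => Prod.ext (by simp [translate, add_assoc]) rfl, hi]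
  set f : (Idx F → ℝ) → ℂ := fun y => φ (translate (boxVec m (intLin A y)) x') g' with hf
  have hfe : f = fun y => Tform τ φ (translate (boxVec m y) x) g := funext fun y => by
    rw [happ, infMap_translate_box]
  have hintc : Continuous (intLin A) := continuous_pi fun i =>
    continuous_finsetSum _ fun j _ => continuous_const.mul (continuous_apply j)
  have hfz : ZPeriodic f := ⟨(hcont m).comp hintc, fun y v => by
    rw [hfe]; exact hper m x (Tform τ φ) g hinv y v⟩
  set u : (Idx F → ℝ) → ℂ := fun y => φ (translate (boxVec (m * P) y) x') g' with hu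
  have huz : ZPeriodic u := ⟨hcont _, fun y v =>
    hper _ x' φ g' (hP.mul_left hm).inv y v⟩
  have hz : ∀ u : (Idx F → ℝ) → ℂ, fc u 0 = ∫ y in boxSet (Idx F), u y := fun u => by
    rw [fc]
    exact setIntegral_congr_fun measurableSet_boxSet fun y _ => by simp [FLTAgent.LT.Theta31.echar]
  have h1 := fc_dilate hfz hP.pos 0
  rw [smul_zero, hz, hz] at h1
  have h2 := fc_intLin huz A (surjective_intLin_galMat τ) 0
  simp only [Pi.zero_apply, mul_zero, Finset.sum_const_zero] at h2
  rw [show (fun _ : Idx F => (0 : ℤ)) = 0 from rfl, hz, hz] at h2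
  show ∫ y in boxSet (Idx F), Tform τ φ (translate (boxVec m y) x) g = 0
  rw [← hfe, ← h1]
  have e : ∀ y, f ((P : ℝ) • y) = u (intLin A y) := fun y => by
    simp only [hf, hu, intLin_smul, ← boxVec_smul]
  simp only [e, h2]
  exact hφ.cusp g' (m * P) (Nat.mul_pos hm hP.pos) (hP.mul_left hm).inv x'

/-- The pullback preserves cusp forms. -/
theorem cuspZero_Tform (hN : 0 < N) {φ : Form F} (hφ : CuspZero N φ) :
    CuspZero N (Tform τ φ) := by
  obtain ⟨C, hC⟩ := hφ.bdd
  refine ⟨fun g => (hφ.cont _).comp (continuous_infMap τ), ⟨C, fun x g => hC _ _⟩,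
    ⟨fun γ x g => ?_, fun k hk x g => ?_, fun a x g => ?_⟩, cusp_Tform τ hN hφ,
    zeroEigen_Tform τ hφ.eigen⟩
  · show φ (infMap (τ : F →+* F) (actInf γ x)) (gfMap (τ : F →+* F) (toFin γ * g)) = _
    rw [Ell.infMap_actInf, map_mul, gfMap_toFin, hφ.aut.left_inv]
    rfl
  · show φ _ (gfMap (τ : F →+* F) (g * k)) = _
    rw [map_mul, hφ.aut.right_inv _ (Ell.inLevel_gfMap _ hN hk)]
    rfl
  · show φ _ (gfMap (τ : F →+* F) (g * scalarGF a)) = _
    rw [map_mul, Ell.gfMap_scalarGF, hφ.aut.central]
    rfl

end FLTAgent.LT.TraceTheta
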