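import Mathlib

/-!
The twisted trace of contracting operators, abstractly: an operator which is nilpotent on the kernel
of a map to a space of germs has the trace of the induced operator, and commuting invertible
translations twisted by an automorphism concentrate that trace on their invariant vectors, where the
automorphism is the identity.
-/

set_option autoImplicit false

noncomputable section

namespace FLTAgent.LT.TraceTheta

open LinearMap

variable {V Q : Type*} [AddCommGroup V] [Module ℂ V] [FiniteDimensional ℂ V]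
  [AddCommGroup Q] [Module ℂ Q]

/-- The trace of an operator nilpotent on the kernel is the trace on the range. -/
theorem trace_eq_trace_range (G : V →ₗ[ℂ] Q) (A : V →ₗ[ℂ] V)
    (B : range G →ₗ[ℂ] range G) (hGA : ∀ x, G.rangeRestrict (A x) = B (G.rangeRestrict x))
    (hnil : ∃ J : ℕ, ∀ x, G x = 0 → (A ^ J) x = 0) :
    trace ℂ V A = trace ℂ (range G) B := by
  have hker : ∀ x, x ∈ ker G.rangeRestrict ↔ G x = 0 := fun x => by
    rw [ker_rangeRestrict, mem_ker]
  obtain ⟨S, hS⟩ := G.rangeRestrict.exists_rightInverse_of_surjective G.range_rangeRestrict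
  set K := ker G.rangeRestrict
  have hSG : ∀ y, G.rangeRestrict (S y) = y := fun y => LinearMap.congr_fun hS y
  let P : V →ₗ[ℂ] K := (LinearMap.id - S ∘ₗ G.rangeRestrict).codRestrict K fun x => by
    rw [mem_ker, LinearMap.sub_apply, map_sub, LinearMap.id_apply, LinearMap.comp_apply, hSG,
      sub_self]
  have hAK : ∀ x ∈ K, A x ∈ K := fun x hx => by
    rw [mem_ker, hGA, mem_ker.1 hx, map_zero]
  set AK : K →ₗ[ℂ] K := A.restrict hAK
  have hsplit : A = (A ∘ₗ S) ∘ₗ G.rangeRestrict + (A ∘ₗ K.subtype) ∘ₗ P := by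
    ext x
    simp [P, map_sub]
  have hPA : P ∘ₗ A ∘ₗ K.subtype = AK := by
    ext x
    have h := mem_ker.1 (hAK x x.2)
    simp [P, AK, restrict_apply, h]
  have hGB : G.rangeRestrict ∘ₗ A ∘ₗ S = B := by
    refine LinearMap.ext fun y => ?_
    rw [LinearMap.comp_apply, LinearMap.comp_apply, hGA, hSG]
  have hnilK : IsNilpotent AK := by
    obtain ⟨J, hJ⟩ := hnil
    refine ⟨J, ?_⟩
    ext x
    rw [Module.End.pow_restrict J]
    exact hJ x ((hker x).1 x.2)
  rw [hsplit, map_add, trace_comp_comm' G.rangeRestrict (A ∘ₗ S),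
    trace_comp_comm' P (A ∘ₗ K.subtype), hGB, hPA,
    (LinearMap.isNilpotent_trace_of_isNilpotent hnilK).eq_zero, add_zero]

omit [FiniteDimensional ℂ V] in
/-- An invertible operator has the identity among combinations of its high powers, so the traces of
its high powers on the image of a nonzero idempotent do not all vanish. -/
theorem exists_trace_pow_ne_zero [FiniteDimensional ℂ Q] (A E : Q →ₗ[ℂ] Q) (hA : IsUnit A)
    (hE : E * E = E) (hE0 : E ≠ 0) (j₀ : ℕ) :
    ∃ j ≥ j₀, trace ℂ Q (A ^ j * E) ≠ 0 := by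
  by_contra h
  push Not at h
  have hint : IsIntegral ℂ A := Algebra.IsIntegral.isIntegral A
  have hnt : Nontrivial (Q →ₗ[ℂ] Q) := ⟨⟨E, 0, hE0⟩⟩
  set p := minpoly ℂ A
  -- the constant term is nonzero
  have h0 : p.coeff 0 ≠ 0 := by
    intro h0
    obtain ⟨r, hr⟩ := Polynomial.X_dvd_iff.2 h0
    have hev : A * Polynomial.aeval A r = 0 := by
      have := minpoly.aeval ℂ A
      rwa [show minpoly ℂ A = Polynomial.X * r from hr, map_mul, Polynomial.aeval_X] at this
    have hr0 : r ≠ 0 := by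
      rintro rfl
      exact minpoly.ne_zero hint (by simpa using hr)
    have hdeg : r.degree < p.degree := by
      rw [hr, Polynomial.degree_mul, Polynomial.degree_X, add_comm,
        Polynomial.degree_eq_natDegree hr0]
      exact_mod_cast r.natDegree.lt_succ_self
    exact absurd (minpoly.degree_le_of_ne_zero ℂ A hr0 (hA.mul_right_eq_zero.1 hev))
      (not_le.2 hdeg)
  set q := Polynomial.C (-(p.coeff 0)⁻¹) * p.divX
  have hone : A * Polynomial.aeval A q = 1 := by
    have e := minpoly.aeval ℂ A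
    rw [show minpoly ℂ A = Polynomial.X * p.divX + Polynomial.C (p.coeff 0) from
      (Polynomial.X_mul_divX_add p).symm, map_add, map_mul, Polynomial.aeval_X, Polynomial.aeval_C,
      add_eq_zero_iff_eq_neg] at e
    rw [map_mul, Polynomial.aeval_C, ← mul_assoc, ← Algebra.commutes, mul_assoc, e, mul_neg,
      ← map_mul, neg_mul, map_neg, neg_neg, inv_mul_cancel₀ h0, map_one]
  have hcomm : Commute A (Polynomial.aeval A q) := by
    conv_lhs => rw [← Polynomial.aeval_X (R := ℂ) A]
    exact (Commute.all _ _).map _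
  have hone' : Polynomial.aeval A (Polynomial.X ^ j₀ * q ^ j₀) = 1 := by
    rw [map_mul, map_pow, map_pow, Polynomial.aeval_X, ← hcomm.mul_pow, hone, one_pow]
  have htr : trace ℂ Q E = 0 := by
    rw [← one_mul E, ← hone', Polynomial.aeval_eq_sum_range, Finset.sum_mul, map_sum]
    refine Finset.sum_eq_zero fun j _ => ?_
    rw [smul_mul_assoc, map_smul, Polynomial.coeff_X_pow_mul']
    split_ifs with hj
    · rw [h j hj, smul_zero]
    · rw [zero_smul]
  have hproj : LinearMap.IsProj (range E) E :=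
    ⟨fun x => mem_range_self E x, by
      rintro _ ⟨x, rfl⟩
      exact LinearMap.congr_fun hE x⟩
  rw [hproj.trace, Nat.cast_eq_zero, Submodule.finrank_eq_zero, range_eq_bot] at htr
  exact hE0 htr

variable {G : Type*} [Group G] [Fintype G]

omit [FiniteDimensional ℂ V] in
/-- The average of a representation of a finite group. -/
def repAvg (ρ : G →* Module.End ℂ Q) : Module.End ℂ Q := (Fintype.card G : ℂ)⁻¹ • ∑ g, ρ g

omit [FiniteDimensional ℂ V] in
theorem rho_mul_repAvg (ρ : G →* Module.End ℂ Q) (g : G) : ρ g * repAvg ρ = repAvg ρ := by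
  rw [repAvg, mul_smul_comm, Finset.mul_sum]
  congr 1
  exact Fintype.sum_equiv (Equiv.mulLeft g) _ _ fun h => by simp

omit [FiniteDimensional ℂ V] in
theorem repAvg_mul_self (ρ : G →* Module.End ℂ Q) : repAvg ρ * repAvg ρ = repAvg ρ := by
  conv_lhs => arg 1; rw [repAvg]
  rw [smul_mul_assoc, Finset.sum_mul, Finset.sum_congr rfl fun g _ => rho_mul_repAvg ρ g,
    Finset.sum_const, Finset.card_univ, ← Nat.cast_smul_eq_nsmul ℂ, smul_smul,
    inv_mul_cancel₀ (Nat.cast_ne_zero.2 Fintype.card_ne_zero), one_smul]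

omit [FiniteDimensional ℂ V] in
theorem repAvg_apply_eq_self (ρ : G →* Module.End ℂ Q) {x : Q} (hx : ∀ g, ρ g x = x) :
    repAvg ρ x = x := by
  rw [repAvg, LinearMap.smul_apply, LinearMap.sum_apply, Finset.sum_congr rfl fun g _ => hx g,
    Finset.sum_const, Finset.card_univ, ← Nat.cast_smul_eq_nsmul ℂ, smul_smul,
    inv_mul_cancel₀ (Nat.cast_ne_zero.2 Fintype.card_ne_zero), one_smul]

omit [FiniteDimensional ℂ V] in
theorem commute_repAvg (ρ : G →* Module.End ℂ Q) {A : Module.End ℂ Q}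
    (hA : ∀ g, Commute (ρ g) A) : Commute (repAvg ρ) A := by
  refine Commute.smul_left ?_ _
  exact Commute.sum_left _ _ _ fun g _ => hA g

omit [FiniteDimensional ℂ V] in
/-- Conjugating a twist by an invertible operator which commutes with `Y` moves the trace by the
cocycle `u`. -/
theorem trace_twist_eq {T Y R u : Q →ₗ[ℂ] Q} (hR : IsUnit R)
    (hTR : T * R = R * (u * T)) (hRY : Commute R Y) :
    trace ℂ Q (u * T * Y) = trace ℂ Q (T * Y) := by
  obtain ⟨R, rfl⟩ := hR
  have h2 : T * Y * (R : Q →ₗ[ℂ] Q) = (R : Q →ₗ[ℂ] Q) * (u * T * Y) := by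
    rw [mul_assoc, ← hRY.eq, ← mul_assoc, hTR]
    simp only [mul_assoc]
  calc trace ℂ Q (u * T * Y)
      = trace ℂ Q (((R⁻¹ : (Q →ₗ[ℂ] Q)ˣ) : Q →ₗ[ℂ] Q) * ((R : Q →ₗ[ℂ] Q) * (u * T * Y))) := by
        rw [← mul_assoc _ (R : Q →ₗ[ℂ] Q), Units.inv_mul, one_mul]
    _ = trace ℂ Q (T * Y) := by
        rw [← h2, trace_mul_comm, mul_assoc, Units.mul_inv, mul_one]

omit [FiniteDimensional ℂ V] in
/-- **Concentration.** If every element of a finite group of twist cocycles comes from an
invertible translation commuting with `A`, the group commutes with `A`, and the twist is the identity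
on the invariant vectors, then the twisted trace of `A^j` is its trace on invariants. -/
theorem trace_twist_concentrate (ρ : G →* Module.End ℂ Q) (T A : Q →ₗ[ℂ] Q)
    (hgen : ∀ g, ∃ R : Q →ₗ[ℂ] Q, IsUnit R ∧ T * R = R * (ρ g * T) ∧ Commute R A)
    (hTid : T * repAvg ρ = repAvg ρ) (hρA : ∀ g, Commute (ρ g) A) :
    trace ℂ Q (T * A) = trace ℂ Q (A * repAvg ρ) := by
  have key : ∀ g, trace ℂ Q (ρ g * T * A) = trace ℂ Q (T * A) := fun g => by
    obtain ⟨R, hR, hTR, h⟩ := hgen g
    exact trace_twist_eq hR hTR h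
  have : trace ℂ Q (T * A) = trace ℂ Q (repAvg ρ * T * A) := by
    rw [repAvg, smul_mul_assoc, smul_mul_assoc, map_smul, Finset.sum_mul, Finset.sum_mul, map_sum,
      Finset.sum_congr rfl fun g _ => key g, Finset.sum_const, Finset.card_univ, nsmul_eq_mul,
      smul_eq_mul, inv_mul_cancel_left₀ (Nat.cast_ne_zero.2 Fintype.card_ne_zero)]
  have hc := (commute_repAvg ρ hρA).eq
  calc trace ℂ Q (T * A) = trace ℂ Q (repAvg ρ * (T * A)) := by rw [this, mul_assoc]
    _ = trace ℂ Q (T * A * repAvg ρ) := trace_mul_comm ℂ _ _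
    _ = trace ℂ Q (A * repAvg ρ) := by rw [mul_assoc, ← hc, ← mul_assoc, hTid, hc]

/-- **The twisted trace on germs.** A commutative group of translations with a twist `T`: if the
twist fixes the vectors invariant under the cocycles, which act through a finite group, and some
nonzero vector is invariant under all unit translations, then some high power of an invertible
translation has nonzero twisted trace. -/
theorem exists_twisted_trace_ne_zero {Γ : Type*} [CommGroup Γ] [FiniteDimensional ℂ Q]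
    (ρ : Γ →* Module.End ℂ Q) (tw z : Γ →* Γ) (hz : ∀ d, z d = tw d * d⁻¹)
    (hfin : (Set.range fun d => ρ (z d)).Finite) (T : Module.End ℂ Q)
    (htw : ∀ d, T * ρ (tw d) = ρ d * T) (hfix : ∀ y, (∀ d, ρ (z d) y = y) → T y = y)
    {Bt : Type*} [Group Bt] [Fintype Bt] (ρB : Bt →* Module.End ℂ Q) (P : Γ → Prop)
    (hzP : ∀ d, P (z d)) (hB : ∀ x, ∃ u, P u ∧ ρB x = ρ u) (v₀ : Q) (hv₀ : v₀ ≠ 0)
    (hv₀fix : ∀ u, P u → ρ u v₀ = v₀) (π : Γ) (j₁ : ℕ) :
    ∃ j ≥ j₁, trace ℂ Q (T * (ρ π ^ j * repAvg ρB)) ≠ 0 := by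
  classical
  set σ : Γ →* (Module.End ℂ Q)ˣ := ρ.toHomUnits.comp z
  haveI : Finite σ.range := by
    have hsub : (σ.range : Set (Module.End ℂ Q)ˣ) ⊆
        Units.val ⁻¹' (Set.range fun d => ρ (z d)) := by
      rintro _ ⟨d, rfl⟩
      exact ⟨d, rfl⟩
    exact ((hfin.preimage Units.val_injective.injOn).subset hsub).to_subtype
  letI := Fintype.ofFinite σ.range
  set ρZ : σ.range →* Module.End ℂ Q := (Units.coeHom _).comp σ.range.subtype
  have hZmem : ∀ g, ∃ d, ρZ g = ρ (z d) := fun g => by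
    obtain ⟨d, hd⟩ := g.2
    exact ⟨d, (congrArg Units.val hd).symm⟩
  have hρcomm : ∀ g g', Commute (ρ g) (ρ g') := fun g g' => (Commute.all g g').map ρ
  have hBany : ∀ g, Commute (repAvg ρB) (ρ g) := fun g => commute_repAvg ρB fun x => by
    obtain ⟨u, -, hu⟩ := hB x
    rw [hu]; exact hρcomm _ _
  have hZB : ∀ g, Commute (ρZ g) (repAvg ρB) := fun g => by
    obtain ⟨d, hd⟩ := hZmem g
    rw [hd]; exact (hBany _).symm
  have hπZ : ∀ g, Commute (ρZ g) (ρ π) := fun g => by
    obtain ⟨d, hd⟩ := hZmem g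
    rw [hd]; exact hρcomm _ _
  have hPP : Commute (repAvg ρB) (repAvg ρZ) := (commute_repAvg ρZ hZB).symm
  have hTid : T * repAvg ρZ = repAvg ρZ := LinearMap.ext fun x => hfix _ fun d =>
    LinearMap.congr_fun (rho_mul_repAvg ρZ ⟨σ d, d, rfl⟩) x
  have hgen : ∀ (j : ℕ) (g : σ.range), ∃ R, IsUnit R ∧ T * R = R * (ρZ g * T) ∧
      Commute R (ρ π ^ j * repAvg ρB) := by
    intro j g
    obtain ⟨d, hd⟩ := hZmem g
    refine ⟨ρ (tw d⁻¹), (Group.isUnit _).map _, ?_,
      ((hρcomm _ π).pow_right j).mul_right (hBany _).symm⟩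
    rw [htw, hd, ← mul_assoc, ← map_mul, hz]
    congr 2
    rw [← mul_assoc, ← map_mul, inv_mul_cancel, map_one, one_mul]
  set E := repAvg ρB * repAvg ρZ with hE
  have hEidem : E * E = E := by
    rw [hE, hPP.symm.mul_mul_mul_comm, repAvg_mul_self, repAvg_mul_self]
  have hE0 : E ≠ 0 := by
    intro h0
    have h1 : repAvg ρZ v₀ = v₀ := repAvg_apply_eq_self ρZ fun g => by
      obtain ⟨d, hd⟩ := hZmem g
      rw [hd]; exact hv₀fix _ (hzP d)
    have h2 : repAvg ρB v₀ = v₀ := repAvg_apply_eq_self ρB fun x => by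
      obtain ⟨u, hu1, hu⟩ := hB x
      rw [hu]; exact hv₀fix _ hu1
    have := LinearMap.congr_fun h0 v₀
    rw [hE, Module.End.mul_apply, h1, h2] at this
    exact hv₀ this
  obtain ⟨j, hj, hne⟩ := exists_trace_pow_ne_zero (ρ π) E ((Group.isUnit π).map ρ) hEidem hE0 j₁
  refine ⟨j, hj, ?_⟩
  rw [trace_twist_concentrate ρZ T (ρ π ^ j * repAvg ρB) (hgen j) hTid
    (fun g => ((hπZ g).pow_right j).mul_right (hZB g)), mul_assoc]
  exact hne

/-- Transporting the nonvanishing from germs to the space itself. -/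
theorem trace_comp_ne_zero (Gm : V →ₗ[ℂ] Q) (T A W : Module.End ℂ V)
    (T' R : Module.End ℂ (range Gm)) {Bt : Type*} [Group Bt] [Fintype Bt]
    (ρB : Bt →* Module.End ℂ (range Gm)) (c : ℂ) (hc : c ≠ 0)
    (hT : ∀ x, Gm.rangeRestrict (T x) = T' (Gm.rangeRestrict x))
    (hA : ∀ x, Gm.rangeRestrict (A x) = (c • R) (Gm.rangeRestrict x))
    (hW : ∀ x, Gm.rangeRestrict (W x) = (∑ g, ρB g) (Gm.rangeRestrict x)) {j : ℕ}
    (hkill : ∀ x, Gm x = 0 → (A ^ j) x = 0)
    (hne : trace ℂ (range Gm) (T' * (R ^ j * repAvg ρB)) ≠ 0) :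
    trace ℂ V (T * (A ^ j * W)) ≠ 0 := by
  have hpow : ∀ (i : ℕ) (x : V),
      Gm.rangeRestrict ((A ^ i) x) = ((c • R) ^ i) (Gm.rangeRestrict x) := fun i => by
    induction i with
    | zero => intro x; rfl
    | succ i ih =>
      intro x
      rw [pow_succ, pow_succ, Module.End.mul_apply, ih, hA, Module.End.mul_apply]
  rw [trace_eq_trace_range Gm (T * (A ^ j * W)) (T' * ((c • R) ^ j * ∑ g, ρB g))
    (fun x => by simp only [Module.End.mul_apply]; rw [hT, hpow, hW])
    ⟨1, fun x hx => by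
      have hWx : Gm (W x) = 0 := by
        have h1 := congrArg Subtype.val (hW x)
        rw [show Gm.rangeRestrict x = 0 from Subtype.ext hx, map_zero] at h1
        exact h1
      rw [pow_one, Module.End.mul_apply, Module.End.mul_apply, hkill _ hWx, map_zero]⟩]
  have hsum : ∑ g, ρB g = (Fintype.card Bt : ℂ) • repAvg ρB := by
    rw [repAvg, smul_smul, mul_inv_cancel₀ (Nat.cast_ne_zero.2 Fintype.card_ne_zero), one_smul]
  rw [smul_pow, hsum, smul_mul_assoc, mul_smul_comm, mul_smul_comm, map_smul, mul_smul_comm,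
    map_smul, smul_eq_mul, smul_eq_mul]
  exact mul_ne_zero (pow_ne_zero _ hc)
    (mul_ne_zero (Nat.cast_ne_zero.2 Fintype.card_ne_zero) hne)

end FLTAgent.LT.TraceTheta
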