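import Fermat.Agent.LT.TF.Trace.Recursion
import Fermat.Agent.LT.TF.Trace.Algebra

/-!
Germs at the fixed bad places: translations, the twist, the germ map of a space of forms, finiteness
of unit translations, vanishing of deep coefficients on the kernel.
-/

set_option autoImplicit false
set_option linter.style.haveILetI false
set_option linter.unusedSectionVars false

noncomputable section

namespace FLTAgent.LT.TraceTheta

open NumberField IsDedekindDomain WithZero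
open FLTAgent.LT.RS FLTAgent.LT.Red

variable {F : Type*} [Field F] [NumberField F] [PinSel F] [IsTotallyComplex F] (τ : F ≃+* F) (N : ℕ)

local notation "HS" => HeightOneSpectrum (𝓞 F)

/-- Ideles supported at the fixed bad places. -/
def nsId : Subgroup (Af F)ˣ where
  carrier := {a | ∀ v : HS, ¬ NsV τ N v → (a : Af F) v = 1}
  one_mem' _ _ := rfl
  mul_mem' ha hb v hv := by rw [af_unit_mul_apply, ha v hv, hb v hv, one_mul]
  inv_mem' ha v hv := by rw [af_unit_inv_apply, ha v hv, inv_one]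

/-- Deep in the cusp at the fixed bad places. -/
def Deep (k : ℕ) (b : nsId τ N) : Prop :=
  ∀ v : HS, NsV τ N v → Valued.v (((b : (Af F)ˣ) : Af F) v) ≤ Valued.v ((N : Af F) v) ^ k

variable {τ N}

theorem Deep.mono {k k' : ℕ} (h : k ≤ k') {b : nsId τ N} (hb : Deep τ N k' b) : Deep τ N k b :=
  fun v hv => (hb v hv).trans (pow_le_pow_right_of_le_one' (valued_natCast_le_one _ v) h)

theorem valued_natCast_le_exp {v : HS} (hv : NsV τ N v) :
    Valued.v ((N : Af F) v) ≤ exp (-1 : ℤ) := by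
  rw [valued_natCast]
  exact (v.intValuation_le_pow_iff_mem _ 1).2 (by simpa using hv.1)

theorem finite_nsV (hN : 0 < N) : {v : HS | NsV τ N v}.Finite :=
  (finite_natCast_mem hN).subset fun _ hv => hv.1

theorem exists_pow_le_nsV (hN : 0 < N) (γ : HS → ℤᵐ⁰) (hγ : ∀ v, γ v ≠ 0) :
    ∃ k : ℕ, ∀ v : HS, NsV τ N v → Valued.v ((N : Af F) v) ^ k ≤ γ v := by
  classical
  choose j hj using fun v => exists_exp_le (hγ v)
  refine ⟨(finite_nsV (τ := τ) hN).toFinset.sup j, fun v hv => ?_⟩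
  have hjk := Finset.le_sup (f := j) ((finite_nsV (τ := τ) hN).mem_toFinset.2 hv)
  calc Valued.v ((N : Af F) v) ^ (finite_nsV (τ := τ) hN).toFinset.sup j
      ≤ exp (-1 : ℤ) ^ (finite_nsV (τ := τ) hN).toFinset.sup j :=
        pow_le_pow_left' (valued_natCast_le_exp hv) _
    _ ≤ exp (-1 : ℤ) ^ j v := pow_le_pow_right_of_le_one'
        (by rw [← exp_zero, exp_le_exp]; omega) hjk
    _ = exp (-(j v : ℤ)) := by rw [← exp_nsmul]; simp
    _ ≤ γ v := hj v

theorem exists_deep_shift (hN : 0 < N) (g : nsId τ N) (k : ℕ) :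
    ∃ k', ∀ b, Deep τ N k' b → Deep τ N k (g * b) := by
  obtain ⟨k', hk'⟩ := exists_pow_le_nsV (τ := τ) hN
    (fun v => Valued.v ((N : Af F) v) ^ k / Valued.v (((g : (Af F)ˣ) : Af F) v)) fun v =>
      div_ne_zero (pow_ne_zero _ (valued_natCast_ne_zero hN v))
        ((map_ne_zero _).2 (unit_apply_ne_zero _ v))
  refine ⟨k', fun b hb v hv => ?_⟩
  rw [Subgroup.coe_mul, af_unit_mul_apply, map_mul, mul_comm]
  exact (le_div_iff₀ (zero_lt_iff.2 ((map_ne_zero _).2 (unit_apply_ne_zero _ v)))).1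
    ((hb v hv).trans (hk' v hv))

variable (τ N)

/-- Functions of the good part and the fixed bad part. -/
abbrev GFun : Type _ := goodId (F := F) N → nsId τ N → ℂ

/-- Functions vanishing deep in the cusp. -/
def evZero : Submodule ℂ (GFun τ N) where
  carrier := {f | ∀ o, ∃ k, ∀ b, Deep τ N k b → f o b = 0}
  zero_mem' _ := ⟨0, fun _ _ => rfl⟩
  add_mem' {f g} hf hg o := by
    obtain ⟨k, hk⟩ := hf o
    obtain ⟨l, hl⟩ := hg o
    exact ⟨max k l, fun b hb => by
      rw [Pi.add_apply, Pi.add_apply, hk b (hb.mono (le_max_left _ _)),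
        hl b (hb.mono (le_max_right _ _)), add_zero]⟩
  smul_mem' c f hf o := by
    obtain ⟨k, hk⟩ := hf o
    exact ⟨k, fun b hb => by rw [Pi.smul_apply, Pi.smul_apply, hk b hb, smul_zero]⟩

/-- Germs. -/
abbrev Germ : Type _ := GFun τ N ⧸ evZero τ N

/-- Translation. -/
def transF (g : nsId τ N) : GFun τ N →ₗ[ℂ] GFun τ N where
  toFun f o b := f o (g * b)
  map_add' _ _ := rfl
  map_smul' _ _ := rfl

theorem transF_mem (hN : 0 < N) (g : nsId τ N) :
    evZero τ N ≤ (evZero τ N).comap (transF τ N g) := fun f hf o => by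
  obtain ⟨k, hk⟩ := hf o
  obtain ⟨k', hk'⟩ := exists_deep_shift hN g k
  exact ⟨k', fun b hb => hk _ (hk' b hb)⟩

/-- Translations of germs. -/
def transQ (hN : 0 < N) : nsId τ N →* Module.End ℂ (Germ τ N) where
  toFun g := (evZero τ N).mapQ _ (transF τ N g) (transF_mem τ N hN g)
  map_one' := by
    refine Submodule.linearMap_qext _ (LinearMap.ext fun f => ?_)
    simp only [LinearMap.comp_apply, Submodule.mkQ_apply, Submodule.mapQ_apply, Module.End.one_apply]
    congr 1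
    funext o b
    exact congrArg (f o) (one_mul b)
  map_mul' g h := by
    refine Submodule.linearMap_qext _ (LinearMap.ext fun f => ?_)
    simp only [LinearMap.comp_apply, Submodule.mkQ_apply, Submodule.mapQ_apply, Module.End.mul_apply]
    congr 1
    funext o b
    exact congrArg (f o) (by rw [mul_assoc, mul_left_comm])

theorem transQ_mk (hN : 0 < N) (g : nsId τ N) (f : GFun τ N) :
    transQ τ N hN g (Submodule.Quotient.mk f) = Submodule.Quotient.mk (transF τ N g f) := rfl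

theorem nsV_below {v : HS} (hv : NsV τ N (below τ v)) : NsV τ N v := by
  have h : below τ v = v := below_injective τ hv.2.1
  exact ⟨h ▸ hv.1, h, fun hp => hv.2.2 (h.symm ▸ hp)⟩

theorem Tu_mem_nsId {a : (Af F)ˣ} (ha : a ∈ nsId τ N) : Tu τ a ∈ nsId τ N := fun _ hv =>
  Tu_apply_eq_one (ha _ fun h => hv (nsV_below τ N h))

/-- The twist of the fixed bad part. -/
def twB : nsId τ N →* nsId τ N where
  toFun b := ⟨Tu τ b, Tu_mem_nsId τ N b.2⟩
  map_one' := Subtype.ext (map_one _)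
  map_mul' _ _ := Subtype.ext (map_mul _ _ _)

theorem deep_twB {k : ℕ} {b : nsId τ N} (hb : Deep τ N k b) : Deep τ N k (twB τ N b) := by
  intro v hv
  show Valued.v ((Tu τ (b : (Af F)ˣ) : Af F) v) ≤ _
  rw [Tu_apply_valued, ← valued_natCast_below τ N v]
  exact hb _ (by rw [hv.2.1]; exact hv)

/-- The twist on functions. -/
def twF : GFun τ N →ₗ[ℂ] GFun τ N where
  toFun f o b := f o (twB τ N b)
  map_add' _ _ := rfl
  map_smul' _ _ := rfl

/-- The twist on germs. -/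
def twQ : Module.End ℂ (Germ τ N) :=
  (evZero τ N).mapQ _ (twF τ N) fun f hf o => by
    obtain ⟨k, hk⟩ := hf o
    exact ⟨k, fun b hb => hk _ (deep_twB τ N hb)⟩

theorem twQ_mk (f : GFun τ N) :
    twQ τ N (Submodule.Quotient.mk f) = Submodule.Quotient.mk (twF τ N f) := rfl

theorem twQ_mul_transQ (hN : 0 < N) (g : nsId τ N) :
    twQ τ N * transQ τ N hN (twB τ N g) = transQ τ N hN g * twQ τ N := by
  refine Submodule.linearMap_qext _ (LinearMap.ext fun f => ?_)
  simp only [LinearMap.comp_apply, Submodule.mkQ_apply, Module.End.mul_apply, transQ_mk, twQ_mk]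
  congr 1
  funext o b
  exact congrArg (f o) (map_mul (twB τ N) g b).symm

/-- The cocycle of the twist. -/
def zB : nsId τ N →* nsId τ N where
  toFun b := twB τ N b * b⁻¹
  map_one' := by rw [map_one, inv_one, mul_one]
  map_mul' a b := by rw [map_mul, mul_inv, mul_mul_mul_comm]

theorem valued_zB (b : nsId τ N) (v : HS) :
    Valued.v (((zB τ N b : (Af F)ˣ) : Af F) v) = 1 := by
  show Valued.v (((Tu τ (b : (Af F)ˣ) * (b : (Af F)ˣ)⁻¹ : (Af F)ˣ) : Af F) v) = 1
  rw [af_unit_mul_apply, map_mul, valued_inv, Tu_apply_valued]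
  by_cases hv : NsV τ N v
  · rw [hv.2.1, mul_inv_cancel₀ ((map_ne_zero _).2 (unit_apply_ne_zero _ v))]
  · rw [b.2 v hv, b.2 _ fun h => hv (nsV_below τ N h)]
    simp

variable {M : ℕ} {x₀ : (Af F)ˣ} {s : Set.Ioi (0 : ℝ)}
  {V : Submodule ℂ (Form F)} {τ N}

omit [PinSel F] in
theorem cf_smul_add {φ ψ : Form F} (hN : 0 < N) (hφ : CuspZero N φ) (hψ : CuspZero N ψ) (c : ℂ)
    (a : (Af F)ˣ) : cf s (c • φ + ψ) a = c * cf s φ a + cf s ψ a := by
  have h := wh_one_sum (Finset.univ : Finset Bool) (fun i => if i then c else 1)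
    (fun i => if i then φ else ψ) (g := upperGF a 0)
    (fun i _ => by cases i <;> simp [hφ.cont, hψ.cont])
    (fun i _ => by
      cases i
      · simpa using exists_hasPeriod hN hψ.aut (upperGF a 0)
      · simpa using exists_hasPeriod hN hφ.aut (upperGF a 0)) (fun _ => s)
  simpa [cf] using h

theorem TraceHyp.cf_smul_add (h : TraceHyp τ N M x₀ s V) (c : ℂ) {φ ψ : Form F} (hφ : φ ∈ V)
    (hψ : ψ ∈ V) (a : (Af F)ˣ) : cf s (c • φ + ψ) a = c * cf s φ a + cf s ψ a :=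
  TraceTheta.cf_smul_add h.hN (h.cusp φ hφ) (h.cusp ψ hψ) c a

theorem TraceHyp.cf_zero (h : TraceHyp τ N M x₀ s V) (a : (Af F)ˣ) : cf s (0 : Form F) a = 0 := by
  have := h.cf_smul_add 1 (zero_mem V) (zero_mem V) a
  simpa using this

theorem TraceHyp.cf_add (h : TraceHyp τ N M x₀ s V) {φ ψ : Form F} (hφ : φ ∈ V) (hψ : ψ ∈ V)
    (a : (Af F)ˣ) : cf s (φ + ψ) a = cf s φ a + cf s ψ a := by
  simpa using h.cf_smul_add 1 hφ hψ a

theorem TraceHyp.cf_smul (h : TraceHyp τ N M x₀ s V) (c : ℂ) {φ : Form F} (hφ : φ ∈ V)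
    (a : (Af F)ˣ) : cf s (c • φ) a = c * cf s φ a := by
  simpa [h.cf_zero] using h.cf_smul_add c hφ (zero_mem V) a

/-- The germ of a form. -/
def TraceHyp.germ (h : TraceHyp τ N M x₀ s V) : V →ₗ[ℂ] Germ τ N :=
  (evZero τ N).mkQ ∘ₗ
    { toFun := fun φ o b => cf s (φ : Form F) (x₀ * (o : (Af F)ˣ) * (b : (Af F)ˣ))
      map_add' := fun φ ψ => by
        funext o b
        exact h.cf_add φ.2 ψ.2 _
      map_smul' := fun c φ => by
        funext o b
        exact h.cf_smul c φ.2 _ }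

theorem TraceHyp.germ_eq_zero_iff (h : TraceHyp τ N M x₀ s V) (φ : V) :
    h.germ φ = 0 ↔ ∀ o : goodId (F := F) N, ∃ k, ∀ b : nsId τ N, Deep τ N k b →
      cf s (φ : Form F) (x₀ * (o : (Af F)ˣ) * (b : (Af F)ˣ)) = 0 := by
  rw [TraceHyp.germ, LinearMap.comp_apply, Submodule.mkQ_apply, Submodule.Quotient.mk_eq_zero]
  rfl

/-- The twist is the twist of germs. -/
theorem TraceHyp.germ_twist (h : TraceHyp τ N M x₀ s V) (φ : V) :
    h.germ ⟨Tform τ (φ : Form F), h.twist_mem _ φ.2⟩ = twQ τ N (h.germ φ) := by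
  simp only [TraceHyp.germ, LinearMap.comp_apply, Submodule.mkQ_apply, twQ_mk]
  congr 1
  funext o b
  show cf s (Tform τ (φ : Form F)) _ = cf s (φ : Form F) (x₀ * (o : (Af F)ˣ) * Tu τ (b : (Af F)ˣ))
  rw [cf_Tform τ h.hN s (h.cusp _ φ.2), map_mul, map_mul]
  set e := Tu τ x₀ * x₀⁻¹ with he
  have he0 : e ∈ goodId N := fun v hv => by
    rw [he, af_unit_mul_apply, af_unit_inv_apply]
    by_cases hb : FixC τ v
    · rw [h.x0_ns v ⟨hv, hb⟩, inv_one, mul_one]
      exact Tu_apply_eq_one (by rw [hb.1]; exact h.x0_ns v ⟨hv, hb⟩)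
    · rw [h.x0_twist v ⟨hv, hb⟩, mul_inv_cancel₀ (unit_apply_ne_zero _ v)]
  have he1 : ∀ v, Valued.v ((e : Af F) v) = 1 := fun v => by
    rw [he, af_unit_mul_apply, map_mul, valued_inv, Tu_apply_valued]
    by_cases hN : (N : 𝓞 F) ∈ v.asIdeal
    · by_cases hb : FixC τ v
      · rw [hb.1, h.x0_ns v ⟨hN, hb⟩, map_one, inv_one, mul_one]
      · rw [← Tu_apply_valued, h.x0_twist v ⟨hN, hb⟩,
          mul_inv_cancel₀ ((map_ne_zero _).2 (unit_apply_ne_zero _ v))]
    · rw [h.x0_val v hN, h.x0_val _ fun h' => hN ((natCast_mem_below τ N v).1 h'),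
        valued_diffId_below, mul_inv_cancel₀]
      exact (lt_of_lt_of_le zero_lt_one (one_le_diffId v)).ne'
  rw [← h.cf_twist_good φ.2 (b := Tu τ (b : (Af F)ˣ)) (Tu_mem_nsId τ N b.2) o.2,
    show Tu τ x₀ * Tu τ (o : (Af F)ˣ) * Tu τ (b : (Af F)ˣ) =
      x₀ * Tu τ (o : (Af F)ˣ) * Tu τ (b : (Af F)ˣ) * e by
        rw [he]; simp [mul_comm, mul_left_comm],
    h.cf_mul_good φ.2 he0 he1]

/-- The kernel is stable under good Hecke operators. -/
theorem TraceHyp.germ_hecke (h : TraceHyp τ N M x₀ s V) {φ : V} (hφ : h.germ φ = 0) (w : HS)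
    (hw : (N : 𝓞 F) ∉ w.asIdeal) :
    h.germ ⟨hecke w (φ : Form F), h.hecke_mem w hw _ φ.2⟩ = 0 := by
  rw [h.germ_eq_zero_iff] at hφ ⊢
  intro o
  have hπ := unifIdele_mem_goodId N hw
  rcases le_or_gt (Valued.v (((o : (Af F)ˣ) : Af F) w)) 1 with hle | hgt
  · obtain ⟨k, hk⟩ := hφ ⟨(o : (Af F)ˣ) * unifIdele w, mul_mem o.2 hπ⟩
    obtain ⟨l, hl⟩ := hφ ⟨(o : (Af F)ˣ) * (unifIdele w)⁻¹, mul_mem o.2 (inv_mem hπ)⟩
    refine ⟨max k l, fun b hb => ?_⟩
    show cf s (hecke w (φ : Form F)) _ = 0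
    rw [h.cf_step φ.2 hw (b.2 w fun h' => hw h'.1) hle, hk b (hb.mono (le_max_left _ _)),
      hl b (hb.mono (le_max_right _ _)), mul_zero, add_zero]
  · refine ⟨0, fun b _ => ?_⟩
    refine h.cf_eq_zero_of_lt (h.hecke_mem w hw _ φ.2) hw ?_
    rw [af_unit_mul_apply, af_unit_mul_apply, b.2 w fun h' => hw h'.1, mul_one, map_mul,
      h.x0_val w hw]
    exact lt_mul_of_one_lt_right (lt_of_lt_of_le zero_lt_one (one_le_diffId w)) hgt

/-- Deep coefficients of the kernel vanish, with a uniform depth. -/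
theorem TraceHyp.exists_deep_zero (h : TraceHyp τ N M x₀ s V) [FiniteDimensional ℂ V] :
    ∃ k, ∀ φ : V, h.germ φ = 0 → ∀ o ∈ goodId N, ∀ b : nsId τ N, Deep τ N k b →
      cf s (φ : Form F) (x₀ * o * (b : (Af F)ˣ)) = 0 := by
  classical
  obtain ⟨k, hk⟩ : ∃ k, ∀ φ ∈ LinearMap.ker h.germ, ∀ b : nsId τ N, Deep τ N k b →
      cf s (φ : Form F) (x₀ * (b : (Af F)ˣ)) = 0 := by
    obtain ⟨S, hS⟩ : (LinearMap.ker h.germ).FG := IsNoetherian.noetherian _
    have hSmem : ∀ φ ∈ S, h.germ φ = 0 := fun φ hφ =>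
      LinearMap.mem_ker.1 (hS ▸ Submodule.subset_span hφ)
    choose! c hc using fun φ (hφ : φ ∈ S) => (h.germ_eq_zero_iff φ).1 (hSmem φ hφ) 1
    refine ⟨S.sup c, fun φ hφ b hb => ?_⟩
    rw [← hS] at hφ
    induction hφ using Submodule.span_induction with
    | mem x hx =>
      simpa using hc x hx b (hb.mono (Finset.le_sup (f := c) hx))
    | zero => exact h.cf_zero _
    | add x y _ _ hx hy =>
      rw [Submodule.coe_add, h.cf_add x.2 y.2, hx, hy, add_zero]
    | smul c x _ hx => rw [Submodule.coe_smul, h.cf_smul c x.2, hx, mul_zero]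
  refine ⟨k, fun φ hφ o ho b hb => ?_⟩
  revert φ
  refine good_induction N (fun o => ∀ φ : V, h.germ φ = 0 →
    cf s (φ : Form F) (x₀ * o * (b : (Af F)ˣ)) = 0) ?_ ?_ ?_ o ho
  · intro o ho h1 φ hφ
    rw [mul_right_comm, h.cf_mul_good φ.2 ho h1]
    exact hk φ (LinearMap.mem_ker.2 hφ) b hb
  · intro o ho w hgt φ hφ
    have hw : (N : 𝓞 F) ∉ w.asIdeal := fun h' => by simp [ho w h'] at hgt
    refine h.cf_eq_zero_of_lt φ.2 hw ?_
    rw [af_unit_mul_apply, af_unit_mul_apply, b.2 w fun h' => hw h'.1, mul_one, map_mul,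
      h.x0_val w hw]
    exact lt_mul_of_one_lt_right (lt_of_lt_of_le zero_lt_one (one_le_diffId w)) hgt
  · intro w hw o ho hle i1 i2 φ hφ
    have e := h.cf_step φ.2 hw (b.2 w fun h' => hw h'.1) hle
    have e1 := i1 ⟨hecke w (φ : Form F), h.hecke_mem w hw _ φ.2⟩ (h.germ_hecke hφ w hw)
    rw [e, i2 φ hφ, add_zero] at e1
    haveI : Finite (𝓞 F ⧸ w.asIdeal) := Ideal.finiteQuotientOfFreeOfNeBot w.asIdeal w.ne_bot
    exact (mul_eq_zero.1 e1).resolve_left (Nat.cast_ne_zero.2 Nat.card_pos.ne')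

/-- Unit translations of germs of forms depend only on the class modulo the level. -/
theorem TraceHyp.germ_congr (h : TraceHyp τ N M x₀ s V) (φ : V) {u u' : nsId τ N}
    (hu : ∀ v : HS, Valued.v (((u : (Af F)ˣ) : Af F) v) = 1)
    (hu' : ∀ v : HS, Valued.v (((u' : (Af F)ˣ) : Af F) v) = 1)
    (hd : ∀ v : HS, Valued.v (((u : (Af F)ˣ) : Af F) v - ((u' : (Af F)ˣ) : Af F) v) ≤
      Valued.v ((N : Af F) v)) (o : goodId (F := F) N) (b : nsId τ N) :
    cf s (φ : Form F) (x₀ * (o : (Af F)ˣ) * (u * b : nsId τ N)) =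
      cf s (φ : Form F) (x₀ * (o : (Af F)ˣ) * (u' * b : nsId τ N)) := by
  set e : (Af F)ˣ := (u : (Af F)ˣ) * (u' : (Af F)ˣ)⁻¹ with he
  have key : ∀ (p q : (Af F)ˣ) (v : HS), Valued.v ((q : Af F) v) = 1 →
      Valued.v ((p : Af F) v - (q : Af F) v) ≤ Valued.v ((N : Af F) v) →
      Valued.v (((p * q⁻¹ : (Af F)ˣ) : Af F) v - 1) ≤ Valued.v ((N : Af F) v) := by
    intro p q v hq hpq
    rw [af_unit_mul_apply, af_unit_inv_apply,
      show (p : Af F) v * ((q : Af F) v)⁻¹ - 1 = ((p : Af F) v - (q : Af F) v) * ((q : Af F) v)⁻¹ by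
        rw [sub_mul, mul_inv_cancel₀ (unit_apply_ne_zero q v)],
      map_mul, map_inv₀, hq, inv_one, mul_one]
    exact hpq
  have hc := cf_mul_unit s h.hN (h.cusp _ φ.2) (u := e) (fun v => key _ _ v (hu' v) (hd v))
    (fun v => by
      show Valued.v ((((u : (Af F)ˣ) * (u' : (Af F)ˣ)⁻¹)⁻¹ : (Af F)ˣ).val v - 1) ≤ _
      rw [mul_inv, inv_inv, mul_comm]
      refine key _ _ v (hu v) ?_
      rw [Valuation.map_sub_swap]; exact hd v)
    (x₀ * (o : (Af F)ˣ) * (u' * b : nsId τ N))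
  rw [← hc, Subgroup.coe_mul, Subgroup.coe_mul, he]
  congr 1
  rw [eq_comm, ← mul_assoc (_ * _) (u : (Af F)ˣ), mul_inv_eq_iff_eq_mul]
  ac_rfl

end FLTAgent.LT.TraceTheta
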