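import Fermat.Agent.LT.TF.Trace.BadFam
import Fermat.Agent.LT.TF.Trace.Germ

/-!
The inverse of the generator: a generator again, with the same twisted contracting classes at the
fixed places.
-/

set_option autoImplicit false
set_option linter.unusedSectionVars false
set_option linter.style.haveILetI false

noncomputable section

namespace FLTAgent.LT.TraceTheta

open NumberField IsDedekindDomain
open FLTAgent.LT.Match

local notation "Γ₀" => WithZero (Multiplicative ℤ)

variable {F K : Type} [Field F] [NumberField F] [Field K] [NumberField K] {i : K →+* F}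
  {τ : F ≃+* F}

theorem symm_eq_sq (h : Ell.CycGen i (τ : F →+* F) 3) (x : F) : τ.symm x = τ (τ x) := by
  apply τ.injective
  rw [RingEquiv.apply_symm_apply]
  exact (h.pow x).symm

theorem cycGen_symm (h : Ell.CycGen i (τ : F →+* F) 3) :
    Ell.CycGen i (τ.symm : F →+* F) 3 where
  odd := h.odd
  pow x := by
    show τ.symm (τ.symm (τ.symm x)) = x
    apply τ.injective
    apply τ.injective
    apply τ.injective
    simp only [RingEquiv.apply_symm_apply]
    exact (h.pow x).symm
  ne k hk hk' := by
    obtain ⟨x, hx⟩ := h.ne k hk hk'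
    refine ⟨(τ : F →+* F)^[k] x, fun e => hx ?_⟩
    have hl : Function.LeftInverse (τ.symm : F →+* F) (τ : F →+* F) := fun y =>
      τ.symm_apply_apply y
    exact (e.symm.trans (hl.iterate k x))
  fix x hx := h.fix x (by
    have e : τ.symm x = x := hx
    conv_lhs => rw [← e]
    exact τ.apply_symm_apply x)
  fixed y := by
    show τ.symm (i y) = i y
    conv_lhs => rw [← h.fixed y]
    exact τ.symm_apply_apply (i y)

theorem cMap_symm (h : Ell.CycGen i (τ : F →+* F) 3) {w : HeightOneSpectrum (𝓞 F)}
    (hw : placeBelow (τ : F →+* F) w = w) (hw' : placeBelow (τ.symm : F →+* F) w = w)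
    (x : Kp F w) :
    cMap (τ.symm : F →+* F) w w hw' x =
      cMap (τ : F →+* F) w w hw (cMap (τ : F →+* F) w w hw x) :=
  congrFun (hom_ext_dense (continuous_cMap _ hw')
    ((continuous_cMap _ hw).comp (continuous_cMap _ hw)) fun a => by
      simp only [Function.comp_apply, cMap_coe]
      exact congrArg (fun z : F => (z : Kp F w)) (symm_eq_sq h a)) x

theorem nrm3_symm (h : Ell.CycGen i (τ : F →+* F) 3) {w : HeightOneSpectrum (𝓞 F)}
    (hw : placeBelow (τ : F →+* F) w = w) (hw' : placeBelow (τ.symm : F →+* F) w = w)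
    (b : (Kp F w)ˣ) :
    nrm3 (cMap (τ.symm : F →+* F) w w hw') b = nrm3 (cMap (τ : F →+* F) w w hw) b := by
  refine Units.ext ?_
  simp only [nrm3, Units.val_mul, Units.coe_map, RingHom.toMonoidHom_eq_coe, MonoidHom.coe_coe,
    cMap_symm h hw hw', (pair_of_fixed h hw rfl).cube]
  ring

theorem placeBelow_symm_self {w : HeightOneSpectrum (𝓞 F)}
    (hw : placeBelow (τ : F →+* F) w = w) : placeBelow (τ.symm : F →+* F) w = w :=
  below_injective τ ((below_below_symm τ w).trans hw.symm)

variable [PinSel F]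

theorem fixC_symm_iff {w : HeightOneSpectrum (𝓞 F)} : FixC τ.symm w ↔ FixC τ w :=
  and_congr_left' ⟨fun h => by
    have e := placeBelow_symm_self (τ := τ.symm) h
    rwa [RingEquiv.symm_symm] at e, fun h => placeBelow_symm_self h⟩

theorem nsV_symm_iff {N : ℕ} {w : HeightOneSpectrum (𝓞 F)} :
    NsV τ.symm N w ↔ NsV τ N w :=
  and_congr_right' fixC_symm_iff

theorem spV_symm_iff {N : ℕ} {w : HeightOneSpectrum (𝓞 F)} :
    SpV τ.symm N w ↔ SpV τ N w :=
  and_congr_right' (not_congr fixC_symm_iff)

theorem nsId_symm {N : ℕ} : nsId (F := F) τ.symm N = nsId τ N :=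
  Subgroup.ext fun a => forall_congr' fun v => by rw [nsV_symm_iff]

theorem deep_symm {N k : ℕ} {b : nsId (F := F) τ.symm N} {b' : nsId (F := F) τ N}
    (hb : (b : (Af F)ˣ) = (b' : (Af F)ˣ)) (h : Deep τ N k b') : Deep τ.symm N k b :=
  fun v hv => by rw [hb]; exact h v (nsV_symm_iff.1 hv)

variable [IsTotallyComplex F]

/-- The classes of the inverse generator. -/
theorem omegaAt_symm (h : Ell.CycGen i (τ : F →+* F) 3) {N j : ℕ} (hN : 0 < N) (hj : 0 < j)
    {w : HeightOneSpectrum (𝓞 F)} (hw : placeBelow (τ : F →+* F) w = w)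
    (hwN : (N : 𝓞 F) ∈ w.asIdeal) :
    omegaAt (τ.symm : F →+* F) N j w = omegaAt (τ : F →+* F) N j w := by
  have hw' := placeBelow_symm_self hw
  rw [omegaAt_eq (τ := τ.symm) j hw', omegaAt_eq (τ := τ) j hw]
  have he := levN_lt_one hwN
  have hϖ := v_piU_lt hN hj hwN
  have e : Omega (cMap (τ.symm : F →+* F) w w hw') (levN w N) (piU N j w) =
      Omega (cMap (τ : F →+* F) w w hw) (levN w N) (piU N j w) := Set.ext fun g => by
    rw [(pair_of_fixed (cycGen_symm h) hw' rfl).omega_iff_dset he hϖ,
      (pair_of_fixed h hw rfl).omega_iff_dset he hϖ]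
    simp only [nrm3_symm h hw hw']
  unfold omegaFn
  rw [e]

end FLTAgent.LT.TraceTheta
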