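import Fermat.Agent.LT.TF.Trace.Twist

/-!
Coefficients at products of a fixed idele, an idele supported at good places and one supported at the
fixed bad places: induction on the good part through the Hecke operators, invariance under the twist.
-/

set_option autoImplicit false
set_option linter.style.haveILetI false
set_option linter.unusedSectionVars false

noncomputable section

namespace FLTAgent.LT.TraceTheta

open NumberField IsDedekindDomain WithZero
open FLTAgent.LT.RS FLTAgent.LT.Red

/-- A selection of places where coefficients are pinned, with the radius: `rad v < 1` there. -/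
class PinSel (F : Type*) [Field F] [NumberField F] where
  rad : HeightOneSpectrum (𝓞 F) → WithZero (Multiplicative ℤ)

variable {F : Type*} [Field F] [NumberField F] (τ : F ≃+* F) (N : ℕ)

local notation "HS" => HeightOneSpectrum (𝓞 F)

section pins

variable [PinSel F]

/-- The selected places. -/
def PinV (v : HS) : Prop := PinSel.rad v < 1

/-- The places of the contracting classes: fixed by the twist and not selected. -/
def FixC (v : HS) : Prop := below τ v = v ∧ ¬ PinV v

/-- The bad places of the contracting classes. -/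
def NsV (v : HS) : Prop := (N : 𝓞 F) ∈ v.asIdeal ∧ FixC τ v

/-- The bad places where coefficients are pinned: moved by the twist or selected. -/
def SpV (v : HS) : Prop := (N : 𝓞 F) ∈ v.asIdeal ∧ ¬ FixC τ v

open Classical in
/-- The radius of the units at the pinned places. -/
def radA (M : ℕ) (v : HS) : WithZero (Multiplicative ℤ) :=
  if PinV v then PinSel.rad v else Valued.v ((M : Af F) v)

open Classical in
/-- The radius of the translations at the pinned places. -/
def radB (M : ℕ) (v : HS) : WithZero (Multiplicative ℤ) :=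
  if PinV v then PinSel.rad v else (Valued.v ((M : Af F) v))⁻¹

end pins

theorem af_unit_mul_apply (a b : (Af F)ˣ) (v : HS) :
    ((a * b : (Af F)ˣ) : Af F) v = (a : Af F) v * (b : Af F) v := rfl

theorem af_unit_inv_apply (a : (Af F)ˣ) (v : HS) :
    ((a⁻¹ : (Af F)ˣ) : Af F) v = ((a : Af F) v)⁻¹ :=
  eq_inv_of_mul_eq_one_left (congrFun (congrArg (fun z : Af F => (fun w : HS => z w)) a.inv_mul) v)

theorem af_unit_ext {a b : (Af F)ˣ} (h : ∀ v : HS, (a : Af F) v = (b : Af F) v) : a = b :=
  Units.ext (FiniteAdeleRing.ext F h)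

theorem af_unit_one_apply (v : HS) : ((1 : (Af F)ˣ) : Af F) v = 1 := rfl

open Classical in
/-- The components at the places satisfying `P`, and `1` elsewhere. -/
def restr (P : HS → Prop) (a : (Af F)ˣ) : (Af F)ˣ :=
  { val := ⟨fun v => if P v then (a : Af F) v else 1, by
      refine Filter.eventually_cofinite.2
        ((Filter.eventually_cofinite.1 (a : Af F).2).subset fun v hv => ?_)
      intro h
      refine hv ?_
      show Valued.v (if P v then (a : Af F) v else 1) ≤ 1
      split_ifs
      · exact h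
      · rw [map_one]⟩
    inv := ⟨fun v => if P v then ((a⁻¹ : (Af F)ˣ) : Af F) v else 1, by
      refine Filter.eventually_cofinite.2
        ((Filter.eventually_cofinite.1 ((a⁻¹ : (Af F)ˣ) : Af F).2).subset fun v hv => ?_)
      intro h
      refine hv ?_
      show Valued.v (if P v then ((a⁻¹ : (Af F)ˣ) : Af F) v else 1) ≤ 1
      split_ifs
      · exact h
      · rw [map_one]⟩
    val_inv := FiniteAdeleRing.ext F fun v => by
      show (if P v then (a : Af F) v else 1) *
        (if P v then ((a⁻¹ : (Af F)ˣ) : Af F) v else 1) = 1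
      split_ifs
      · exact congrFun (congrArg (fun z : Af F => (fun w : HS => z w)) a.mul_inv) v
      · rw [mul_one]
    inv_val := FiniteAdeleRing.ext F fun v => by
      show (if P v then ((a⁻¹ : (Af F)ˣ) : Af F) v else 1) *
        (if P v then (a : Af F) v else 1) = 1
      split_ifs
      · exact congrFun (congrArg (fun z : Af F => (fun w : HS => z w)) a.inv_mul) v
      · rw [mul_one] }

theorem restr_apply_of {P : HS → Prop} {v : HS} (h : P v) (a : (Af F)ˣ) :
    (restr P a : Af F) v = (a : Af F) v := by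
  classical exact if_pos h

theorem restr_apply_of_not {P : HS → Prop} {v : HS} (h : ¬ P v) (a : (Af F)ˣ) :
    (restr P a : Af F) v = 1 := by
  classical exact if_neg h

/-- Ideles supported at good places. -/
def goodId : Subgroup (Af F)ˣ where
  carrier := {a | ∀ v : HS, (N : 𝓞 F) ∈ v.asIdeal → (a : Af F) v = 1}
  one_mem' _ _ := rfl
  mul_mem' ha hb v hv := by rw [af_unit_mul_apply, ha v hv, hb v hv, one_mul]
  inv_mem' ha v hv := by rw [af_unit_inv_apply, ha v hv, inv_one]

theorem unifIdele_apply_same (w : HS) :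
    (unifIdele w : Af F) w = ((unif w : F) : w.adicCompletion F) := by
  classical
  exact RestrictedProduct.mulSingle_eq_same _ w _

theorem unifIdele_apply_ne {v w : HS} (h : v ≠ w) : (unifIdele w : Af F) v = 1 := by
  classical
  exact RestrictedProduct.mulSingle_eq_of_ne _ _ h

theorem valued_unifIdele (w : HS) : Valued.v ((unifIdele w : Af F) w) = exp (-1 : ℤ) := by
  rw [unifIdele_apply_same, HeightOneSpectrum.adicCompletion.valued_coe]
  exact (HeightOneSpectrum.valuation_exists_uniformizer F w).choose_spec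

theorem unifIdele_mem_goodId {w : HS} (hw : (N : 𝓞 F) ∉ w.asIdeal) : unifIdele w ∈ goodId N :=
  fun _ hv => unifIdele_apply_ne fun h => hw (h ▸ hv)

theorem finite_valued_ne_one (a : (Af F)ˣ) :
    {v : HS | Valued.v ((a : Af F) v) ≠ 1}.Finite := by
  refine ((Filter.eventually_cofinite.1 (a : Af F).2).union
    (Filter.eventually_cofinite.1 ((a⁻¹ : (Af F)ˣ) : Af F).2)).subset fun v hv => ?_
  rcases lt_or_gt_of_ne (Set.mem_ofPred.1 hv) with h | h
  · refine Or.inr fun h' => ?_
    have h'' : (Valued.v ((a : Af F) v))⁻¹ ≤ 1 := by rw [← valued_inv]; exact h'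
    exact absurd ((inv_le_one₀ (zero_lt_iff.2 ((map_ne_zero _).2 (unit_apply_ne_zero a v)))).1 h'')
      (not_le.2 h)
  · exact Or.inl fun h' => absurd h' (not_le.2 h)

/-- Induction on the good part. -/
theorem good_induction (P : (Af F)ˣ → Prop)
    (base : ∀ o ∈ goodId N, (∀ v, Valued.v ((o : Af F) v) = 1) → P o)
    (zero : ∀ o ∈ goodId N, ∀ w : HS, 1 < Valued.v ((o : Af F) w) → P o)
    (step : ∀ w : HS, (N : 𝓞 F) ∉ w.asIdeal → ∀ o ∈ goodId N, Valued.v ((o : Af F) w) ≤ 1 →
      P o → P (o * (unifIdele w)⁻¹) → P (o * unifIdele w)) :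
    ∀ o ∈ goodId N, P o := by
  classical
  suffices h : ∀ T : Finset HS, ∀ o ∈ goodId N,
      (∀ v ∉ T, Valued.v ((o : Af F) v) = 1) → P o from fun o ho =>
    h (finite_valued_ne_one o).toFinset o ho fun v hv => by simpa using hv
  intro T
  induction T using Finset.induction_on with
  | empty => exact fun o ho h => base o ho fun v => h v (Finset.notMem_empty v)
  | insert w T hwT ih =>
    suffices h : ∀ k : ℕ, ∀ o ∈ goodId N, (∀ v ∉ insert w T, Valued.v ((o : Af F) v) = 1) →
        exp (-(k : ℤ)) ≤ Valued.v ((o : Af F) w) → P o from fun o ho hout => by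
      obtain ⟨k, hk⟩ := exists_exp_le (x := Valued.v ((o : Af F) w))
        ((map_ne_zero _).2 (unit_apply_ne_zero o w))
      exact h k o ho hout hk
    intro k
    induction k using Nat.strong_induction_on with
    | _ k ihk =>
      intro o ho hout hk
      rcases lt_trichotomy (Valued.v ((o : Af F) w)) 1 with hlt | heq | hgt
      · by_cases hw : (N : 𝓞 F) ∈ w.asIdeal
        · exact absurd hlt (by rw [ho w hw]; simp)
        set o' := o * (unifIdele w)⁻¹ with ho'def
        have hmem : o' ∈ goodId N := mul_mem ho (inv_mem (unifIdele_mem_goodId N hw))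
        have hval : ∀ (x : (Af F)ˣ), Valued.v (((x * (unifIdele w)⁻¹ : (Af F)ˣ) : Af F) w) =
            Valued.v ((x : Af F) w) * exp (1 : ℤ) := fun x => by
          rw [af_unit_mul_apply, map_mul, valued_inv, valued_unifIdele, ← exp_neg, neg_neg]
        have hne : ∀ (x : (Af F)ˣ) (v : HS), v ≠ w →
            Valued.v (((x * (unifIdele w)⁻¹ : (Af F)ˣ) : Af F) v) = Valued.v ((x : Af F) v) :=
          fun x v hv => by
            rw [af_unit_mul_apply, map_mul, valued_inv, unifIdele_apply_ne hv, map_one, inv_one,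
              mul_one]
        obtain ⟨m, hm⟩ : ∃ m : ℤ, Valued.v ((o : Af F) w) = exp m :=
          ⟨_, (exp_log ((map_ne_zero _).2 (unit_apply_ne_zero o w))).symm⟩
        rw [hm, ← exp_zero, exp_lt_exp] at hlt
        rw [hm, exp_le_exp] at hk
        have hk1 : 1 ≤ k := by omega
        have houtw : ∀ v ∉ insert w T, v ≠ w := fun v hv h =>
          hv (h ▸ Finset.mem_insert_self w T)
        have P1 : P o' := ihk (k - 1) (by omega) o' hmem
          (fun v hv => by rw [ho'def, hne _ v (houtw v hv)]; exact hout v hv)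
          (by rw [ho'def, hval, hm, ← exp_add, exp_le_exp]; omega)
        have P2 : P (o' * (unifIdele w)⁻¹) := ihk (k - 1) (by omega) _
          (mul_mem hmem (inv_mem (unifIdele_mem_goodId N hw)))
          (fun v hv => by
            rw [hne _ v (houtw v hv), ho'def, hne _ v (houtw v hv)]; exact hout v hv)
          (by rw [hval, ho'def, hval, hm, ← exp_add, ← exp_add, exp_le_exp]; omega)
        have hle : Valued.v ((o' : Af F) w) ≤ 1 := by
          rw [ho'def, hval, hm, ← exp_add, ← exp_zero, exp_le_exp]; omega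
        have := step w hw o' hmem hle P1 P2
        rwa [ho'def, inv_mul_cancel_right] at this
      · exact ih o ho fun v hv => by
          rcases eq_or_ne v w with rfl | hvw
          · exact heq
          · exact hout v (by simp [hvw, hv])
      · exact zero o ho w hgt

variable [IsTotallyComplex F] [PinSel F] (M : ℕ) (x₀ : (Af F)ˣ) (s : Set.Ioi (0 : ℝ))

/-- The standing hypotheses on a space of forms. -/
structure TraceHyp (V : Submodule ℂ (Form F)) : Prop where
  hN : 0 < N
  cusp : ∀ φ ∈ V, CuspZero N φ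
  twist_mem : ∀ φ ∈ V, Tform τ φ ∈ V
  hecke_mem : ∀ v : HS, (N : 𝓞 F) ∉ v.asIdeal → ∀ φ ∈ V, hecke v φ ∈ V
  hecke_below : ∀ v : HS, (N : 𝓞 F) ∉ v.asIdeal → ∀ φ ∈ V, hecke (below τ v) φ = hecke v φ
  x0_ns : ∀ v : HS, NsV τ N v → (x₀ : Af F) v = 1
  x0_val : ∀ v : HS, (N : 𝓞 F) ∉ v.asIdeal →
    Valued.v ((x₀ : Af F) v) = Valued.v ((diffId (F := F) : Af F) v)
  x0_le : ∀ v : HS, Valued.v ((x₀ : Af F) v) * Valued.v ((N : Af F) v) ≤
    Valued.v ((diffId (F := F) : Af F) v)
  x0_twist : ∀ v : HS, SpV τ N v → (Tu τ x₀ : Af F) v = (x₀ : Af F) v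
  pin : ∀ φ ∈ V, ∀ a : (Af F)ˣ, cf s φ a ≠ 0 → ∀ v : HS, SpV τ N v →
    Valued.v ((a : Af F) v / (x₀ : Af F) v - 1) ≤ radA M v ∧
      Valued.v ((a : Af F) v) = Valued.v ((x₀ : Af F) v)
  inv : ∀ φ ∈ V, ∀ a u : (Af F)ˣ, (∀ v, ¬ SpV τ N v → (u : Af F) v = 1) →
    (∀ v, SpV τ N v → Valued.v ((u : Af F) v - 1) ≤ radA M v ∧
      Valued.v ((u : Af F) v) = 1) → cf s φ (a * u) = cf s φ a

variable {τ N M x₀ s} {V : Submodule ℂ (Form F)}

/-- Good units do not move coefficients. -/
theorem TraceHyp.cf_mul_good (h : TraceHyp τ N M x₀ s V) {φ : Form F} (hφ : φ ∈ V) {u : (Af F)ˣ}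
    (hu : u ∈ goodId N) (hu1 : ∀ v, Valued.v ((u : Af F) v) = 1) (a : (Af F)ˣ) :
    cf s φ (a * u) = cf s φ a := by
  refine cf_mul_unit s h.hN (h.cusp φ hφ) (fun v => ?_) (fun v => ?_) a
  · show Valued.v ((u : Af F) v - 1) ≤ _
    by_cases hv : (N : 𝓞 F) ∈ v.asIdeal
    · rw [hu v hv, sub_self, map_zero]; exact zero_le
    · rw [valued_natCast_eq_one hv]
      exact (Valued.v.map_sub _ _).trans (by rw [hu1, map_one, max_self])
  · show Valued.v (((u⁻¹ : (Af F)ˣ) : Af F) v - 1) ≤ _
    by_cases hv : (N : 𝓞 F) ∈ v.asIdeal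
    · rw [af_unit_inv_apply, hu v hv, inv_one, sub_self, map_zero]; exact zero_le
    · rw [valued_natCast_eq_one hv]
      exact (Valued.v.map_sub _ _).trans (by rw [valued_inv, hu1, map_one, inv_one, max_self])

/-- Support at good places. -/
theorem TraceHyp.le_of_cf_ne_zero (h : TraceHyp τ N M x₀ s V) {φ : Form F} (hφ : φ ∈ V)
    {a : (Af F)ˣ} (ha : cf s φ a ≠ 0) (v : HS) :
    Valued.v ((a : Af F) v) * Valued.v ((N : Af F) v) ≤ Valued.v ((diffId (F := F) : Af F) v) := by
  have := (isDualAd_iff _).1 (isDualAd_of_cf_ne_zero s h.hN (h.cusp φ hφ) ha) v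
  rwa [af_mul_apply, map_mul] at this

theorem TraceHyp.cf_eq_zero_of_lt (h : TraceHyp τ N M x₀ s V) {φ : Form F} (hφ : φ ∈ V)
    {a : (Af F)ˣ} {w : HS} (hw : (N : 𝓞 F) ∉ w.asIdeal)
    (ha : Valued.v ((diffId (F := F) : Af F) w) < Valued.v ((a : Af F) w)) : cf s φ a = 0 := by
  by_contra hne
  have := h.le_of_cf_ne_zero hφ hne w
  rw [valued_natCast_eq_one hw, mul_one] at this
  exact absurd this (not_le.2 ha)

/-- The recursion. -/
theorem TraceHyp.cf_hecke_eq (h : TraceHyp τ N M x₀ s V) {φ : Form F} (hφ : φ ∈ V) {w : HS}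
    {a : (Af F)ˣ} (ha : Valued.v ((a : Af F) w) ≤ Valued.v ((diffId (F := F) : Af F) w)) :
    cf s (hecke w φ) a =
      (Nat.card (𝓞 F ⧸ w.asIdeal) : ℂ) * cf s φ (a * unifIdele w) +
        cf s φ (a * (unifIdele w)⁻¹) := by
  haveI : Finite (𝓞 F ⧸ w.asIdeal) := Ideal.finiteQuotientOfFreeOfNeBot w.asIdeal w.ne_bot
  letI := Fintype.ofFinite (𝓞 F ⧸ w.asIdeal)
  rw [cf_hecke s h.hN (h.cusp φ hφ), finsum_eq_sum_of_fintype, Finset.sum_congr rfl fun u _ => ?_,
    Finset.sum_const, Finset.card_univ, nsmul_eq_mul, mul_one, ← Nat.card_eq_fintype_card]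
  rw [mul_comm (a : Af F), adeleSingle_mul]
  have hd : IsDualAd (adeleSingle w ((((Quotient.out u : 𝓞 F) : F) : w.adicCompletion F) *
      (a : Af F) w)) := (isDualAd_iff _).2 fun v => by
    rcases eq_or_ne v w with rfl | hv
    · rw [adeleSingle_same, map_mul, HeightOneSpectrum.adicCompletion.valued_coe]
      exact (mul_le_of_le_one_left' (v.valuation_le_one _)).trans ha
    · rw [adeleSingle_ne _ hv, map_zero]; exact zero_le
  simpa using hd 1 intg_one

omit [PinSel F] in
theorem card_quotient_below (τ : F ≃+* F) (w : HS) :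
    Nat.card (𝓞 F ⧸ (below τ w).asIdeal) = Nat.card (𝓞 F ⧸ w.asIdeal) := by
  refine Nat.card_congr (Ideal.quotientEquiv _ _ (RingOfIntegers.mapRingEquiv τ) ?_).toEquiv
  exact (Ideal.map_comap_of_surjective _ (RingOfIntegers.mapRingEquiv τ).surjective w.asIdeal).symm

/-- The step of the recursion for a fixed product. -/
theorem TraceHyp.cf_step (h : TraceHyp τ N M x₀ s V) {φ : Form F} (hφ : φ ∈ V) {w : HS}
    (hw : (N : 𝓞 F) ∉ w.asIdeal) {o b : (Af F)ˣ} (hb : (b : Af F) w = 1)
    (ho : Valued.v ((o : Af F) w) ≤ 1) :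
    cf s (hecke w φ) (x₀ * o * b) =
      (Nat.card (𝓞 F ⧸ w.asIdeal) : ℂ) * cf s φ (x₀ * (o * unifIdele w) * b) +
        cf s φ (x₀ * (o * (unifIdele w)⁻¹) * b) := by
  have hns : ¬ NsV τ N w := fun h' => hw h'.1
  rw [h.cf_hecke_eq hφ (a := x₀ * o * b) (by
    rw [af_unit_mul_apply, af_unit_mul_apply, hb, mul_one, map_mul, h.x0_val w hw]
    exact mul_le_of_le_one_right' ho)]
  congr 2 <;> simp only [mul_assoc, mul_comm b]

omit [PinSel F] in
theorem Tu_apply_valued (a : (Af F)ˣ) (v : HS) :
    Valued.v ((Tu τ a : Af F) v) = Valued.v ((a : Af F) (below τ v)) := valued_Ta τ _ v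

omit [PinSel F] in
theorem Tu_apply_eq_one {a : (Af F)ˣ} {v : HS} (ha : (a : Af F) (below τ v) = 1) :
    (Tu τ a : Af F) v = 1 := by
  show complMap _ v ((a : Af F) (below τ v)) = 1
  rw [ha, map_one]

omit [PinSel F] in
theorem Tu_mem_goodId {o : (Af F)ˣ} (ho : o ∈ goodId N) : Tu τ o ∈ goodId N := fun v hv =>
  Tu_apply_eq_one (ho _ ((natCast_mem_below τ N v).2 hv))

/-- Twisting the good part does not move the coefficient. -/
theorem TraceHyp.cf_twist_good (h : TraceHyp τ N M x₀ s V) {φ : Form F} (hφ : φ ∈ V)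
    {b : (Af F)ˣ} (hb : ∀ v, ¬ NsV τ N v → (b : Af F) v = 1) {o : (Af F)ˣ} (ho : o ∈ goodId N) :
    cf s φ (x₀ * Tu τ o * b) = cf s φ (x₀ * o * b) := by
  have hbad : ∀ w : HS, (N : 𝓞 F) ∉ w.asIdeal → (b : Af F) w = 1 := fun w hw =>
    hb w fun h' => hw h'.1
  revert φ
  refine good_induction N (fun o => ∀ {φ : Form F}, φ ∈ V →
    cf s φ (x₀ * Tu τ o * b) = cf s φ (x₀ * o * b)) ?_ ?_ ?_ o ho
  · intro o ho h1 φ hφ
    rw [mul_right_comm, mul_right_comm x₀ o b, h.cf_mul_good hφ ho h1,
      h.cf_mul_good hφ (Tu_mem_goodId ho) fun v => by rw [Tu_apply_valued, h1]]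
  · intro o ho w hgt φ hφ
    have key : ∀ (o : (Af F)ˣ) (w : HS), o ∈ goodId N → 1 < Valued.v ((o : Af F) w) →
        cf s φ (x₀ * o * b) = 0 := fun o w ho hgt => by
      have hw : (N : 𝓞 F) ∉ w.asIdeal := fun h' => by simp [ho w h'] at hgt
      refine h.cf_eq_zero_of_lt hφ hw ?_
      rw [af_unit_mul_apply, af_unit_mul_apply, hbad w hw, mul_one, map_mul,
        h.x0_val w hw]
      exact lt_mul_of_one_lt_right (lt_of_lt_of_le zero_lt_one (one_le_diffId w)) hgt
    obtain ⟨u, hu⟩ := below_surjective τ w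
    rw [key o w ho hgt, key _ u (Tu_mem_goodId ho) (by rw [Tu_apply_valued, hu]; exact hgt)]
  · intro w hw o ho hle ih1 ih2 φ hφ
    obtain ⟨u, hu⟩ := below_surjective τ w
    have huN : (N : 𝓞 F) ∉ u.asIdeal := fun h' => hw (hu ▸ (natCast_mem_below τ N u).2 h')
    -- the image of the uniformiser differs from the uniformiser at `u` by a good unit
    set e := Tu τ (unifIdele w) * (unifIdele u)⁻¹ with he
    have he0 : e ∈ goodId N :=
      mul_mem (Tu_mem_goodId (unifIdele_mem_goodId N hw)) (inv_mem (unifIdele_mem_goodId N huN))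
    have he1 : ∀ v, Valued.v ((e : Af F) v) = 1 := fun v => by
      rw [he, af_unit_mul_apply, map_mul, valued_inv, Tu_apply_valued]
      rcases eq_or_ne v u with rfl | hv
      · rw [hu, valued_unifIdele, valued_unifIdele, mul_inv_cancel₀ exp_ne_zero]
      · rw [unifIdele_apply_ne hv, unifIdele_apply_ne (fun h' => hv (below_injective τ
          (h'.trans hu.symm)))]
        simp
    have hT : Tu τ (unifIdele w) = unifIdele u * e := by
      rw [he, mul_comm, inv_mul_cancel_right]
    have h1 := h.cf_step (hφ) hw (hbad w hw) hle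
    have h2 := h.cf_step hφ huN (o := Tu τ o) (hbad u huN) (by rw [Tu_apply_valued, hu]; exact hle)
    have e1 : cf s φ (x₀ * Tu τ (o * unifIdele w) * b) =
        cf s φ (x₀ * (Tu τ o * unifIdele u) * b) := by
      rw [map_mul, hT, ← h.cf_mul_good hφ he0 he1 (x₀ * (Tu τ o * unifIdele u) * b)]
      congr 1
      simp only [mul_assoc, mul_comm e]
    have e2 : cf s φ (x₀ * Tu τ (o * (unifIdele w)⁻¹) * b) =
        cf s φ (x₀ * (Tu τ o * (unifIdele u)⁻¹) * b) := by
      rw [map_mul, map_inv, hT, mul_inv,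
        ← h.cf_mul_good hφ (inv_mem he0) (fun v => by rw [valued_inv, he1, inv_one])
          (x₀ * (Tu τ o * (unifIdele u)⁻¹) * b)]
      congr 1
      simp only [mul_assoc, mul_comm e⁻¹]
    have hop : hecke w φ = hecke u φ := by rw [← hu]; exact h.hecke_below u huN φ hφ
    have hcard : Nat.card (𝓞 F ⧸ w.asIdeal) = Nat.card (𝓞 F ⧸ u.asIdeal) := by
      rw [← hu]; exact card_quotient_below τ u
    have i1 := ih1 (h.hecke_mem w hw φ hφ)
    have i2 := ih2 hφ
    rw [h1, hop, h2, e2.symm, i2, hcard, add_left_inj] at i1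
    have hq : (Nat.card (𝓞 F ⧸ u.asIdeal) : ℂ) ≠ 0 := by
      haveI : Finite (𝓞 F ⧸ u.asIdeal) := Ideal.finiteQuotientOfFreeOfNeBot u.asIdeal u.ne_bot
      exact Nat.cast_ne_zero.2 Nat.card_pos.ne'
    rw [e1]
    exact mul_left_cancel₀ hq i1

end FLTAgent.LT.TraceTheta
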