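import Fermat.Agent.LT.TF.Trace.BadLocal
import Fermat.Agent.LT.TF.Trace.Recursion
import Fermat.Agent.LT.TF.Match.Places

/-!
The families of local functions at the bad places: upper triangular representatives of the cosets in
their support and the value of the product there.
-/

set_option autoImplicit false
set_option linter.unusedSectionVars false
set_option linter.style.haveILetI false

noncomputable section

namespace FLTAgent.LT.TraceTheta

open NumberField IsDedekindDomain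
open FLTAgent.LT.Match FLTAgent.LT.Red

local notation "Γ₀" => WithZero (Multiplicative ℤ)

variable {F : Type} [Field F] [NumberField F]

local notation "HS" => HeightOneSpectrum (𝓞 F)

/-- The component of an idele. -/
def evU (v : HS) : (Af F)ˣ →* (Kp F v)ˣ := Units.map (evalAf v).toMonoidHom

theorem evU_val (v : HS) (a : (Af F)ˣ) : ((evU v a : (Kp F v)ˣ) : Kp F v) = (a : Af F) v := rfl

/-- The idele of a positive natural number. -/
def natId (F : Type) [Field F] [NumberField F] (n : ℕ) (hn : 0 < n) : (Af F)ˣ :=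
  Units.map (algebraMap F (Af F)).toMonoidHom (Units.mk0 (n : F) (Nat.cast_ne_zero.2 hn.ne'))

theorem natId_val (n : ℕ) (hn : 0 < n) : ((natId F n hn : (Af F)ˣ) : Af F) = (n : Af F) :=
  map_natCast (algebraMap F (Af F)) n

theorem upK_one_zero {K : Type*} [Field K] : upK (1 : Kˣ) (0 : K) = 1 :=
  Units.ext (by ext i j; fin_cases i <;> fin_cases j <;> simp [coe_upK])

theorem levN_lt_one {N : ℕ} {v : HS} (hv : (N : 𝓞 F) ∈ v.asIdeal) : levN v N < 1 :=
  lt_of_le_of_lt (le_of_eq (valued_natCast N v)) ((v.intValuation_lt_one_iff_mem _).2 hv)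

theorem mem_of_mul_self {M N : ℕ} (hNM : N = M * M) {v : HS} (hv : (N : 𝓞 F) ∈ v.asIdeal) :
    (M : 𝓞 F) ∈ v.asIdeal := by
  rw [hNM, Nat.cast_mul] at hv
  exact (v.isPrime.mem_or_mem hv).elim id id

theorem levN_mul_self {M N : ℕ} (hNM : N = M * M) (v : HS) :
    levN v N = levN v M * levN v M := by
  rw [levN_eq, levN_eq, hNM, Nat.cast_mul, map_mul]

/-- The character at one place. -/
def chiAt [IsTotallyComplex F] (v : HS) (y : Kp F v) : ℂ := chi (adeleSingle v y)

section chiAt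

variable [IsTotallyComplex F]

theorem adeleSingle_add (v : HS) (x y : Kp F v) :
    adeleSingle v (x + y) = adeleSingle v x + adeleSingle v y := by
  classical
  exact RestrictedProduct.single_add _ v x y

theorem chiAt_add (v : HS) (x y : Kp F v) : chiAt v (x + y) = chiAt v x * chiAt v y := by
  rw [chiAt, chiAt, chiAt, adeleSingle_add, chi_add]

theorem chiAt_eq_one {v : HS} {y : Kp F v}
    (hy : Valued.v y ≤ Valued.v ((diffId (F := F) : Af F) v)) : chiAt v y = 1 := by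
  have h : IsDualAd (adeleSingle v y) := (isDualAd_iff _).2 fun w => by
    rcases eq_or_ne w v with rfl | hw
    · rwa [adeleSingle_same]
    · rw [adeleSingle_ne _ hw, map_zero]; exact zero_le
  simpa [chiAt] using h 1 intg_one

theorem chiAt_ne_zero (v : HS) (y : Kp F v) : chiAt v y ≠ 0 := chi_ne_zero _

/-- The dual idele is characterised at each place. -/
theorem le_of_chiAt_eq_one {v : HS} {y : Kp F v}
    (h : ∀ c : Kp F v, Valued.v c ≤ (1 : Γ₀) → chiAt v (y * c) = 1) :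
    Valued.v y ≤ Valued.v ((diffId (F := F) : Af F) v) := by
  have hd : IsDualAd (adeleSingle v y) := fun c hc => by
    rw [adeleSingle_mul]
    exact h _ (hc v)
  simpa [adeleSingle_same] using (isDualAd_iff _).1 hd v

end chiAt

variable [PinSel F] (τ : F ≃+* F) (N M : ℕ)

open Classical in
/-- A family of local functions: `A` at the fixed bad places, `B` at the moved ones. -/
def mkFam (A B : ∀ v : HS, GL (Fin 2) (Kp F v) → ℂ) (v : HS) : GL (Fin 2) (Kp F v) → ℂ :=
  if NsV τ N v then A v else if SpV τ N v then B v else unitFn 1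

variable {τ} {N} {M}

variable {A B : (v : HeightOneSpectrum (𝓞 F)) → GL (Fin 2) (Kp F v) → ℂ}
  {v : HeightOneSpectrum (𝓞 F)}

theorem mkFam_ns (h : NsV τ N v) : mkFam τ N A B v = A v := if_pos h

theorem mkFam_sp (h : SpV τ N v) : mkFam τ N A B v = B v := by
  rw [mkFam, if_neg fun h' : NsV τ N v => h.2 h'.2, if_pos h]

theorem mkFam_good (h : (N : 𝓞 F) ∉ v.asIdeal) : mkFam τ N A B v = unitFn 1 := by
  rw [mkFam, if_neg fun h' : NsV τ N v => h h'.1, if_neg fun h' : SpV τ N v => h h'.1]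

theorem bad_cases (τ : F ≃+* F) (N : ℕ) (v : HS) :
    (N : 𝓞 F) ∉ v.asIdeal ∨ NsV τ N v ∨ SpV τ N v := by
  by_cases h : (N : 𝓞 F) ∈ v.asIdeal
  · by_cases h' : FixC τ v
    · exact Or.inr (Or.inl ⟨h, h'⟩)
    · exact Or.inr (Or.inr ⟨h, h'⟩)
  · exact Or.inl h

/-- Local functions with upper triangular representatives satisfying `P` on their support. -/
structure UpRep (N : ℕ) (v : HS) (f : GL (Fin 2) (Kp F v) → ℂ)
    (P : (Kp F v)ˣ → Kp F v → Prop) : Prop where
  left : ∀ u ∈ lvlZ (levN v N), ∀ g, f (u * g) = f g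
  right : ∀ u ∈ lvlZ (levN v N), ∀ g, f (g * u) = f g
  rep : ∀ g, f g ≠ 0 → ∃ a b, P a b ∧ ∃ u ∈ lvlZ (levN v N), g = upK a b * u

omit [PinSel F] in
theorem UpRep.finite {f : GL (Fin 2) (Kp F v) → ℂ} {P : (Kp F v)ˣ → Kp F v → Prop}
    (h : UpRep N v f P) (hN : 0 < N)
    (hP : ∃ d c : Γ₀, d ≠ 0 ∧ c ≠ 0 ∧ ∀ a b, P a b →
      d ≤ Valued.v (a : Kp F v) ∧ Valued.v (a : Kp F v) ≤ 1 ∧ Valued.v b ≤ c) :
    ((QuotientGroup.mk : GL (Fin 2) (Kp F v) → GL (Fin 2) (Kp F v) ⧸ lvlZ (levN v N)) ''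
      Function.support f).Finite := by
  obtain ⟨d, c, hd, hc, hb⟩ := hP
  refine finite_up_cosets v hd hc (levN_ne_zero v hN) _ fun g hg => ?_
  obtain ⟨a, b, hab, hu⟩ := h.rep g hg
  exact ⟨a, b, (hb a b hab).1, (hb a b hab).2.1, (hb a b hab).2.2, hu⟩

omit [PinSel F] in
theorem upRep_unitFn (N : ℕ) (v : HS) :
    UpRep N v (unitFn (levN v N)) (fun a b => a = 1 ∧ b = 0) where
  left u hu g := by
    classical
    simp only [unitFn, Set.indicator_apply, SetLike.mem_coe]
    exact if_congr (Subgroup.mul_mem_cancel_left _ hu) rfl rfl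
  right u hu g := by
    classical
    simp only [unitFn, Set.indicator_apply, SetLike.mem_coe]
    exact if_congr (Subgroup.mul_mem_cancel_right _ hu) rfl rfl
  rep g hg := by
    refine ⟨1, 0, ⟨rfl, rfl⟩, g, SetLike.mem_coe.1 (Set.mem_of_indicator_ne_zero hg), ?_⟩
    rw [upK_one_zero, one_mul]

/-- The conditions on representatives. -/
def FamP (τ : F ≃+* F) (N : ℕ) (Q R : ∀ v : HS, (Kp F v)ˣ → Kp F v → Prop) (v : HS)
    (a : (Kp F v)ˣ) (b : Kp F v) : Prop :=
  (NsV τ N v → Q v a b) ∧ (SpV τ N v → R v a b) ∧ ((N : 𝓞 F) ∉ v.asIdeal → a = 1 ∧ b = 0)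

variable {Q R : (v : HeightOneSpectrum (𝓞 F)) → (Kp F v)ˣ → Kp F v → Prop}

theorem upRep_mkFam (hA : ∀ v, NsV τ N v → UpRep N v (A v) (Q v))
    (hB : ∀ v, SpV τ N v → UpRep N v (B v) (R v)) (v : HS) :
    UpRep N v (mkFam τ N A B v) (FamP τ N Q R v) := by
  rcases bad_cases τ N v with h | h | h
  · rw [mkFam_good h, ← levN_eq_one h]
    refine ⟨(upRep_unitFn N v).left, (upRep_unitFn N v).right, fun g hg => ?_⟩
    obtain ⟨a, b, hab, hu⟩ := (upRep_unitFn N v).rep g hg
    exact ⟨a, b, ⟨fun h' => absurd h'.1 h, fun h' => absurd h'.1 h, fun _ => hab⟩, hu⟩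
  · rw [mkFam_ns h]
    refine ⟨(hA v h).left, (hA v h).right, fun g hg => ?_⟩
    obtain ⟨a, b, hab, hu⟩ := (hA v h).rep g hg
    exact ⟨a, b, ⟨fun _ => hab, fun h' => absurd h.2 h'.2, fun h' => absurd h.1 h'⟩, hu⟩
  · rw [mkFam_sp h]
    refine ⟨(hB v h).left, (hB v h).right, fun g hg => ?_⟩
    obtain ⟨a, b, hab, hu⟩ := (hB v h).rep g hg
    exact ⟨a, b, ⟨fun h' => absurd h'.2 h.2, fun _ => hab, fun h' => absurd h.1 h'⟩, hu⟩

omit [PinSel F] in
theorem eventually_good (hN : 0 < N) :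
    ∀ᶠ v : HS in Filter.cofinite, (N : 𝓞 F) ∉ v.asIdeal :=
  Filter.eventually_cofinite.2 ((finite_natCast_mem hN).subset fun v hv => by simpa using hv)

theorem locFam_mkFam (hN : 0 < N) (hA : ∀ v, NsV τ N v → UpRep N v (A v) (Q v))
    (hB : ∀ v, SpV τ N v → UpRep N v (B v) (R v))
    (hQ : ∀ v, NsV τ N v → ∃ d c : Γ₀, d ≠ 0 ∧ c ≠ 0 ∧ ∀ a b, Q v a b →
      d ≤ Valued.v (a : Kp F v) ∧ Valued.v (a : Kp F v) ≤ 1 ∧ Valued.v b ≤ c)
    (hR : ∀ v, SpV τ N v → ∃ d c : Γ₀, d ≠ 0 ∧ c ≠ 0 ∧ ∀ a b, R v a b →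
      d ≤ Valued.v (a : Kp F v) ∧ Valued.v (a : Kp F v) ≤ 1 ∧ Valued.v b ≤ c) :
    LocFam N (mkFam τ N A B) where
  unit := (eventually_good hN).mono fun v hv => mkFam_good hv
  left_inv v := (upRep_mkFam hA hB v).left
  right_inv v := (upRep_mkFam hA hB v).right
  finite v := by
    refine (upRep_mkFam hA hB v).finite hN ?_
    rcases bad_cases τ N v with h | h | h
    · exact ⟨1, 1, one_ne_zero, one_ne_zero, fun a b hab => by
        obtain ⟨rfl, rfl⟩ := hab.2.2 h
        simp⟩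
    · obtain ⟨d, c, hd, hc, H⟩ := hQ v h
      exact ⟨d, c, hd, hc, fun a b hab => H a b (hab.1 h)⟩
    · obtain ⟨d, c, hd, hc, H⟩ := hR v h
      exact ⟨d, c, hd, hc, fun a b hab => H a b (hab.2.1 h)⟩

/-- The pairs parametrising representatives of the cosets. -/
def Reps (τ : F ≃+* F) (N : ℕ) (Q R : ∀ v : HS, (Kp F v)ˣ → Kp F v → Prop) (α : (Af F)ˣ)
    (β : Af F) : Prop := ∀ v, FamP τ N Q R v (evU v α) (β v)

theorem exists_reps (hN : 0 < N) (hA : ∀ v, NsV τ N v → UpRep N v (A v) (Q v))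
    (hB : ∀ v, SpV τ N v → UpRep N v (B v) (R v))
    (hL : LocFam N (mkFam τ N A B)) {g : GF F} (hg : prodFun (mkFam τ N A B) g ≠ 0) :
    ∃ α β, ((upperGF α β : GF F) : Cos F N) = (g : Cos F N) ∧ Reps τ N Q R α β := by
  choose a b hP u hu he using fun v =>
    (upRep_mkFam hA hB v).rep _ (hL.prodFun_ne_zero.1 hg v)
  obtain ⟨G, hG⟩ := exists_gf (fun v => upK (a v) (b v)) ((eventually_good hN).mono fun v hv => by
    obtain ⟨ha, hb⟩ := (hP v).2.2 hv
    rw [ha, hb, upK_one_zero]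
    exact one_mem _)
  set α : (Af F)ˣ := Matrix.GeneralLinearGroup.det G
  set β : Af F := (G : Matrix (Fin 2) (Fin 2) (Af F)) 0 1
  have hα : ∀ v, evU v α = a v := fun v => Units.ext (by
    show evalAf v (G : Matrix (Fin 2) (Fin 2) (Af F)).det = _
    rw [(evalAf v).map_det, show (evalAf v).mapMatrix (G : Matrix (Fin 2) (Fin 2) (Af F)) =
      (locGF v G : Matrix (Fin 2) (Fin 2) (Kp F v)) from rfl, hG, coe_upK, Matrix.det_fin_two]
    simp)
  have hβ : ∀ v, β v = b v := fun v => by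
    show (locGF v G : Matrix (Fin 2) (Fin 2) (Kp F v)) 0 1 = _
    rw [hG, coe_upK]
    simp
  refine ⟨α, β, QuotientGroup.eq.2 (mem_UZ_iff.2 fun v => ?_), fun v => by rw [hα, hβ]; exact hP v⟩
  rw [map_mul, map_inv, locGF_upperGF, show Units.map (evalAf v).toMonoidHom α = a v from hα v,
    hβ, he v, inv_mul_cancel_left]
  exact hu v

theorem loc_upperGF_of_reps {α : (Af F)ˣ} {β : Af F} (h : Reps τ N Q R α β) {v : HS}
    (hv : (N : 𝓞 F) ∉ v.asIdeal) :
    Red.loc v (upperGF α β : GF F).val = 1 := by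
  obtain ⟨ha, hb⟩ := (h v).2.2 hv
  rw [← coe_locGF, locGF_upperGF, show Units.map (evalAf v).toMonoidHom α = 1 from ha, hb,
    upK_one_zero, Units.val_one]

omit [PinSel F] in
theorem prodFun_upperGF (L : ∀ v : HS, GL (Fin 2) (Kp F v) → ℂ) (α : (Af F)ˣ) (β : Af F) :
    prodFun L (upperGF α β) = ∏ᶠ v, L v (upK (evU v α) (β v)) :=
  finprod_congr fun v => by rw [locGF_upperGF]; rfl

omit [PinSel F] in
/-- A left translation multiplying every local function by a scalar. -/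
theorem prodFun_translate {L : ∀ v : HS, GL (Fin 2) (Kp F v) → ℂ} (hL : LocFam N L) (h : GF F)
    (κ : HS → ℂ) (hκ : (Function.mulSupport κ).Finite)
    (H : ∀ v g, L v (locGF v h * g) = κ v * L v g) (g : GF F) :
    prodFun L (h * g) = (∏ᶠ v, κ v) * prodFun L g := by
  rw [prodFun, prodFun, ← finprod_mul_distrib hκ (hL.mulSupport_finite g)]
  exact finprod_congr fun v => by rw [map_mul, H]

end FLTAgent.LT.TraceTheta
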