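import Fermat.Agent.LT.TF.Trace.BadLocal
import Fermat.Agent.LT.TF.Match.BadLoc

/-!
The character of the group `(1+R, R; n, 1+R)`, `n ≤ R²`, times the centre: additivity, values at
upper triangular representatives, translations.
-/

set_option autoImplicit false
set_option linter.unusedSectionVars false

noncomputable section

namespace FLTAgent.LT.TraceTheta

open FLTAgent.LT.Match

local notation "Γ₀" => WithZero (Multiplicative ℤ)

variable {K : Type*} [Field K] [Valued K Γ₀]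

theorem mem_pinGrp_of_lvl {e n : Γ₀} {k : GL (Fin 2) K} (hk : k ∈ lvl e)
    (h10 : Valued.v ((k : Matrix (Fin 2) (Fin 2) K) 1 0) ≤ n) (c : Kˣ) :
    k * scal c ∈ pinGrp e n := by
  refine ⟨k, hk, h10, ?_, c, rfl⟩
  rw [Matrix.coe_units_inv, Matrix.inv_def, Matrix.smul_apply, smul_eq_mul, map_mul,
    Ring.inverse_eq_inv', map_inv₀, v_det_of_mem_lvl hk, inv_one, one_mul, Matrix.adjugate_fin_two]
  simpa using h10

theorem lvlZ_le_pinGrp {e n : Γ₀} (h : n ≤ e) (he : e < 1) : lvlZ (K := K) n ≤ pinGrp e n := by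
  rintro _ ⟨k, hk, c, rfl⟩
  refine mem_pinGrp_of_lvl (lvl_mono h hk) ?_ c
  simpa using ((mem_lvl (h.trans he.le)).1 hk).1 1 0

/-- The entries of a member. -/
theorem pinGrp_bounds {e n : Γ₀} (he : e < 1) {g : GL (Fin 2) K} (hg : g ∈ pinGrp e n) :
    (g : Matrix (Fin 2) (Fin 2) K) 1 1 ≠ 0 ∧
      Valued.v ((g : Matrix (Fin 2) (Fin 2) K) 0 0 / (g : Matrix (Fin 2) (Fin 2) K) 1 1 - 1) ≤ e ∧
      Valued.v ((g : Matrix (Fin 2) (Fin 2) K) 0 1 / (g : Matrix (Fin 2) (Fin 2) K) 1 1) ≤ e ∧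
      Valued.v ((g : Matrix (Fin 2) (Fin 2) K) 1 0 / (g : Matrix (Fin 2) (Fin 2) K) 1 1) ≤ n := by
  obtain ⟨k, hk, h10, -, c, rfl⟩ := hg
  have H := ((mem_lvl he.le).1 hk).1
  have k00 := H 0 0; have k01 := H 0 1; have k11 := H 1 1
  simp at k00 k01 k11
  have e1 : ∀ {i l : Fin 2}, ((k * scal c : GL (Fin 2) K) : Matrix (Fin 2) (Fin 2) K) i l =
      (k : Matrix (Fin 2) (Fin 2) K) i l * c := fun {i l} => by
    fin_cases i <;> fin_cases l <;> simp [scal, Matrix.mul_apply]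
  have hv := v_eq_one_of_sub he k11
  have hk11 : (k : Matrix (Fin 2) (Fin 2) K) 1 1 ≠ 0 := fun h => by simp [h] at hv
  simp only [e1, mul_div_mul_right _ _ c.ne_zero]
  refine ⟨mul_ne_zero hk11 c.ne_zero, ?_, ?_, ?_⟩
  · rw [div_sub_one hk11, map_div₀, hv, div_one, ← sub_sub_sub_cancel_right _ _ (1 : K)]
    exact Valued.v.map_sub_le k00 k11
  · rwa [map_div₀, hv, div_one]
  · rwa [map_div₀, hv, div_one]

open Classical in
/-- The character. -/
def pinFn (χ : K → ℂ) (e n : Γ₀) (x₀ : K) (g : GL (Fin 2) K) : ℂ :=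
  if g ∈ pinGrp e n then
    χ (-(x₀ * ((g : Matrix (Fin 2) (Fin 2) K) 0 1 / (g : Matrix (Fin 2) (Fin 2) K) 1 1)))
  else 0

variable {χ : K → ℂ} {e n : Γ₀} {x₀ : K}

theorem pinFn_of_mem {g : GL (Fin 2) K} (hg : g ∈ pinGrp e n) :
    pinFn χ e n x₀ g =
      χ (-(x₀ * ((g : Matrix (Fin 2) (Fin 2) K) 0 1 / (g : Matrix (Fin 2) (Fin 2) K) 1 1))) := by
  classical
  exact if_pos hg

theorem pinFn_of_not_mem {g : GL (Fin 2) K} (hg : g ∉ pinGrp e n) : pinFn χ e n x₀ g = 0 := by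
  classical
  exact if_neg hg

theorem pinFn_ne_zero (hχ : ∀ y, χ y ≠ 0) {g : GL (Fin 2) K} :
    pinFn χ e n x₀ g ≠ 0 ↔ g ∈ pinGrp e n :=
  ⟨fun h => by_contra fun hg => h (pinFn_of_not_mem hg), fun hg => by
    rw [pinFn_of_mem hg]; exact hχ _⟩

theorem pinFn_scal (c : Kˣ) (g : GL (Fin 2) K) :
    pinFn χ e n x₀ (g * scal c) = pinFn χ e n x₀ g := by
  have hs : scal c ∈ pinGrp e n := by
    simpa using mem_pinGrp_of_lvl (e := e) (n := n) (one_mem _) (by simp) c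
  have e1 : ∀ i l, ((g * scal c : GL (Fin 2) K) : Matrix (Fin 2) (Fin 2) K) i l =
      (g : Matrix (Fin 2) (Fin 2) K) i l * c := fun i l => by
    fin_cases i <;> fin_cases l <;> simp [scal, Matrix.mul_apply]
  by_cases hg : g ∈ pinGrp e n
  · rw [pinFn_of_mem hg, pinFn_of_mem (mul_mem hg hs), e1, e1, mul_div_mul_right _ _ c.ne_zero]
  · rw [pinFn_of_not_mem hg,
      pinFn_of_not_mem fun h => hg ((pinGrp e n).mul_mem_cancel_right hs |>.1 h)]

/-- The character is multiplicative. -/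
theorem pinFn_mul (hadd : ∀ a b, χ (a + b) = χ a * χ b)
    (hint : ∀ y, Valued.v y ≤ e * e → χ (-(x₀ * y)) = 1) (he : e < 1) (hn : n ≤ e * e)
    {g h : GL (Fin 2) K} (hg : g ∈ pinGrp e n) (hh : h ∈ pinGrp e n) :
    pinFn χ e n x₀ (g * h) = pinFn χ e n x₀ g * pinFn χ e n x₀ h := by
  rw [pinFn_of_mem (mul_mem hg hh), pinFn_of_mem hg, pinFn_of_mem hh, ← hadd]
  obtain ⟨g0, ga, gb, gr⟩ := pinGrp_bounds he hg
  obtain ⟨h0, ha, hb, hr⟩ := pinGrp_bounds he hh
  have e1 : ∀ {i l : Fin 2}, ((g * h : GL (Fin 2) K) : Matrix (Fin 2) (Fin 2) K) i l =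
      (g : Matrix (Fin 2) (Fin 2) K) i 0 * (h : Matrix (Fin 2) (Fin 2) K) 0 l +
      (g : Matrix (Fin 2) (Fin 2) K) i 1 * (h : Matrix (Fin 2) (Fin 2) K) 1 l := fun {i l} => by
    simp [Matrix.mul_apply, Fin.sum_univ_two]
  set D := (g : Matrix (Fin 2) (Fin 2) K) 1 1 with hDdef
  set D' := (h : Matrix (Fin 2) (Fin 2) K) 1 1 with hD'def
  set a := (g : Matrix (Fin 2) (Fin 2) K) 0 0 / D with hadef
  set b := (g : Matrix (Fin 2) (Fin 2) K) 0 1 / D with hbdef
  set r := (g : Matrix (Fin 2) (Fin 2) K) 1 0 / D with hrdef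
  set b' := (h : Matrix (Fin 2) (Fin 2) K) 0 1 / D' with hb'def
  have eg0 : (g : Matrix (Fin 2) (Fin 2) K) 0 0 = a * D := (div_mul_cancel₀ _ g0).symm
  have eg1 : (g : Matrix (Fin 2) (Fin 2) K) 0 1 = b * D := (div_mul_cancel₀ _ g0).symm
  have eg2 : (g : Matrix (Fin 2) (Fin 2) K) 1 0 = r * D := (div_mul_cancel₀ _ g0).symm
  have eh1 : (h : Matrix (Fin 2) (Fin 2) K) 0 1 = b' * D' := (div_mul_cancel₀ _ h0).symm
  have hrb : Valued.v (r * b') ≤ e * e := by
    rw [map_mul]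
    exact (mul_le_mul' gr hb).trans (mul_le_of_le_one_right' he.le) |>.trans hn
  have hd : Valued.v (r * b' + 1 - 1) ≤ e := by
    rw [add_sub_cancel_right]
    exact hrb.trans (mul_le_of_le_one_right' he.le)
  have hd1 := v_eq_one_of_sub he hd
  have hd0 : r * b' + 1 ≠ 0 := fun h => by simp [h] at hd1
  rw [e1, e1, eg0, eg1, eg2, eh1, ← hDdef, ← hD'def,
    show r * D * (b' * D') + D * D' = D * D' * (r * b' + 1) by ring,
    show (a * D * (b' * D') + b * D * D') / (D * D' * (r * b' + 1)) =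
      b + b' + (b' * (a - 1) - (b + b') * (r * b')) / (r * b' + 1) by
      rw [show a * D * (b' * D') + b * D * D' = D * D' * (a * b' + b) by ring,
        mul_div_mul_left _ _ (mul_ne_zero g0 h0), div_eq_iff hd0, add_mul, div_mul_cancel₀ _ hd0]
      ring,
    show -(x₀ * (b + b' + (b' * (a - 1) - (b + b') * (r * b')) / (r * b' + 1))) =
      (-(x₀ * b) + -(x₀ * b')) + -(x₀ * ((b' * (a - 1) - (b + b') * (r * b')) / (r * b' + 1))) by
      ring, hadd _ (-(x₀ * (_ / _))), hint _ ?_, mul_one]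
  rw [map_div₀, hd1, div_one]
  refine Valued.v.map_sub_le ?_ ?_ <;> rw [map_mul]
  · exact mul_le_mul' hb ga
  · exact (mul_le_mul' ((Valued.v.map_add_le gb hb).trans he.le) hrb).trans_eq (one_mul _)

/-- Values on the small congruence group. -/
theorem pinFn_small (hint : ∀ y, Valued.v y ≤ e * e → χ (-(x₀ * y)) = 1) (he : e < 1)
    (hn : n ≤ e * e) {u : GL (Fin 2) K} (hu : u ∈ lvlZ n) : pinFn χ e n x₀ u = 1 := by
  have hne : n ≤ e := hn.trans (mul_le_of_le_one_right' he.le)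
  rw [pinFn_of_mem (lvlZ_le_pinGrp hne he hu)]
  obtain ⟨k, hk, c, rfl⟩ := hu
  refine hint _ ?_
  have e1 : ∀ i l, ((k * scal c : GL (Fin 2) K) : Matrix (Fin 2) (Fin 2) K) i l =
      (k : Matrix (Fin 2) (Fin 2) K) i l * c := fun i l => by
    fin_cases i <;> fin_cases l <;> simp [scal, Matrix.mul_apply]
  have H := ((mem_lvl (hne.trans he.le)).1 hk).1
  have k01 := H 0 1; have k11 := H 1 1
  simp at k01 k11
  rw [e1, e1, mul_div_mul_right _ _ c.ne_zero, map_div₀,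
    v_eq_one_of_sub (hne.trans_lt he) k11, div_one]
  exact k01.trans hn

theorem pinFn_mul_small (hadd : ∀ a b, χ (a + b) = χ a * χ b)
    (hint : ∀ y, Valued.v y ≤ e * e → χ (-(x₀ * y)) = 1) (he : e < 1) (hn : n ≤ e * e)
    {u : GL (Fin 2) K} (hu : u ∈ lvlZ n) (g : GL (Fin 2) K) :
    pinFn χ e n x₀ (u * g) = pinFn χ e n x₀ g ∧ pinFn χ e n x₀ (g * u) = pinFn χ e n x₀ g := by
  have hu' := lvlZ_le_pinGrp (hn.trans (mul_le_of_le_one_right' he.le)) he hu
  by_cases hg : g ∈ pinGrp e n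
  · exact ⟨by rw [pinFn_mul hadd hint he hn hu' hg, pinFn_small hint he hn hu, one_mul],
      by rw [pinFn_mul hadd hint he hn hg hu', pinFn_small hint he hn hu, mul_one]⟩
  · rw [pinFn_of_not_mem hg]
    exact ⟨pinFn_of_not_mem fun h => hg ((pinGrp e n).mul_mem_cancel_left hu' |>.1 h),
      pinFn_of_not_mem fun h => hg ((pinGrp e n).mul_mem_cancel_right hu' |>.1 h)⟩

/-- Upper triangular members. -/
theorem upK_mem_pinGrp (he : e < 1) {a : Kˣ} {b : K} (ha : Valued.v ((a : K) - 1) ≤ e)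
    (hb : Valued.v b ≤ e) : upK a b ∈ pinGrp e n := by
  have h : upK a b ∈ lvl e := mem_lvl_of_ent he fun i l => by
    fin_cases i <;> fin_cases l <;> simp [coe_upK, ha, hb]
  simpa [scal] using mem_pinGrp_of_lvl (n := n) h (by simp [coe_upK]) (1 : Kˣ)

theorem pinFn_upK (he : e < 1) {a : Kˣ} {b : K} (ha : Valued.v ((a : K) - 1) ≤ e)
    (hb : Valued.v b ≤ e) : pinFn χ e n x₀ (upK a b) = χ (-(x₀ * b)) := by
  rw [pinFn_of_mem (upK_mem_pinGrp he ha hb)]
  simp [coe_upK]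

/-- Upper triangular representatives of the group. -/
theorem exists_up_of_pinGrp (he : e < 1) (hne : n ≤ e) {g : GL (Fin 2) K}
    (hg : g ∈ pinGrp e n) :
    ∃ (a : Kˣ) (b : K), Valued.v ((a : K) - 1) ≤ e ∧ Valued.v b ≤ e ∧
      ∃ u ∈ lvlZ n, g = upK a b * u := by
  obtain ⟨hd, ha, hb, hr⟩ := pinGrp_bounds he hg
  set D := (g : Matrix (Fin 2) (Fin 2) K) 1 1
  set a := (g : Matrix (Fin 2) (Fin 2) K) 0 0 / D
  set b := (g : Matrix (Fin 2) (Fin 2) K) 0 1 / D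
  set r := (g : Matrix (Fin 2) (Fin 2) K) 1 0 / D
  have ha' : Valued.v (a - b * r - 1) ≤ e := by
    rw [sub_right_comm]
    refine Valued.v.map_sub_le ha ?_
    rw [map_mul]
    exact (mul_le_mul' (hb.trans he.le) hr).trans (by rw [one_mul]; exact hne)
  have ha0 : a - b * r ≠ 0 := fun h => by simpa [h] using v_eq_one_of_sub he ha'
  set k : GL (Fin 2) K := Matrix.GeneralLinearGroup.mkOfDetNeZero !![1, 0; r, 1]
    (by simp [Matrix.det_fin_two])
  refine ⟨Units.mk0 _ ha0, b, ha', hb, k * scal (Units.mk0 D hd),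
    ⟨k, mem_lvl_of_ent (hne.trans_lt he) fun i j => by
      fin_cases i <;> fin_cases j <;> simp [k, hr], _, rfl⟩, Units.ext ?_⟩
  have hd' : (g : Matrix (Fin 2) (Fin 2) K) 1 1 ≠ 0 := hd
  ext i j
  fin_cases i <;> fin_cases j <;>
    simp [coe_upK, k, scal, a, b, r, D, Matrix.mul_apply, Fin.sum_univ_two] <;>
    field_simp <;> ring

/-- Left translation by an upper triangular member. -/
theorem pinFn_upK_mul (hadd : ∀ a b, χ (a + b) = χ a * χ b)
    (hint : ∀ y, Valued.v y ≤ e * e → χ (-(x₀ * y)) = 1) (he : e < 1) (hn : n ≤ e * e) {a : Kˣ}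
    {b : K} (ha : Valued.v ((a : K) - 1) ≤ e) (hb : Valued.v b ≤ e) (g : GL (Fin 2) K) :
    pinFn χ e n x₀ (upK a b * g) = χ (-(x₀ * b)) * pinFn χ e n x₀ g := by
  by_cases hg : g ∈ pinGrp e n
  · rw [pinFn_mul hadd hint he hn (upK_mem_pinGrp he ha hb) hg, pinFn_upK he ha hb]
  · rw [pinFn_of_not_mem hg, mul_zero]
    exact pinFn_of_not_mem fun h =>
      hg ((pinGrp e n).mul_mem_cancel_left (upK_mem_pinGrp he ha hb) |>.1 h)

/-- A character fixed by the automorphism and its cube root give a pinned pair. -/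
theorem pinChar_pinFn (τ : K →+* K) (hτv : ∀ x, Valued.v (τ x) = Valued.v x)
    (hadd : ∀ a b, χ (a + b) = χ a * χ b) (hχ : ∀ y, χ y ≠ 0) (hχτ : ∀ y, χ (τ y) = χ y)
    (hτ0 : τ x₀ = x₀) (hint : ∀ y, Valued.v y ≤ e * e → χ (-(x₀ * y)) = 1) (he : e < 1)
    (hn : n ≤ e * e) (h3 : Valued.v (3 : K) = (1 : Γ₀)) :
    PinChar τ e n (pinFn χ e n x₀) (pinFn χ e n (x₀ / 3)) where
  lt_one := he
  le := hn.trans (mul_le_of_le_one_right' he.le)
  supp g := pinFn_ne_zero hχ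
  supp' g := pinFn_ne_zero hχ
  mul g hg k hk := pinFn_mul hadd hint he hn hg hk
  tau g hg := by
    have hτg : gl τ g ∈ pinGrp e n := by
      obtain ⟨k, hk, h10, -, c, rfl⟩ := hg
      rw [map_mul, gl_scal]
      exact mem_pinGrp_of_lvl (gl_mem_lvl_of_isometry τ hτv hk)
        (by rw [gl_apply, hτv]; exact h10) _
    rw [pinFn_of_mem hg, pinFn_of_mem hτg, gl_apply, gl_apply, ← map_div₀]
    conv_lhs => rw [← hτ0, ← map_mul, ← map_neg, hχτ]
  central c g := pinFn_scal c g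
  central' c g := pinFn_scal c g
  cube g hg := by
    have h30 : (3 : K) ≠ 0 := fun h => by simp [h] at h3
    have hint' : ∀ y, Valued.v y ≤ e * e → χ (-(x₀ / 3 * y)) = 1 := fun y hy => by
      rw [show x₀ / 3 * y = x₀ * (y / 3) by ring]
      exact hint _ (by rwa [map_div₀, h3, div_one])
    rw [pinFn_mul hadd hint' he hn (mul_mem hg hg) hg, pinFn_mul hadd hint' he hn hg hg,
      pinFn_of_mem hg, pinFn_of_mem hg, ← hadd, ← hadd]
    congr 1
    field_simp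
    ring

end FLTAgent.LT.TraceTheta
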