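import Fermat.Agent.LT.TF.Trace.BadCosets
import Fermat.Agent.LT.TF.Trace.PinLocal

/-!
The three families used for the twisted trace: contracting classes with the character, a single
shift, and the character alone; representatives, values and left equivariance.
-/

set_option autoImplicit false
set_option linter.unusedSectionVars false
set_option linter.style.haveILetI false

noncomputable section

namespace FLTAgent.LT.TraceTheta

open NumberField IsDedekindDomain
open FLTAgent.LT.Match FLTAgent.LT.Red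

local notation "Γ₀" => WithZero (Multiplicative ℤ)

variable {F : Type} [Field F] [NumberField F] [PinSel F] [IsTotallyComplex F]

local notation "HS" => HeightOneSpectrum (𝓞 F)

variable (τ : F ≃+* F) (N M : ℕ) (x₀ : (Af F)ˣ)

/-- The parameter of the contracting classes. -/
def piU (j : ℕ) (v : HeightOneSpectrum (𝓞 F)) : (Kp F v)ˣ := natU (Kp F v) N ^ j

open Classical in
/-- The function at a place where coefficients are pinned. -/
def eAt (v : HeightOneSpectrum (𝓞 F)) : GL (Fin 2) (Kp F v) → ℂ :=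
  if PinV v then pinFn (chiAt v) (PinSel.rad v) (levN v M * levN v M) ((x₀ : Af F) v)
  else eFn (chiAt v) (levN v M) ((x₀ : Af F) v)

/-- The family of the test. -/
def badFam (j : ℕ) : ∀ v : HeightOneSpectrum (𝓞 F), GL (Fin 2) (Kp F v) → ℂ :=
  mkFam τ N (fun v => omegaAt (τ : F →+* F) N j v) (eAt M x₀)

/-- The family of a single shift at the fixed bad places. -/
def shiftFam (g : (Af F)ˣ) : ∀ v : HeightOneSpectrum (𝓞 F), GL (Fin 2) (Kp F v) → ℂ :=
  mkFam τ N (fun v => shiftFn (levN v N) (evU v g)) (fun v => unitFn (levN v N))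

/-- The family of the pin. -/
def pinFam : ∀ v : HeightOneSpectrum (𝓞 F), GL (Fin 2) (Kp F v) → ℂ :=
  mkFam τ N (fun v => unitFn (levN v N)) (eAt M x₀)

/-- The norm condition of a unit at a fixed place. -/
def NormCond {v : HeightOneSpectrum (𝓞 F)} (h : below τ v = v) (a : (Kp F v)ˣ) : Prop :=
  Valued.v (((nrm3 (cMap (τ : F →+* F) v v h) a : (Kp F v)ˣ) : Kp F v) - 1) ≤ levN v N

/-- Representatives of the contracting classes. -/
def QBad (j : ℕ) (v : HeightOneSpectrum (𝓞 F)) (a : (Kp F v)ˣ) (b : Kp F v) : Prop :=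
  ∀ h : NsV τ N v, Valued.v (a : Kp F v) = Valued.v ((piU N j v : (Kp F v)ˣ) : Kp F v) ∧
    Valued.v (((nrm3 (cMap (τ : F →+* F) v v h.2.1) a / piU N j v ^ 3 : (Kp F v)ˣ) : Kp F v) - 1) ≤
      levN v N ∧ Valued.v b ≤ levN v N

/-- Representatives of a shift. -/
def QShift (g : (Af F)ˣ) (v : HeightOneSpectrum (𝓞 F)) (a : (Kp F v)ˣ) (b : Kp F v) : Prop :=
  a = evU v g ∧ Valued.v b ≤ levN v N

/-- Trivial representatives. -/
def QOne (v : HeightOneSpectrum (𝓞 F)) (a : (Kp F v)ˣ) (b : Kp F v) : Prop := a = 1 ∧ b = 0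

/-- Representatives at a place where coefficients are pinned. -/
def RPin (v : HeightOneSpectrum (𝓞 F)) (a : (Kp F v)ˣ) (b : Kp F v) : Prop :=
  Valued.v ((a : Kp F v) - 1) ≤ radA M v ∧ Valued.v b ≤ radB M v

/-- The hypotheses on the level and the base idele. -/
structure BadSetup {K : Type} [Field K] [NumberField K] (i : K →+* F) : Prop where
  hM : 0 < M
  hNM : N = M * M
  cyc : Ell.CycGen i (τ : F →+* F) 3
  x0_ns : ∀ v : HS, NsV τ N v → (x₀ : Af F) v = 1
  x0_good : ∀ v : HS, (N : 𝓞 F) ∉ v.asIdeal →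
    Valued.v ((x₀ : Af F) v) = Valued.v ((diffId (F := F) : Af F) v)
  x0_sp : ∀ v : HS, SpV τ N v →
    Valued.v ((x₀ : Af F) v) * (radA M v * radB M v) = Valued.v ((diffId (F := F) : Af F) v)
  pin_fix : ∀ v : HS, PinV v → below τ v = v ∧ (N : 𝓞 F) ∈ v.asIdeal
  pin_sq : ∀ v : HS, PinV v → levN v N ≤ PinSel.rad v * PinSel.rad v
  pin_ne : ∀ v : HS, PinSel.rad (F := F) v ≠ 0
  x0_twist : ∀ v : HS, SpV τ N v → (Tu τ x₀ : Af F) v = (x₀ : Af F) v

variable {τ N M x₀} {K : Type} [Field K] [NumberField K] {i : K →+* F}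

theorem BadSetup.hN (S : BadSetup τ N M x₀ i) : 0 < N := S.hNM ▸ Nat.mul_pos S.hM S.hM

theorem BadSetup.levM_lt (S : BadSetup τ N M x₀ i) {v : HS} (hv : (N : 𝓞 F) ∈ v.asIdeal) :
    levN v M < 1 := levN_lt_one (mem_of_mul_self S.hNM hv)

theorem radA_of_pin {v : HS} (h : PinV v) : radA M v = PinSel.rad v := by
  classical exact if_pos h

theorem radB_of_pin {v : HS} (h : PinV v) : radB M v = PinSel.rad v := by
  classical exact if_pos h

theorem radA_of_not_pin {v : HS} (h : ¬ PinV v) : radA M v = levN v M := by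
  classical rw [levN_eq]; exact if_neg h

theorem radB_of_not_pin {v : HS} (h : ¬ PinV v) : radB M v = (levN v M)⁻¹ := by
  classical rw [levN_eq]; exact if_neg h

theorem eAt_of_pin {v : HS} (h : PinV v) :
    eAt M x₀ v = pinFn (chiAt v) (PinSel.rad v) (levN v M * levN v M) ((x₀ : Af F) v) := by
  classical exact if_pos h

theorem eAt_of_not_pin {v : HS} (h : ¬ PinV v) :
    eAt M x₀ v = eFn (chiAt v) (levN v M) ((x₀ : Af F) v) := by
  classical exact if_neg h

theorem BadSetup.radA_lt (S : BadSetup τ N M x₀ i) {v : HS} (hv : (N : 𝓞 F) ∈ v.asIdeal) :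
    radA M v < 1 := by
  by_cases h : PinV v
  · rw [radA_of_pin h]; exact h
  · rw [radA_of_not_pin h]; exact S.levM_lt hv

theorem BadSetup.radB_ne (S : BadSetup τ N M x₀ i) (v : HS) : radB M v ≠ 0 := by
  by_cases h : PinV v
  · rw [radB_of_pin h]; exact S.pin_ne v
  · rw [radB_of_not_pin h]; exact inv_ne_zero (levN_ne_zero v S.hM)

theorem BadSetup.chiAt_int (S : BadSetup τ N M x₀ i) {v : HS} (hv : SpV τ N v) (y : Kp F v)
    (hy : Valued.v y ≤ radA M v * radB M v) : chiAt v (-((x₀ : Af F) v * y)) = 1 := by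
  refine chiAt_eq_one ?_
  rw [Valuation.map_neg, map_mul, ← S.x0_sp v hv]
  exact mul_le_mul' le_rfl hy

theorem BadSetup.int_pin (S : BadSetup τ N M x₀ i) {v : HS} (hv : SpV τ N v) (hp : PinV v)
    (y : Kp F v) (hy : Valued.v y ≤ PinSel.rad v * PinSel.rad v) :
    chiAt v (-((x₀ : Af F) v * y)) = 1 :=
  S.chiAt_int hv y (by rwa [radA_of_pin hp, radB_of_pin hp])

theorem BadSetup.int_moved (S : BadSetup τ N M x₀ i) {v : HS} (hv : SpV τ N v) (hp : ¬ PinV v)
    (y : Kp F v) (hy : Valued.v y ≤ (1 : Γ₀)) :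
    chiAt v (-((x₀ : Af F) v * y)) = 1 :=
  S.chiAt_int hv y (by
    rwa [radA_of_not_pin hp, radB_of_not_pin hp, mul_inv_cancel₀ (levN_ne_zero v S.hM)])

theorem BadSetup.lev_sq (S : BadSetup τ N M x₀ i) {v : HS} (hp : PinV v) :
    levN v M * levN v M ≤ PinSel.rad v * PinSel.rad v := by
  rw [← levN_mul_self S.hNM]; exact S.pin_sq v hp

/-- The valuation of the base idele times the level. -/
theorem BadSetup.x0_le (S : BadSetup τ N M x₀ i) (v : HS) :
    Valued.v ((x₀ : Af F) v) * Valued.v ((N : Af F) v) ≤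
      Valued.v ((diffId (F := F) : Af F) v) := by
  have h1 := valued_natCast_le_one (F := F) N v
  by_cases hN : (N : 𝓞 F) ∈ v.asIdeal
  · by_cases hc : FixC τ v
    · rw [S.x0_ns v ⟨hN, hc⟩, map_one, one_mul]
      exact h1.trans (one_le_diffId v)
    · rw [← S.x0_sp v ⟨hN, hc⟩]
      refine mul_le_mul' le_rfl ?_
      by_cases hp : PinV v
      · rw [radA_of_pin hp, radB_of_pin hp]
        exact S.pin_sq v hp
      · rw [radA_of_not_pin hp, radB_of_not_pin hp, mul_inv_cancel₀ (levN_ne_zero v S.hM)]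
        exact h1
  · rw [S.x0_good v hN]
    exact mul_le_of_le_one_right' h1

/-- The completions at a fixed place. -/
theorem BadSetup.pair (S : BadSetup τ N M x₀ i) {v : HS} (h : below τ v = v) :
    Pair (cMap i v (placeBelow i v) rfl) (cMap (τ : F →+* F) v v h) :=
  pair_of_fixed S.cyc h rfl

theorem piU_val (hN : 0 < N) (j : ℕ) (v : HS) :
    ((piU N j v : (Kp F v)ˣ) : Kp F v) = (N : Kp F v) ^ j := by
  rw [piU, Units.val_pow_eq_pow_val, natU_val hN]

theorem v_piU (hN : 0 < N) (j : ℕ) (v : HS) :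
    Valued.v ((piU N j v : (Kp F v)ˣ) : Kp F v) = levN v N ^ j := by
  rw [piU_val hN, map_pow, levN_eq]

theorem nrm3_piU (hN : 0 < N) (j : ℕ) {v : HS} (h : below τ v = v) :
    nrm3 (cMap (τ : F →+* F) v v h) (piU N j v) = piU N j v ^ 3 := by
  refine Units.ext ?_
  simp only [nrm3, Units.val_mul, Units.coe_map, Units.val_pow_eq_pow_val, piU_val hN,
    RingHom.toMonoidHom_eq_coe, MonoidHom.coe_coe, map_pow, map_natCast]
  ring

theorem v_piU_lt (hN : 0 < N) {j : ℕ} (hj : 0 < j) {v : HS} (hv : (N : 𝓞 F) ∈ v.asIdeal) :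
    Valued.v ((piU N j v : (Kp F v)ˣ) : Kp F v) < (1 : Γ₀) := by
  rw [v_piU hN]
  exact pow_lt_one₀ zero_le (levN_lt_one hv) hj.ne'

theorem omegaAt_eq (j : ℕ) {v : HS} (h : below τ v = v) :
    omegaAt (τ : F →+* F) N j v = omegaFn (cMap (τ : F →+* F) v v h) (levN v N) (piU N j v) := by
  classical
  exact dif_pos h

theorem upRep_omegaAt (S : BadSetup τ N M x₀ i) {j : ℕ} (hj : 0 < j) {v : HS} (hv : NsV τ N v) :
    UpRep N v (omegaAt (τ : F →+* F) N j v) (QBad τ N j v) := by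
  have P := S.pair hv.2.1
  have he := levN_lt_one hv.1
  have hϖ := v_piU_lt S.hN hj hv.1
  rw [omegaAt_eq j hv.2.1]
  refine ⟨fun u hu g => (P.omegaFn_mul_lvlZ he hϖ le_rfl hu g).1,
    fun u hu g => (P.omegaFn_mul_lvlZ he hϖ le_rfl hu g).2, fun g hg => ?_⟩
  obtain ⟨b, y, hb, hn, hy, hu⟩ := exists_up_of_Omega P he hϖ (Set.mem_of_indicator_ne_zero hg)
  exact ⟨b, y, fun _ => ⟨hb, hn, hy⟩, hu⟩

theorem upRep_shiftFn (g : (Af F)ˣ) {v : HS} (hv : (N : 𝓞 F) ∈ v.asIdeal)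
    (hg : Valued.v ((g : Af F) v) ≤ 1) :
    UpRep N v (shiftFn (levN v N) (evU v g)) (QShift N g v) := by
  refine ⟨fun u hu x => (shiftFn_mul _ hu x).1, fun u hu x => (shiftFn_mul _ hu x).2,
    fun x hx => ?_⟩
  obtain ⟨y, hy, hu⟩ := exists_up_of_shiftSet (levN_lt_one hv) (a := evU v g) hg
    (Set.mem_of_indicator_ne_zero hx)
  exact ⟨_, y, ⟨rfl, hy⟩, hu⟩

theorem upRep_eAt (S : BadSetup τ N M x₀ i) {v : HS} (hv : SpV τ N v) :
    UpRep N v (eAt M x₀ v) (RPin M v) := by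
  have hadd := chiAt_add (F := F) v
  by_cases hp : PinV v
  · rw [eAt_of_pin hp]
    have hn := S.lev_sq hp
    have hint := S.int_pin hv hp
    refine ⟨fun u hu g => ?_, fun u hu g => ?_, fun g hg => ?_⟩
    · rw [levN_mul_self S.hNM] at hu
      exact (pinFn_mul_small hadd hint hp hn hu g).1
    · rw [levN_mul_self S.hNM] at hu
      exact (pinFn_mul_small hadd hint hp hn hu g).2
    · obtain ⟨a, b, ha, hb, hu⟩ := exists_up_of_pinGrp hp
        (hn.trans (mul_le_of_le_one_right' hp.le))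
        ((pinFn_ne_zero (chiAt_ne_zero v)).1 hg)
      rw [← levN_mul_self S.hNM] at hu
      exact ⟨a, b, ⟨by rwa [radA_of_pin hp], by rwa [radB_of_pin hp]⟩, hu⟩
  · rw [eAt_of_not_pin hp]
    have hm := S.levM_lt hv.1
    have hm0 := levN_ne_zero v S.hM
    have hint := S.int_moved hv hp
    refine ⟨fun u hu g => ?_, fun u hu g => ?_, fun g hg => ?_⟩
    · rw [levN_mul_self S.hNM] at hu
      exact (eFn_mul hadd hint hm hm0 hu g).1
    · rw [levN_mul_self S.hNM] at hu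
      exact (eFn_mul hadd hint hm hm0 hu g).2
    · have hE : EPred (levN v M) g := by
        by_contra h
        classical
        exact hg (if_neg h)
      obtain ⟨a, b, ha, hb, hu⟩ := exists_up_of_EPred hm hm0 hE
      rw [← levN_mul_self S.hNM] at hu
      exact ⟨a, b, ⟨by rwa [radA_of_not_pin hp], by rwa [radB_of_not_pin hp]⟩, hu⟩

theorem bound_QBad (S : BadSetup τ N M x₀ i) (j : ℕ) {v : HS} (hv : NsV τ N v) :
    ∃ d c : Γ₀, d ≠ 0 ∧ c ≠ 0 ∧ ∀ a b, QBad τ N j v a b →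
      d ≤ Valued.v (a : Kp F v) ∧ Valued.v (a : Kp F v) ≤ 1 ∧ Valued.v b ≤ c :=
  ⟨levN v N ^ j, levN v N, pow_ne_zero _ (levN_ne_zero v S.hN), levN_ne_zero v S.hN,
    fun a b h => by
      rw [(h hv).1, v_piU S.hN]
      exact ⟨le_rfl, pow_le_one₀ zero_le (levN_le_one v N), (h hv).2.2⟩⟩

theorem bound_QShift (hN : 0 < N) (g : (Af F)ˣ) {v : HS} (hg : Valued.v ((g : Af F) v) ≤ 1) :
    ∃ d c : Γ₀, d ≠ 0 ∧ c ≠ 0 ∧ ∀ a b, QShift N g v a b →
      d ≤ Valued.v (a : Kp F v) ∧ Valued.v (a : Kp F v) ≤ 1 ∧ Valued.v b ≤ c :=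
  ⟨Valued.v ((g : Af F) v), levN v N, (map_ne_zero _).2 (unit_apply_ne_zero g v),
    levN_ne_zero v hN, fun a b h => by
      obtain ⟨rfl, hb⟩ := h
      exact ⟨le_rfl, hg, hb⟩⟩

theorem bound_QOne (v : HS) : ∃ d c : Γ₀, d ≠ 0 ∧ c ≠ 0 ∧ ∀ a b, QOne v a b →
      d ≤ Valued.v (a : Kp F v) ∧ Valued.v (a : Kp F v) ≤ 1 ∧ Valued.v b ≤ c :=
  ⟨1, 1, one_ne_zero, one_ne_zero, fun a b h => by obtain ⟨rfl, rfl⟩ := h; simp⟩

theorem bound_RPin (S : BadSetup τ N M x₀ i) {v : HS} (hv : SpV τ N v) :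
    ∃ d c : Γ₀, d ≠ 0 ∧ c ≠ 0 ∧ ∀ a b, RPin M v a b →
      d ≤ Valued.v (a : Kp F v) ∧ Valued.v (a : Kp F v) ≤ 1 ∧ Valued.v b ≤ c :=
  ⟨1, radB M v, one_ne_zero, S.radB_ne v, fun a b h => by
    rw [v_eq_one_of_sub (S.radA_lt hv.1) h.1]
    exact ⟨le_rfl, le_rfl, h.2⟩⟩

theorem BadSetup.locFam_bad (S : BadSetup τ N M x₀ i) {j : ℕ} (hj : 0 < j) :
    LocFam N (badFam τ N M x₀ j) :=
  locFam_mkFam S.hN (fun _ h => upRep_omegaAt S hj h) (fun _ h => upRep_eAt S h)
    (fun _ h => bound_QBad S j h) fun _ h => bound_RPin S h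

theorem locFam_shift (hN : 0 < N) (g : (Af F)ˣ)
    (hg : ∀ v, NsV τ N v → Valued.v ((g : Af F) v) ≤ 1) : LocFam N (shiftFam τ N g) :=
  locFam_mkFam hN (fun v h => upRep_shiftFn g h.1 (hg v h)) (fun v _ => upRep_unitFn N v)
    (fun v h => bound_QShift hN g (hg v h)) fun v _ => bound_QOne v

theorem BadSetup.locFam_pin (S : BadSetup τ N M x₀ i) : LocFam N (pinFam τ N M x₀) :=
  locFam_mkFam S.hN (fun v _ => upRep_unitFn N v) (fun _ h => upRep_eAt S h)
    (fun v _ => bound_QOne v) fun _ h => bound_RPin S h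

theorem unitFn_one {K : Type*} [Field K] [Valued K Γ₀] (e : Γ₀) :
    unitFn e (1 : GL (Fin 2) K) = 1 := by
  rw [unitFn, Set.indicator_of_mem (SetLike.mem_coe.2 (one_mem _)), Pi.one_apply]

/-! ### Values at representatives -/

theorem BadSetup.eAt_upK (S : BadSetup τ N M x₀ i) {v : HS} {a : (Kp F v)ˣ} {b : Kp F v}
    (h : RPin M v a b) : eAt M x₀ v (upK a b) = chiAt v (-((x₀ : Af F) v * b)) := by
  obtain ⟨h1, h2⟩ := h
  by_cases hp : PinV v
  · rw [radA_of_pin hp] at h1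
    rw [radB_of_pin hp] at h2
    rw [eAt_of_pin hp]
    exact pinFn_upK hp h1 h2
  · rw [radA_of_not_pin hp] at h1
    rw [radB_of_not_pin hp] at h2
    rw [eAt_of_not_pin hp]
    exact eFn_upK h1 h2

/-- Translations act by the character. -/
theorem BadSetup.eAt_upK_mul (S : BadSetup τ N M x₀ i) {v : HS} (hv : SpV τ N v) {β : Kp F v}
    (hβ : Valued.v β ≤ radB M v) (g : GL (Fin 2) (Kp F v)) :
    eAt M x₀ v (upK 1 β * g) = chiAt v (-((x₀ : Af F) v * β)) * eAt M x₀ v g := by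
  by_cases hp : PinV v
  · rw [eAt_of_pin hp]
    rw [radB_of_pin hp] at hβ
    exact pinFn_upK_mul (chiAt_add v) (S.int_pin hv hp) hp (S.lev_sq hp) (by simp) hβ g
  · rw [eAt_of_not_pin hp]
    rw [radB_of_not_pin hp] at hβ
    exact eFn_upK_mul (chiAt_add v) (S.levM_lt hv.1) (levN_ne_zero v S.hM) hβ g

/-- Small units fix the function. -/
theorem BadSetup.eAt_dg_mul (S : BadSetup τ N M x₀ i) {v : HS} (hv : SpV τ N v)
    {u : (Kp F v)ˣ} (hu : Valued.v ((u : Kp F v) - 1) ≤ radA M v) (g : GL (Fin 2) (Kp F v)) :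
    eAt M x₀ v (dg (u, 1) * g) = eAt M x₀ v g := by
  by_cases hp : PinV v
  · rw [eAt_of_pin hp]
    rw [radA_of_pin hp] at hu
    rw [show dg (u, 1) = upK u (0 : Kp F v) by rw [upK_eq_mul_dg, upK_one_zero, one_mul],
      pinFn_upK_mul (chiAt_add v) (S.int_pin hv hp) hp (S.lev_sq hp) hu (by simp) g, mul_zero,
      neg_zero, chiAt_eq_one (by rw [map_zero]; exact zero_le), one_mul]
  · rw [eAt_of_not_pin hp]
    rw [radA_of_not_pin hp] at hu
    exact eFn_dg_mul (chiAt_add v) (S.int_moved hv hp) (S.levM_lt hv.1) (levN_ne_zero v S.hM) hu g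

theorem BadSetup.badFam_upK (S : BadSetup τ N M x₀ i) {j : ℕ} (hj : 0 < j) {v : HS}
    (hv : ¬ SpV τ N v) {a : (Kp F v)ˣ} {b : Kp F v}
    (h : FamP τ N (QBad τ N j) (RPin M) v a b) : badFam τ N M x₀ j v (upK a b) = 1 := by
  rcases bad_cases τ N v with hb | hb | hb
  · obtain ⟨rfl, rfl⟩ := h.2.2 hb
    rw [badFam, mkFam_good hb, upK_one_zero, unitFn_one]
  · obtain ⟨h1, h2, h3⟩ := h.1 hb hb
    have hle : Valued.v (a : Kp F v) ≤ (1 : Γ₀) :=
      h1.trans_le (v_piU_lt S.hN hj hb.1).le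
    rw [badFam, mkFam_ns hb, omegaAt_eq j hb.2.1, omegaFn, Set.indicator_of_mem
      (upK_mem_Omega (S.pair hb.2.1) (levN_lt_one hb.1) hle h2 h3)]
  · exact absurd hb hv

theorem shiftFam_upK (g : (Af F)ˣ) {v : HS} {a : (Kp F v)ˣ} {b : Kp F v}
    (h : FamP τ N (QShift N g) QOne v a b) : shiftFam τ N g v (upK a b) = 1 := by
  rcases bad_cases τ N v with hb | hb | hb
  · obtain ⟨rfl, rfl⟩ := h.2.2 hb
    rw [shiftFam, mkFam_good hb, upK_one_zero, unitFn_one]
  · obtain ⟨rfl, h2⟩ := h.1 hb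
    rw [shiftFam, mkFam_ns hb, shiftFn,
      Set.indicator_of_mem (upK_mem_shiftSet (levN_lt_one hb.1) _ h2)]
  · obtain ⟨rfl, rfl⟩ := h.2.1 hb
    rw [shiftFam, mkFam_sp hb, upK_one_zero, unitFn_one]

theorem pinFam_upK {v : HS} (hv : ¬ SpV τ N v) {a : (Kp F v)ˣ} {b : Kp F v}
    (h : FamP τ N QOne (RPin M) v a b) : pinFam τ N M x₀ v (upK a b) = 1 := by
  rcases bad_cases τ N v with hb | hb | hb
  · obtain ⟨rfl, rfl⟩ := h.2.2 hb
    rw [pinFam, mkFam_good hb, upK_one_zero, unitFn_one]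
  · obtain ⟨rfl, rfl⟩ := h.1 hb
    rw [pinFam, mkFam_ns hb, upK_one_zero, unitFn_one]
  · exact absurd hb hv

/-- The product at a representative cancels the character at the base idele. -/
theorem prod_mul_chi {L : ∀ v : HeightOneSpectrum (𝓞 F), GL (Fin 2) (Kp F v) → ℂ}
    (hN : 0 < N) {α a : (Af F)ˣ} {β : Af F}
    (hsp : ∀ v, SpV τ N v → L v (upK (evU v α) (β v)) = chiAt v (-((x₀ : Af F) v * β v)))
    (hne : ∀ v, ¬ SpV τ N v → L v (upK (evU v α) (β v)) = 1)
    (ha : ∀ v, SpV τ N v → (a : Af F) v = (x₀ : Af F) v)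
    (hd : ∀ v, ¬ SpV τ N v →
      Valued.v ((a : Af F) v) * Valued.v (β v) ≤ Valued.v ((diffId (F := F) : Af F) v)) :
    prodFun L (upperGF α β) * chi ((a : Af F) * β) = 1 := by
  classical
  set S := ((finite_natCast_mem (F := F) hN).subset
    (fun v (hv : v ∈ {v : HS | SpV τ N v}) => hv.1)).toFinset with hS
  have hmem : ∀ v, v ∈ S ↔ SpV τ N v := fun v => by simp [hS]
  rw [prodFun_upperGF, finprod_eq_prod_of_mulSupport_subset _ (s := S) fun v hv => by
      by_contra h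
      exact hv (hne v fun h' => h (Finset.mem_coe.2 ((hmem v).2 h'))),
    Finset.prod_congr rfl fun v hv => hsp v ((hmem v).1 hv)]
  simp only [chiAt]
  rw [← chi_sum, ← chi_add]
  suffices h : IsDualAd (∑ v ∈ S, adeleSingle v (-((x₀ : Af F) v * β v)) + (a : Af F) * β) by
    have h1 := h 1 intg_one
    rwa [mul_one] at h1
  refine (isDualAd_iff _).2 fun w => ?_
  rw [← evalAf_apply w, map_add, map_sum, map_mul]
  simp only [evalAf_apply]
  by_cases hw : SpV τ N w
  · rw [Finset.sum_eq_single_of_mem w ((hmem w).2 hw) fun v _ hvw => adeleSingle_ne _ hvw.symm,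
      adeleSingle_same, ha w hw, neg_add_cancel, map_zero]
    exact zero_le
  · rw [Finset.sum_eq_zero fun v hv => adeleSingle_ne _ fun h : w = v =>
      hw (h ▸ (hmem v).1 hv), zero_add, map_mul]
    exact hd w hw

end FLTAgent.LT.TraceTheta
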