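import Fermat.Agent.LT.TF.Trace.Range

/-!
The twisted trace of contracting operators on a space of cusp forms is nonzero as soon as the space
contains one form with an unbounded tail at the fixed bad places.
-/

set_option autoImplicit false
set_option linter.style.haveILetI false
set_option linter.unusedSectionVars false

noncomputable section

namespace FLTAgent.LT.TraceTheta

open NumberField IsDedekindDomain WithZero LinearMap
open FLTAgent.LT.RS FLTAgent.LT.Red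

variable {F : Type} [Field F] [NumberField F] [PinSel F] [IsTotallyComplex F]

local notation "HS" => HeightOneSpectrum (𝓞 F)

variable {τ : F ≃+* F} {N M : ℕ} {x₀ : (Af F)ˣ} {V : Submodule ℂ (Form F)}

/-- The traces on the range. -/
theorem exists_range_trace_ne_zero [FiniteDimensional ℂ V] {s : Set.Ioi (0 : ℝ)}
    (h : TraceHyp τ N M x₀ s V)
    (hst : ∀ g : nsId τ N, ∀ x ∈ LinearMap.range h.germ, transQ τ N h.hN g x ∈ LinearMap.range h.germ)
    (π : nsId τ N) {Bt : Type} [Group Bt] [Fintype Bt]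
    (ρB : Bt →* Module.End ℂ (LinearMap.range h.germ))
    (hB : ∀ x, ∃ u : nsId τ N, (∀ v, Valued.v (((u : (Af F)ˣ) : Af F) v) = 1) ∧ ρB x = rangeTrans h hst u)
    (φ₀ : V)
    (hinv : ∀ u : nsId τ N, (∀ v, Valued.v (((u : (Af F)ˣ) : Af F) v) = 1) → ∀ a,
      cf s (φ₀ : Form F) (a * (u : (Af F)ˣ)) = cf s (φ₀ : Form F) a)
    (htail : ∀ k, ∃ b : nsId τ N, Deep τ N k b ∧
      cf s (φ₀ : Form F) (x₀ * (b : (Af F)ˣ)) ≠ 0) (j₁ : ℕ) :
    ∃ j ≥ j₁, LinearMap.trace ℂ _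
      (rangeTwist h * (rangeTrans h hst π ^ j * repAvg ρB)) ≠ 0 := by
  refine exists_twisted_trace_ne_zero (rangeTrans h hst) (twB τ N) (zB τ N) (fun d => rfl) ?_
    (rangeTwist h) (rangeTwist_mul_rangeTrans h hst) (rangeTwist_eq_self h hst) ρB
    (fun u => ∀ v, Valued.v (((u : (Af F)ˣ) : Af F) v) = 1) (valued_zB τ N) hB
    (h.germ.rangeRestrict φ₀) ?_ (fun u hu => germ_fixed h hst hinv hu) π j₁
  · refine ((finite_cocycleGroup h hst).image Units.val).subset ?_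
    rintro _ ⟨d, rfl⟩
    exact ⟨_, ⟨d, rfl⟩, rfl⟩
  · intro h3
    obtain ⟨k, hk⟩ := (h.germ_eq_zero_iff φ₀).1 (congrArg Subtype.val h3) 1
    obtain ⟨b, hb, hne⟩ := htail k
    exact hne (by simpa using hk b hb)

/-- **The twisted trace is nonzero.** -/
theorem exists_trace_ne_zero [FiniteDimensional ℂ V] {K : ℝ → ℂ} {t0 : ℝ} (hK : RefMode K t0)
    (h : TraceHyp τ N M x₀ ⟨t0, hK.pos⟩ V)
    {π : nsId τ N} (hπ : ∀ v, NsV τ N v → Valued.v (((π : (Af F)ˣ) : Af F) v) < 1)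
    (hop : HasShifts τ N ⟨t0, hK.pos⟩ V)
    (A : V →ₗ[ℂ] V) {n : ℕ} (hn : 0 < n) (c : Fin n → Af F) (hc : ∀ i, Intg (c i))
    (hA : ∀ φ : V, IsShift N ⟨t0, hK.pos⟩ (π : (Af F)ˣ) (φ : Form F) ((A φ : V) : Form F) c)
    {Bt : Type} [Group Bt] [Fintype Bt] (β : Bt → nsId τ N)
    (hβ : ∀ x, ∀ v : HS, Valued.v (((β x : (Af F)ˣ) : Af F) v) = 1)
    (hβmul : ∀ x y, ∀ v : HS, Valued.v (((β x * β y : nsId τ N) : (Af F)ˣ).val v -
      ((β (x * y) : (Af F)ˣ) : Af F) v) ≤ Valued.v ((N : Af F) v))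
    (hβone : ∀ v : HS, Valued.v (((β 1 : (Af F)ˣ) : Af F) v - 1) ≤ Valued.v ((N : Af F) v))
    (W : V →ₗ[ℂ] V)
    (hW : ∀ (φ : V) (a : (Af F)ˣ), cf ⟨t0, hK.pos⟩ ((W φ : V) : Form F) a =
      ∑ x, cf ⟨t0, hK.pos⟩ (φ : Form F) (a * (β x : (Af F)ˣ)))
    (φ₀ : V)
    (hinv : ∀ u : nsId τ N, (∀ v, Valued.v (((u : (Af F)ˣ) : Af F) v) = 1) → ∀ a,
      cf ⟨t0, hK.pos⟩ (φ₀ : Form F) (a * (u : (Af F)ˣ)) = cf ⟨t0, hK.pos⟩ (φ₀ : Form F) a)
    (htail : ∀ k, ∃ b : nsId τ N, Deep τ N k b ∧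
      cf ⟨t0, hK.pos⟩ (φ₀ : Form F) (x₀ * (b : (Af F)ˣ)) ≠ 0) (T : V →ₗ[ℂ] V)
    (hT : ∀ φ : V, ((T φ : V) : Form F) = Tform τ (φ : Form F)) (j₁ : ℕ) :
    ∃ j ≥ j₁, LinearMap.trace ℂ V (T * (A ^ j * W)) ≠ 0 := by
  classical
  have hst := h.range_stable hop hπ
  let ρB : Bt →* Module.End ℂ (LinearMap.range h.germ) :=
    { toFun := fun x => rangeTrans h hst (β x)
      map_one' := by
        rw [← map_one (rangeTrans h hst)]
        exact rangeTrans_congr h hst (hβ 1) (fun v => map_one (Valued.v (R := v.adicCompletion F)))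
          fun v => hβone v
      map_mul' := fun x y => by
        rw [← map_mul]
        refine (rangeTrans_congr h hst (fun v => ?_) (hβ _) (hβmul x y)).symm
        rw [Subgroup.coe_mul, af_unit_mul_apply, map_mul, hβ, hβ, one_mul] }
  obtain ⟨j₀, hkill⟩ := h.exists_kill hπ A c hA hK rfl
  obtain ⟨j, hj, hne⟩ := exists_range_trace_ne_zero h hst π ρB (fun x => ⟨β x, hβ x, rfl⟩)
    φ₀ hinv htail (max j₀ j₁)
  refine ⟨j, (le_max_right _ _).trans hj, ?_⟩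
  exact trace_comp_ne_zero h.germ T A W (rangeTwist h) (rangeTrans h hst π) ρB (n : ℂ)
    (Nat.cast_ne_zero.2 hn.ne') (germ_Tform h T hT) (germ_shiftOp h hst A hc hA)
    (germ_unitOp h hst β W hW) (hkill j ((le_max_left _ _).trans hj)) hne

end FLTAgent.LT.TraceTheta
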