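import Fermat.Agent.LT.TF.Trace.Pinned
import Fermat.Agent.LT.TF.Trace.Main

/-!
The germ of the contracting operator on the pinned subspace: a translation by the parameter times a
sum over units of norm one at the fixed bad places; the operator kills germ-free forms for large
parameters.
-/

set_option autoImplicit false
set_option linter.unusedSectionVars false
set_option linter.style.haveILetI false

noncomputable section

namespace FLTAgent.LT.TraceTheta

open NumberField IsDedekindDomain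
open FLTAgent.LT.Match FLTAgent.LT.Red FLTAgent.LT.RS

local notation "Γ₀" => WithZero (Multiplicative ℤ)

variable {F : Type} [Field F] [NumberField F] [PinSel F] [IsTotallyComplex F]

local notation "HS" => HeightOneSpectrum (𝓞 F)

variable (τ : F ≃+* F) (N : ℕ)

/-- The part at the fixed bad places. -/
def nsPart (a : (Af F)ˣ) : nsId τ N :=
  ⟨restr (fun v => NsV τ N v) a, fun _ hv => restr_apply_of_not hv a⟩

theorem nsPart_apply {a : (Af F)ˣ} {v : HeightOneSpectrum (𝓞 F)} (hv : NsV τ N v) :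
    ((nsPart τ N a : (Af F)ˣ) : Af F) v = (a : Af F) v :=
  restr_apply_of (P := fun v => NsV τ N v) hv a

/-- The parameter at the fixed bad places. -/
def piNs (hN : 0 < N) : nsId τ N := nsPart τ N (natId F N hN)

theorem evU_piNs_pow (hN : 0 < N) (j : ℕ) {v : HeightOneSpectrum (𝓞 F)} (hv : NsV τ N v) :
    evU v ((piNs τ N hN ^ j : nsId τ N) : (Af F)ˣ) = piU N j v := by
  rw [SubmonoidClass.coe_pow, map_pow, piU]
  congr 1
  refine Units.ext ?_
  rw [evU_val, piNs, nsPart_apply τ N hv, natId_val, natU_val hN, ← evalAf_apply, map_natCast]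

theorem nrm3_mul {B : Type*} [Field B] (σ : B →+* B) (a b : Bˣ) :
    nrm3 σ (a * b) = nrm3 σ a * nrm3 σ b := by
  simp only [nrm3, map_mul]
  ac_rfl

theorem nrm3_inv {B : Type*} [Field B] (σ : B →+* B) (a : Bˣ) : nrm3 σ a⁻¹ = (nrm3 σ a)⁻¹ := by
  simp only [nrm3, map_inv, mul_inv]

theorem nrm3_one {B : Type*} [Field B] (σ : B →+* B) : nrm3 σ 1 = 1 := by simp [nrm3]

theorem normCond_iff {v : HeightOneSpectrum (𝓞 F)} (hv : NsV τ N v) (a : (Kp F v)ˣ) :
    NormCond τ N hv.2.1 a ↔ nrm3 (cMap (τ : F →+* F) v v hv.2.1) a ∈ oneAdd (Kp F v) (levN v N) :=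
  (mem_oneAdd (levN_lt_one hv.1)).symm

/-- Units of norm one at the fixed bad places. -/
def normUnits : Subgroup (nsId (F := F) τ N) where
  carrier := {u | (∀ v : HS, Valued.v (((u : (Af F)ˣ) : Af F) v) = 1) ∧
    ∀ (v : HS) (h : NsV τ N v),
      nrm3 (cMap (τ : F →+* F) v v h.2.1) (evU v (u : (Af F)ˣ)) ∈ oneAdd (Kp F v) (levN v N)}
  one_mem' := ⟨fun v => map_one _, fun v h => by
    rw [Subgroup.coe_one, map_one, nrm3_one]; exact one_mem _⟩
  mul_mem' {a b} ha hb := ⟨fun v => by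
      rw [Subgroup.coe_mul, af_unit_mul_apply, map_mul, ha.1, hb.1, one_mul],
    fun v h => by
      rw [Subgroup.coe_mul, map_mul, nrm3_mul]
      exact mul_mem (ha.2 v h) (hb.2 v h)⟩
  inv_mem' {a} ha := ⟨fun v => by rw [Subgroup.coe_inv, valued_inv, ha.1, inv_one],
    fun v h => by
      rw [Subgroup.coe_inv, map_inv, nrm3_inv]
      exact inv_mem (ha.2 v h)⟩

variable {τ N}

theorem mem_normUnits {u : nsId τ N} :
    u ∈ normUnits τ N ↔ (∀ v : HS, Valued.v (((u : (Af F)ˣ) : Af F) v) = 1) ∧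
      ∀ (v : HS) (h : NsV τ N v),
        nrm3 (cMap (τ : F →+* F) v v h.2.1) (evU v (u : (Af F)ˣ)) ∈ oneAdd (Kp F v) (levN v N) :=
  Iff.rfl

/-- Finitely many classes of units modulo the level. -/
theorem exists_finite_units (hN : 0 < N) :
    ∃ R : Set {u : nsId τ N // ∀ v : HS, Valued.v (((u : (Af F)ˣ) : Af F) v) = 1}, R.Finite ∧
      ∀ u : {u : nsId τ N // ∀ v : HS, Valued.v (((u : (Af F)ˣ) : Af F) v) = 1}, ∃ r ∈ R,
        ∀ v : HS, Valued.v (((u.1 : (Af F)ˣ) : Af F) v - ((r.1 : (Af F)ˣ) : Af F) v) ≤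
          Valued.v ((N : Af F) v) := by
  haveI : Finite (𝓞 F ⧸ Ideal.span {(N : 𝓞 F)}) :=
    Ideal.finiteQuotientOfFreeOfNeBot _ (by simpa [Ideal.span_singleton_eq_bot] using hN.ne')
  choose y hy using
    fun u : {u : nsId τ N // ∀ v : HS, Valued.v (((u : (Af F)ˣ) : Af F) v) = 1} =>
      exists_int_sub_le ((u.1 : (Af F)ˣ) : Af F) (fun v => (u.2 v).le) hN
  obtain ⟨R, hR, hrep⟩ := exists_finite_reps fun u => Ideal.Quotient.mk (Ideal.span {(N : 𝓞 F)}) (y u)
  refine ⟨R, hR, fun u => ?_⟩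
  obtain ⟨r, hr, e⟩ := hrep u
  refine ⟨r, hr, fun v => ?_⟩
  obtain ⟨d, hd⟩ := Ideal.mem_span_singleton'.1 (Ideal.Quotient.eq.1 e)
  have hyy : Valued.v (algebraMap F (Af F) ((y r : 𝓞 F) : F) v -
      algebraMap F (Af F) ((y u : 𝓞 F) : F) v) ≤ Valued.v ((N : Af F) v) := by
    rw [show algebraMap F (Af F) ((y r : 𝓞 F) : F) v - algebraMap F (Af F) ((y u : 𝓞 F) : F) v =
        (algebraMap F (Af F) (((y r - y u : 𝓞 F)) : F)) v by
          rw [show ((y r - y u : 𝓞 F) : F) = ((y r : 𝓞 F) : F) - ((y u : 𝓞 F) : F) from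
            map_sub (algebraMap (𝓞 F) F) _ _, map_sub]; rfl,
      ← hd, RingOfIntegers.coe_eq_algebraMap, map_mul, map_mul, map_natCast, map_natCast,
      af_mul_apply, map_mul]
    refine mul_le_of_le_one_left' ?_
    rw [valued_algebraMap]
    exact v.valuation_le_one d
  rw [show ((u.1 : (Af F)ˣ) : Af F) v - ((r.1 : (Af F)ˣ) : Af F) v =
      ((((u.1 : (Af F)ˣ) : Af F) - algebraMap F (Af F) ((y u : 𝓞 F) : F)) v -
        (((r.1 : (Af F)ˣ) : Af F) - algebraMap F (Af F) ((y r : 𝓞 F) : F)) v) -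
      (algebraMap F (Af F) ((y r : 𝓞 F) : F) v - algebraMap F (Af F) ((y u : 𝓞 F) : F) v) from by
    rw [af_sub_apply, af_sub_apply]
    ring]
  exact Valued.v.map_sub_le (Valued.v.map_sub_le (hy u v) (hy r v)) hyy

variable {M : ℕ} {x₀ : (Af F)ˣ} {s : Set.Ioi (0 : ℝ)} {K : Type} [Field K] [NumberField K]
  {i : K →+* F}

theorem apply_eq_one_of_famP {Q R : (v : HeightOneSpectrum (𝓞 F)) → (Kp F v)ˣ → Kp F v → Prop}
    {α : (Af F)ˣ} {β : Af F} (h : Reps τ N Q R α β) {v : HS} (hv : (N : 𝓞 F) ∉ v.asIdeal) :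
    (α : Af F) v = 1 ∧ β v = 0 := by
  obtain ⟨ha, hb⟩ := (h v).2.2 hv
  exact ⟨by rw [← evU_val, ha, Units.val_one], hb⟩

/-- The part of the first parameter at the moved bad places does not move pinned coefficients. -/
theorem BadSetup.cf_mul_reps (S : BadSetup τ N M x₀ i) {Q : (v : HeightOneSpectrum (𝓞 F)) →
    (Kp F v)ˣ → Kp F v → Prop} {φ : Form F} (hφ : InvCond τ N M s φ) {α : (Af F)ˣ} {β : Af F}
    (h : Reps τ N Q (RPin M) α β) (a : (Af F)ˣ) :
    cf s φ (a * α) = cf s φ (a * (nsPart τ N α : (Af F)ˣ)) := by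
  have e : α = (nsPart τ N α : (Af F)ˣ) * restr (fun v => SpV τ N v) α := af_unit_ext fun v => by
    rw [af_unit_mul_apply]
    rcases bad_cases τ N v with hb | hb | hb
    · rw [(apply_eq_one_of_famP h hb).1, (nsPart τ N α).2 v fun h' => hb h'.1,
        restr_apply_of_not (P := fun v => SpV τ N v) (fun h' => hb h'.1), one_mul]
    · rw [nsPart_apply τ N hb,
        restr_apply_of_not (P := fun v => SpV τ N v) (fun h' => h'.2 hb.2), mul_one]
    · rw [(nsPart τ N α).2 v fun h' => hb.2 h'.2,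
        restr_apply_of (P := fun v => SpV τ N v) hb, one_mul]
  conv_lhs => rw [e, ← mul_assoc]
  refine hφ _ _ (fun v hv => restr_apply_of_not hv _) fun v hv => ?_
  have h1 := ((h v).2.1 hv).1
  rw [evU_val] at h1
  rw [restr_apply_of (P := fun v => SpV τ N v) hv]
  exact ⟨h1, v_eq_one_of_sub (S.radA_lt hv.1) h1⟩

variable {V : Submodule ℂ (Form F)}

/-- **The germ of the contracting operator.** -/
theorem BadSetup.germ_badOp (S : BadSetup τ N M x₀ i) (hV : SpaceHyp τ N V) {j : ℕ} (hj : 0 < j)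
    {p : Cos F N → (Af F)ˣ × Af F}
    (hp : RepMap τ N (QBad τ N j) (RPin M) (suppSet S.hN (S.locFam_bad hj)) p)
    (φ ψ : pinned τ N M x₀ s V S.hN hV)
    (hψ : (ψ : Form F) = finAct N (prodFun (badFam τ N M x₀ j)) (φ : Form F)) :
    (S.traceHyp hV).germ ψ = ∑ c ∈ suppSet S.hN (S.locFam_bad hj),
      transQ τ N S.hN (nsPart τ N (p c).1) ((S.traceHyp hV).germ φ) := by
  set h := S.traceHyp (s := s) hV
  simp only [TraceHyp.germ, LinearMap.comp_apply, Submodule.mkQ_apply, transQ_mk]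
  simp only [← Submodule.mkQ_apply (evZero τ N), ← map_sum]
  simp only [Submodule.mkQ_apply, Submodule.Quotient.eq]
  intro o
  refine ⟨0, fun b hb => ?_⟩
  rw [Pi.sub_apply, Pi.sub_apply, Finset.sum_apply, Finset.sum_apply, sub_eq_zero]
  show cf s (ψ : Form F) (x₀ * (o : (Af F)ˣ) * (b : (Af F)ˣ)) = ∑ c ∈ _,
    cf s (φ : Form F) (x₀ * (o : (Af F)ˣ) * ((nsPart τ N (p c).1 * b : nsId τ N) : (Af F)ˣ))
  by_cases hle : ∀ w : HS, Valued.v (((o : (Af F)ˣ) : Af F) w) ≤ 1
  · rw [hψ, cf_finAct S.hN (S.locFam_bad hj) (h.cusp _ φ.2) fun c hc => (hp c hc).1]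
    refine Finset.sum_congr rfl fun c hc => ?_
    have hr := (hp c hc).2
    rw [prod_mul_chi (x₀ := x₀) (τ := τ) S.hN (fun v hv => ?_)
      (fun v hv => S.badFam_upK hj hv (hr v)) (fun v hv => ?_) fun v hv => ?_, one_mul,
      S.cf_mul_reps φ.2.2.2 hr, Subgroup.coe_mul]
    · congr 1
      ac_rfl
    · rw [badFam, mkFam_sp hv]
      exact S.eAt_upK ((hr v).2.1 hv)
    · rw [af_unit_mul_apply, af_unit_mul_apply, o.2 v hv.1, b.2 v fun h' => hv.2 h'.2, mul_one,
        mul_one]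
    · rcases bad_cases τ N v with hb' | hb' | hb'
      · rw [(apply_eq_one_of_famP hr hb').2, map_zero, mul_zero]
        exact zero_le
      · have h1 := ((hr v).1 hb' hb').2.2
        have h2 := hb v hb'
        rw [pow_zero] at h2
        rw [af_unit_mul_apply, af_unit_mul_apply, S.x0_ns v hb', one_mul, map_mul]
        exact (mul_le_one' (mul_le_one' (hle v) h2) (h1.trans (levN_le_one v N))).trans
          (one_le_diffId v)
      · exact absurd hb' hv
  · push Not at hle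
    obtain ⟨w, hw⟩ := hle
    have hwN : (N : 𝓞 F) ∉ w.asIdeal := fun h' => by
      rw [o.2 w h', map_one] at hw; exact lt_irrefl _ hw
    have z : ∀ χ : pinned τ N M x₀ s V S.hN hV, ∀ b' : nsId τ N,
        cf s (χ : Form F) (x₀ * (o : (Af F)ˣ) * (b' : (Af F)ˣ)) = 0 := fun χ b' => by
      refine h.cf_eq_zero_of_lt χ.2 hwN ?_
      rw [af_unit_mul_apply, af_unit_mul_apply, b'.2 w fun h' => hwN h'.1, mul_one, map_mul,
        h.x0_val w hwN]
      exact lt_mul_of_one_lt_right (lt_of_lt_of_le zero_lt_one (one_le_diffId w)) hw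
    rw [z ψ b, Finset.sum_eq_zero fun c _ => z φ _]

/-- Pinned coefficients of a form without germ vanish deep at the fixed bad places. -/
theorem TraceHyp.cf_eq_zero_of_deep {V' : Submodule ℂ (Form F)} (h : TraceHyp τ N M x₀ s V')
    (φ : V') {k : ℕ} (hk : ∀ o ∈ goodId N, ∀ b : nsId τ N, Deep τ N k b →
      cf s (φ : Form F) (x₀ * o * (b : (Af F)ˣ)) = 0) {a : (Af F)ˣ}
    (hns : ∀ v, NsV τ N v → Valued.v ((a : Af F) v) ≤ Valued.v ((N : Af F) v) ^ k) :
    cf s (φ : Form F) a = 0 := by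
  by_contra hne
  have hpin := h.pin _ φ.2 a hne
  set o := restr (fun v : HS => (N : 𝓞 F) ∉ v.asIdeal) (a * x₀⁻¹) with ho'
  set b := nsPart τ N a with hb'
  set u := restr (fun v => SpV τ N v) (a * x₀⁻¹) with hu'
  have ho : o ∈ goodId N := fun v hv => restr_apply_of_not (fun h' => h' hv) _
  have ha : a = x₀ * o * (b : (Af F)ˣ) * u := af_unit_ext fun v => by
    simp only [af_unit_mul_apply, ho', hu']
    rcases bad_cases τ N v with hN' | hN' | hN'
    · rw [restr_apply_of (P := fun v : HS => (N : 𝓞 F) ∉ v.asIdeal) hN', b.2 v fun h' => hN' h'.1,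
        restr_apply_of_not (P := fun v => SpV τ N v) (fun h' => hN' h'.1), mul_one, mul_one,
        af_unit_mul_apply, af_unit_inv_apply, mul_comm ((a : Af F) v),
        mul_inv_cancel_left₀ (unit_apply_ne_zero _ v)]
    · rw [restr_apply_of_not (P := fun v : HS => (N : 𝓞 F) ∉ v.asIdeal) (fun h' => h' hN'.1),
        hb', nsPart_apply τ N hN', restr_apply_of_not (P := fun v => SpV τ N v)
          (fun h' => h'.2 hN'.2), mul_one, mul_one, h.x0_ns v hN', one_mul]
    · rw [restr_apply_of_not (P := fun v : HS => (N : 𝓞 F) ∉ v.asIdeal) (fun h' => h' hN'.1),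
        b.2 v fun h' => hN'.2 h'.2, restr_apply_of (P := fun v => SpV τ N v) hN', mul_one, mul_one,
        af_unit_mul_apply, af_unit_inv_apply, mul_comm ((a : Af F) v),
        mul_inv_cancel_left₀ (unit_apply_ne_zero _ v)]
  refine hne ?_
  rw [ha, h.inv _ φ.2 _ u (fun v hv => restr_apply_of_not hv _) fun v hv => ?_]
  · exact hk o ho b fun v hv => by rw [hb', nsPart_apply τ N hv]; exact hns v hv
  · obtain ⟨h1, h2⟩ := hpin v hv
    rw [hu', restr_apply_of (P := fun v => SpV τ N v) hv, af_unit_mul_apply, af_unit_inv_apply,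
      ← div_eq_mul_inv]
    exact ⟨h1, by rw [map_div₀, h2, div_self (valued_unit_ne_zero _ v)]⟩

/-- **The contracting operator kills forms without germ.** -/
theorem BadSetup.exists_badOp_kill (S : BadSetup τ N M x₀ i) (hV : SpaceHyp τ N V)
    {K₀ : ℝ → ℂ} {t0 : ℝ} (hK : RefMode K₀ t0)
    [FiniteDimensional ℂ (pinned τ N M x₀ ⟨t0, hK.pos⟩ V S.hN hV)] :
    ∃ j₀, ∀ j, j₀ ≤ j → ∀ (hj : 0 < j) (p : Cos F N → (Af F)ˣ × Af F),
      RepMap τ N (QBad τ N j) (RPin M) (suppSet S.hN (S.locFam_bad hj)) p →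
      ∀ φ ψ : pinned τ N M x₀ ⟨t0, hK.pos⟩ V S.hN hV,
        (ψ : Form F) = finAct N (prodFun (badFam τ N M x₀ j)) (φ : Form F) →
        (S.traceHyp hV).germ φ = 0 → ψ = 0 := by
  set h := S.traceHyp (s := ⟨t0, hK.pos⟩) hV
  obtain ⟨k, hk⟩ := h.exists_deep_zero
  obtain ⟨j₀, hj₀⟩ := exists_pow_le_nsV (τ := τ) S.hN
    (fun v : HS => Valued.v ((N : Af F) v) ^ (k + 1) / Valued.v ((diffId (F := F) : Af F) v))
    fun v => div_ne_zero (pow_ne_zero _ (valued_natCast_ne_zero S.hN v)) (valued_unit_ne_zero _ v)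
  refine ⟨j₀, fun j hj0 hj p hp φ ψ hψ hφ => Subtype.ext ?_⟩
  refine eq_zero_of_cf S.hN (h.cusp _ ψ.2) hK fun a => ?_
  by_contra hne
  have hle := fun v => h.le_of_cf_ne_zero ψ.2 hne v
  refine hne ?_
  rw [hψ, cf_finAct S.hN (S.locFam_bad hj) (h.cusp _ φ.2) fun c hc => (hp c hc).1]
  refine Finset.sum_eq_zero fun c hc => mul_eq_zero_of_right _ ?_
  refine h.cf_eq_zero_of_deep φ (hk φ hφ) fun v hv => ?_
  have hα := (((hp c hc).2 v).1 hv hv).1
  rw [evU_val, v_piU S.hN] at hα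
  rw [af_unit_mul_apply, map_mul, hα, levN]
  have hd0 := valued_unit_ne_zero (diffId (F := F)) v
  calc Valued.v ((a : Af F) v) * Valued.v ((N : Af F) v) ^ j
      ≤ Valued.v ((a : Af F) v) * (Valued.v ((N : Af F) v) ^ (k + 1) /
          Valued.v ((diffId (F := F) : Af F) v)) :=
        mul_le_mul' le_rfl ((pow_le_pow_right_of_le_one' (valued_natCast_le_one N v) hj0).trans
          (hj₀ v hv))
    _ = (Valued.v ((a : Af F) v) * Valued.v ((N : Af F) v)) *
          (Valued.v ((diffId (F := F) : Af F) v))⁻¹ * Valued.v ((N : Af F) v) ^ k := by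
        rw [pow_succ', div_eq_mul_inv]; ac_rfl
    _ ≤ 1 * Valued.v ((N : Af F) v) ^ k := by
        refine mul_le_mul' ?_ le_rfl
        exact (mul_inv_le_iff₀ (zero_lt_iff.2 hd0)).2 (by rw [one_mul]; exact hle v)
    _ = _ := one_mul _

theorem v_eq_one_of_normCond {v : HeightOneSpectrum (𝓞 F)} (hv : NsV τ N v) {u : (Kp F v)ˣ}
    (hu : Valued.v (u : Kp F v) = (1 : Γ₀)) {j : ℕ} {a : (Kp F v)ˣ}
    (ha : nrm3 (cMap (τ : F →+* F) v v hv.2.1) u ∈ oneAdd (Kp F v) (levN v N))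
    (hq : Valued.v (((nrm3 (cMap (τ : F →+* F) v v hv.2.1) a / piU N j v ^ 3 : (Kp F v)ˣ) :
      Kp F v) - 1) ≤ levN v N) :
    Valued.v ((u * a : (Kp F v)ˣ) : Kp F v) = Valued.v (a : Kp F v) ∧
      Valued.v (((nrm3 (cMap (τ : F →+* F) v v hv.2.1) (u * a) / piU N j v ^ 3 : (Kp F v)ˣ) :
        Kp F v) - 1) ≤ levN v N := by
  refine ⟨by rw [Units.val_mul, map_mul, hu, one_mul], ?_⟩
  rw [← mem_oneAdd (levN_lt_one hv.1)] at hq ⊢
  rw [nrm3_mul, mul_div_assoc]
  exact mul_mem ha hq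

/-- Norm one units permute the support. -/
theorem BadSetup.badFam_translate (S : BadSetup τ N M x₀ i) {j : ℕ} (hj : 0 < j) {u : nsId τ N}
    (hu : u ∈ normUnits τ N) (g : GF F) :
    prodFun (badFam τ N M x₀ j) (upperGF (u : (Af F)ˣ) 0 * g) =
      prodFun (badFam τ N M x₀ j) g := by
  classical
  rw [prodFun_translate (S.locFam_bad hj) _ (fun _ => 1) (by simp) (fun v y => ?_) g, finprod_one,
    one_mul]
  rw [one_mul, locGF_upperGF, show ((0 : Af F) v) = 0 from rfl]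
  change badFam τ N M x₀ j v (upK (evU v (u : (Af F)ˣ)) 0 * y) = _
  by_cases hv : NsV τ N v
  · have e : upK (evU v (u : (Af F)ˣ)) (0 : Kp F v) = dg (evU v (u : (Af F)ˣ), 1) := by
      rw [upK_eq_mul_dg, upK_one_zero, one_mul]
    rw [e, badFam, mkFam_ns hv, omegaAt_eq j hv.2.1]
    have hmem : ∀ {w : nsId τ N}, w ∈ normUnits τ N → ∀ z,
        z ∈ Omega (cMap (τ : F →+* F) v v hv.2.1) (levN v N) (piU N j v) →
        dg (evU v (w : (Af F)ˣ), 1) * z ∈
          Omega (cMap (τ : F →+* F) v v hv.2.1) (levN v N) (piU N j v) := fun {w} hw z hz =>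
      Omega_mul_dg (u := evU v (w : (Af F)ˣ)) (S.pair hv.2.1) (levN_lt_one hv.1)
        (v_piU_lt S.hN hj hv.1) (by rw [evU_val]; exact hw.1 v)
        ((mem_oneAdd (levN_lt_one hv.1)).1 (hw.2 v hv)) hz
    simp only [omegaFn, Set.indicator_apply]
    refine if_congr ⟨fun h => ?_, hmem hu y⟩ rfl rfl
    have h' := hmem (inv_mem hu) _ h
    rwa [← mul_assoc, ← map_mul, Subgroup.coe_inv, map_inv,
      show ((((evU v (u : (Af F)ˣ))⁻¹, (1 : (Kp F v)ˣ)) * (evU v (u : (Af F)ˣ), 1)) :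
        (Kp F v)ˣ × (Kp F v)ˣ) = 1 by simp, map_one, one_mul] at h'
  · rw [show evU v (u : (Af F)ˣ) = 1 from Units.ext (u.2 v hv), upK_one_zero, one_mul]

end FLTAgent.LT.TraceTheta
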