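import Fermat.Agent.LT.TF.Match.Tests
import Fermat.Agent.LT.TF.Match.OmegaLevel

/-!
The local functions at the bad places: contracting classes, single contracting double cosets and the
character of the group `(1+p^n, p^-n; p^2n, 1+p^n)`; upper triangular representatives of the cosets.
-/

set_option autoImplicit false
set_option linter.unusedSectionVars false
set_option linter.style.haveILetI false

noncomputable section

namespace FLTAgent.LT.TraceTheta

open NumberField IsDedekindDomain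
open FLTAgent.LT.Match

local notation "Γ₀" => WithZero (Multiplicative ℤ)

variable {K : Type*} [Field K]

/-- The matrix `(a, b; 0, 1)`. -/
def upK (a : Kˣ) (b : K) : GL (Fin 2) K :=
  Matrix.GeneralLinearGroup.mkOfDetNeZero !![(a : K), b; 0, 1]
    (by simp [Matrix.det_fin_two])

theorem coe_upK (a : Kˣ) (b : K) :
    ((upK a b : GL (Fin 2) K) : Matrix (Fin 2) (Fin 2) K) = !![(a : K), b; 0, 1] := rfl

theorem upK_eq_mul_dg (a : Kˣ) (b : K) : upK a b = upK 1 b * dg (a, 1) :=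
  Units.ext (by ext i j; fin_cases i <;> fin_cases j <;> simp [coe_upK, dg, Matrix.mul_apply])

theorem locGF_upperGF {F : Type*} [Field F] [NumberField F] (v : HeightOneSpectrum (𝓞 F))
    (a : (Af F)ˣ) (b : Af F) :
    locGF v (upperGF a b) = upK (Units.map (evalAf v).toMonoidHom a) (b v) :=
  Units.ext (Matrix.ext fun i j => by
    fin_cases i <;> fin_cases j <;> simp [locGF, gl, upperGF, coe_upK, evalAf] <;>
      first | rfl | exact map_one (evalAf v) | exact map_zero (evalAf v))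

variable [Valued K Γ₀]

theorem upK_mem_lvl {e : Γ₀} (he : e < 1) {b : K} (hb : Valued.v b ≤ e) : upK 1 b ∈ lvl e :=
  mem_lvl_of_ent he fun i j => by fin_cases i <;> fin_cases j <;> simp [coe_upK, hb]

/-- Moving a congruence element to the left of a contracting diagonal. -/
theorem exists_upK_mul {e : Γ₀} (he : e < 1) {a : Kˣ} (ha : Valued.v (a : K) ≤ (1 : Γ₀))
    {h : GL (Fin 2) K} (hh : h ∈ lvl e) :
    ∃ y : K, Valued.v y ≤ e ∧ ∃ w ∈ lvl e, h * dg (a, 1) = upK a y * w := by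
  have H := ((mem_lvl he.le).1 hh).1
  have h00 := H 0 0; have h01 := H 0 1; have h10 := H 1 0; have h11 := H 1 1
  simp at h00 h01 h10 h11
  set p := (h : Matrix (Fin 2) (Fin 2) K) 0 0 with hp
  set q := (h : Matrix (Fin 2) (Fin 2) K) 0 1 with hq
  set r := (h : Matrix (Fin 2) (Fin 2) K) 1 0 with hr
  set s := (h : Matrix (Fin 2) (Fin 2) K) 1 1 with hs
  have hs1 : Valued.v s = (1 : Γ₀) := v_eq_one_of_sub he h11
  have hs0 : s ≠ 0 := fun h => by simp [h] at hs1
  have hα : Valued.v (p - q * r / s - 1) ≤ e := by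
    rw [show p - q * r / s - 1 = (p - 1) - q * (r / s) by ring]
    refine Valued.v.map_sub_le h00 ?_
    rw [map_mul, map_div₀, hs1, div_one]
    exact (mul_le_mul' h01 (h10.trans he.le)).trans_eq (mul_one e)
  have hα0 : p - q * r / s ≠ 0 := fun h => by simpa [h] using v_eq_one_of_sub he hα
  set w : GL (Fin 2) K := Matrix.GeneralLinearGroup.mkOfDetNeZero
    !![p - q * r / s, 0; r * (a : K), s] (by simp [Matrix.det_fin_two, hα0, hs0])
  refine ⟨q / s, by rw [map_div₀, hs1, div_one]; exact h01, w, mem_lvl_of_ent he fun i j => ?_, ?_⟩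
  · fin_cases i <;> fin_cases j <;> simp [w]
    · exact hα
    · exact (mul_le_of_le_one_right' ha).trans h10
    · exact h11
  · refine Units.ext ?_
    ext i j
    fin_cases i <;> fin_cases j <;>
      simp [w, dg, coe_upK, Matrix.mul_apply, Matrix.vecMul, dotProduct, Fin.sum_univ_two, ← hp,
        ← hq, ← hr, ← hs] <;>
      first
      | ring1
      | (field_simp; ring1)
      | field_simp

/-- A single contracting double coset times the centre. -/
def shiftSet (e : Γ₀) (a : Kˣ) : Set (GL (Fin 2) K) :=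
  {g | ∃ h ∈ lvl e, ∃ k ∈ lvl e, ∃ z : Kˣ, g = h * dg (a, 1) * k * scal z}

/-- Its indicator. -/
def shiftFn (e : Γ₀) (a : Kˣ) : GL (Fin 2) K → ℂ := (shiftSet e a).indicator fun _ => 1

theorem shiftSet_mul {e : Γ₀} {a : Kˣ} {g u : GL (Fin 2) K} (hg : g ∈ shiftSet e a)
    (hu : u ∈ lvlZ e) : g * u ∈ shiftSet e a ∧ u * g ∈ shiftSet e a := by
  obtain ⟨h, hh, k, hk, z, rfl⟩ := hg
  obtain ⟨l, hl, c, rfl⟩ := hu
  refine ⟨⟨h, hh, k * l, mul_mem hk hl, z * c, ?_⟩, ⟨l * h, mul_mem hl hh, k, hk, c * z, ?_⟩⟩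
  · rw [scal_mul, ← mul_assoc _ l, mul_assoc _ (scal z) l, scal_mul_comm z l]
    group
  · rw [mul_assoc l, scal_mul, ← mul_assoc (scal c), scal_mul_comm c (h * dg (a, 1) * k)]
    group

theorem shiftFn_mul {e : Γ₀} (a : Kˣ) {u : GL (Fin 2) K} (hu : u ∈ lvlZ e) (g : GL (Fin 2) K) :
    shiftFn e a (u * g) = shiftFn e a g ∧ shiftFn e a (g * u) = shiftFn e a g := by
  classical
  simp only [shiftFn, Set.indicator_apply]
  constructor <;> refine if_congr ⟨fun h => ?_, fun h => ?_⟩ rfl rfl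
  · simpa [mul_assoc] using (shiftSet_mul h (inv_mem hu)).2
  · exact (shiftSet_mul h hu).2
  · simpa [mul_assoc] using (shiftSet_mul h (inv_mem hu)).1
  · exact (shiftSet_mul h hu).1

theorem exists_up_of_shiftSet {e : Γ₀} (he : e < 1) {a : Kˣ} (ha : Valued.v (a : K) ≤ (1 : Γ₀))
    {g : GL (Fin 2) K} (hg : g ∈ shiftSet e a) :
    ∃ y : K, Valued.v y ≤ e ∧ ∃ u ∈ lvlZ e, g = upK a y * u := by
  obtain ⟨h, hh, k, hk, z, rfl⟩ := hg
  obtain ⟨y, hy, w, hw, e1⟩ := exists_upK_mul he ha hh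
  exact ⟨y, hy, w * k * scal z, mul_mem (lvl_le_lvlZ e (mul_mem hw hk)) (scal_mem_lvlZ e z),
    by rw [e1]; group⟩

theorem upK_mem_shiftSet {e : Γ₀} (he : e < 1) (a : Kˣ) {y : K} (hy : Valued.v y ≤ e) :
    upK a y ∈ shiftSet e a :=
  ⟨_, upK_mem_lvl he hy, 1, one_mem _, 1, by rw [upK_eq_mul_dg a y]; simp [scal]⟩

section omega

variable {B : Type*} [Field B] [Valued B Γ₀] [CompleteSpace B] {A : Type*} [Field A] [Valued A Γ₀]
  [CompleteSpace A] {j : A →+* B} {τ : B →+* B}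

/-- Upper triangular representatives of the twisted contracting classes. -/
theorem exists_up_of_Omega (P : Pair j τ) {e : Γ₀} (he : e < 1) {ϖ : Bˣ}
    (hϖ : Valued.v (ϖ : B) < (1 : Γ₀)) {s : GL (Fin 2) B} (hs : s ∈ Omega τ e ϖ) :
    ∃ (b : Bˣ) (y : B), Valued.v (b : B) = Valued.v (ϖ : B) ∧
      Valued.v (((nrm3 τ b / ϖ ^ 3 : Bˣ) : B) - 1) ≤ e ∧ Valued.v y ≤ e ∧
      ∃ u ∈ lvlZ e, s = upK b y * u := by
  obtain ⟨h, hh, k, hk, b, z, rfl, hbv, hb⟩ := (P.omega_iff_dset he hϖ).1 hs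
  obtain ⟨y, hy, w, hw, e1⟩ := exists_upK_mul he (hbv.trans_le hϖ.le) hh
  exact ⟨b, y, hbv, hb, hy, w * k * scal z,
    mul_mem (lvl_le_lvlZ e (mul_mem hw hk)) (scal_mem_lvlZ e z), by rw [e1]; group⟩

theorem upK_mem_Omega (P : Pair j τ) {e : Γ₀} (he : e < 1) {ϖ b : Bˣ}
    (hb1 : Valued.v (b : B) ≤ (1 : Γ₀)) (hb : Valued.v (((nrm3 τ b / ϖ ^ 3 : Bˣ) : B) - 1) ≤ e)
    {y : B} (hy : Valued.v y ≤ e) : upK b y ∈ Omega τ e ϖ := by
  have := P.mem_Omega he hb1 hb (upK_mem_lvl he hy) (one_mem (lvl e)) 1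
  rw [upK_eq_mul_dg b y]
  simpa [scal] using this

theorem dg_mem_lvl_one {u : Bˣ} (hu : Valued.v (u : B) = (1 : Γ₀)) :
    dg (u, (1 : Bˣ)) ∈ lvl (1 : Γ₀) :=
  mem_lvl_one.2 ⟨fun i k => by fin_cases i <;> fin_cases k <;> simp [dg, hu],
    by simp [dg, Matrix.det_fin_two, hu]⟩

/-- The twisted classes are moved to themselves by units of norm one. -/
theorem Omega_mul_dg (P : Pair j τ) {e : Γ₀} (he : e < 1) {ϖ : Bˣ}
    (hϖ : Valued.v (ϖ : B) < (1 : Γ₀)) {u : Bˣ} (hu : Valued.v (u : B) = (1 : Γ₀))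
    (hu' : Valued.v (((nrm3 τ u : Bˣ) : B) - 1) ≤ e) {s : GL (Fin 2) B}
    (hs : s ∈ Omega τ e ϖ) : dg (u, 1) * s ∈ Omega τ e ϖ := by
  obtain ⟨h, hh, k, hk, b, z, rfl, hbv, hb⟩ := (P.omega_iff_dset he hϖ).1 hs
  refine (P.omega_iff_dset he hϖ).2 ⟨dg (u, 1) * h * (dg (u, 1))⁻¹,
    conj_mem_lvl (dg_mem_lvl_one hu) hh, k, hk, u * b, z, ?_, by rw [Units.val_mul, map_mul, hu,
      one_mul, hbv], ?_⟩
  · rw [show dg (u * b, (1 : Bˣ)) = dg (u, 1) * dg (b, 1) by rw [← map_mul]; simp]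
    group
  · have e1 : nrm3 τ (u * b) / ϖ ^ 3 = nrm3 τ u * (nrm3 τ b / ϖ ^ 3) := by
      simp only [nrm3, map_mul]
      rw [mul_div_assoc']
      congr 1
      ac_rfl
    rw [e1, Units.val_mul, show ∀ a c : B, a * c - 1 = (a - 1) * c + (c - 1) from fun a c => by ring]
    refine Valued.v.map_add_le ?_ hb
    rw [map_mul, v_eq_one_of_sub he hb, mul_one]
    exact hu'

end omega

/-! ### The character of the split places -/

/-- The support. -/
def EPred (m : Γ₀) (g : GL (Fin 2) K) : Prop :=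
  (g : Matrix (Fin 2) (Fin 2) K) 1 1 ≠ 0 ∧
    Valued.v ((g : Matrix (Fin 2) (Fin 2) K) 0 0 / (g : Matrix (Fin 2) (Fin 2) K) 1 1 - 1) ≤ m ∧
    Valued.v ((g : Matrix (Fin 2) (Fin 2) K) 0 1 / (g : Matrix (Fin 2) (Fin 2) K) 1 1) ≤ m⁻¹ ∧
    Valued.v ((g : Matrix (Fin 2) (Fin 2) K) 1 0 / (g : Matrix (Fin 2) (Fin 2) K) 1 1) ≤ m * m

open Classical in
/-- The function at a moved bad place. -/
def eFn (χ : K → ℂ) (m : Γ₀) (x₀ : K) (g : GL (Fin 2) K) : ℂ :=
  if EPred m g then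
    χ (-(x₀ * ((g : Matrix (Fin 2) (Fin 2) K) 0 1 / (g : Matrix (Fin 2) (Fin 2) K) 1 1)))
  else 0

variable {χ : K → ℂ} {m : Γ₀} {x₀ : K}

theorem EPred_scal (c : Kˣ) (g : GL (Fin 2) K) :
    (EPred m (g * scal c) ↔ EPred m g) ∧ eFn χ m x₀ (g * scal c) = eFn χ m x₀ g := by
  have e : ∀ i k, ((g * scal c : GL (Fin 2) K) : Matrix (Fin 2) (Fin 2) K) i k =
      (g : Matrix (Fin 2) (Fin 2) K) i k * c := fun i k => by
    fin_cases i <;> fin_cases k <;> simp [scal, Matrix.mul_apply]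
  have h1 : EPred m (g * scal c) ↔ EPred m g := by
    simp [EPred, e, mul_div_mul_right]
  classical
  refine ⟨h1, ?_⟩
  simp only [eFn, e, mul_div_mul_right _ _ c.ne_zero]
  exact if_congr h1 rfl rfl

/-- Translation of the parameters by the congruence group, on either side. -/
theorem EPred_mul_lvl (hm : m < 1) (hm0 : m ≠ 0) {g k : GL (Fin 2) K} (hg : EPred m g)
    (hk : k ∈ lvl (m * m)) :
    (EPred m (g * k) ∧ Valued.v
      (((g * k : GL (Fin 2) K) : Matrix (Fin 2) (Fin 2) K) 0 1 /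
        ((g * k : GL (Fin 2) K) : Matrix (Fin 2) (Fin 2) K) 1 1 -
        (g : Matrix (Fin 2) (Fin 2) K) 0 1 / (g : Matrix (Fin 2) (Fin 2) K) 1 1) ≤ (1 : Γ₀)) ∧
    (EPred m (k * g) ∧ Valued.v
      (((k * g : GL (Fin 2) K) : Matrix (Fin 2) (Fin 2) K) 0 1 /
        ((k * g : GL (Fin 2) K) : Matrix (Fin 2) (Fin 2) K) 1 1 -
        (g : Matrix (Fin 2) (Fin 2) K) 0 1 / (g : Matrix (Fin 2) (Fin 2) K) 1 1) ≤ (1 : Γ₀)) := by
  have hn : m * m ≤ m := mul_le_of_le_one_right' hm.le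
  have hn1 : m * m ≤ 1 := hn.trans hm.le
  have H := ((mem_lvl hn1).1 hk).1
  have k00 := H 0 0; have k01 := H 0 1; have k10 := H 1 0; have k11 := H 1 1
  simp at k00 k01 k10 k11
  obtain ⟨hd, ha, hb, hr⟩ := hg
  have e1 : ∀ {i l : Fin 2}, ((g * k : GL (Fin 2) K) : Matrix (Fin 2) (Fin 2) K) i l =
      (g : Matrix (Fin 2) (Fin 2) K) i 0 * (k : Matrix (Fin 2) (Fin 2) K) 0 l +
      (g : Matrix (Fin 2) (Fin 2) K) i 1 * (k : Matrix (Fin 2) (Fin 2) K) 1 l := fun {i l} => by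
    simp [Matrix.mul_apply, Fin.sum_univ_two]
  have e2 : ∀ {i l : Fin 2}, ((k * g : GL (Fin 2) K) : Matrix (Fin 2) (Fin 2) K) i l =
      (k : Matrix (Fin 2) (Fin 2) K) i 0 * (g : Matrix (Fin 2) (Fin 2) K) 0 l +
      (k : Matrix (Fin 2) (Fin 2) K) i 1 * (g : Matrix (Fin 2) (Fin 2) K) 1 l := fun {i l} => by
    simp [Matrix.mul_apply, Fin.sum_univ_two]
  set D := (g : Matrix (Fin 2) (Fin 2) K) 1 1 with hDdef
  set a := (g : Matrix (Fin 2) (Fin 2) K) 0 0 / D with hadef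
  set b := (g : Matrix (Fin 2) (Fin 2) K) 0 1 / D with hbdef
  set r := (g : Matrix (Fin 2) (Fin 2) K) 1 0 / D with hrdef
  have ga : (g : Matrix (Fin 2) (Fin 2) K) 0 0 = a * D := (div_mul_cancel₀ _ hd).symm
  have gb : (g : Matrix (Fin 2) (Fin 2) K) 0 1 = b * D := (div_mul_cancel₀ _ hd).symm
  have gr : (g : Matrix (Fin 2) (Fin 2) K) 1 0 = r * D := (div_mul_cancel₀ _ hd).symm
  have va : Valued.v a = (1 : Γ₀) := v_eq_one_of_sub hm ha
  set K00 := (k : Matrix (Fin 2) (Fin 2) K) 0 0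
  set K01 := (k : Matrix (Fin 2) (Fin 2) K) 0 1
  set K10 := (k : Matrix (Fin 2) (Fin 2) K) 1 0
  set K11 := (k : Matrix (Fin 2) (Fin 2) K) 1 1
  have kb : Valued.v (K10 * b) ≤ m := by
    rw [map_mul]
    refine (mul_le_mul' k10 hb).trans (le_of_eq ?_)
    rw [mul_assoc, mul_inv_cancel₀ hm0, mul_one]
  have mi : m⁻¹ * (m * m) ≤ (1 : Γ₀) := by
    rw [← mul_assoc, inv_mul_cancel₀ hm0, one_mul]; exact hm.le
  have one_le : (1 : Γ₀) ≤ m⁻¹ := (one_le_inv₀ (zero_lt_iff.2 hm0)).2 hm.le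
  have div1 : ∀ {x y : K}, Valued.v (y - 1) ≤ m → Valued.v (x / y) = Valued.v x := fun hy => by
    rw [map_div₀, v_eq_one_of_sub hm hy, div_one]
  constructor
  · set D' := r * K01 + K11 with hD'
    have hD1 : Valued.v (D' - 1) ≤ m * m := by
      rw [hD', add_sub_assoc]
      refine Valued.v.map_add_le ?_ k11
      rw [map_mul]
      exact (mul_le_mul' hr (k01.trans hn1)).trans_eq (mul_one _)
    have hD0 : D' ≠ 0 := fun h => by simpa [h] using v_eq_one_of_sub hm (hD1.trans hn)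
    have hbb : Valued.v ((a * K01 + b * K11) / D' - b) ≤ (1 : Γ₀) := by
      rw [show (a * K01 + b * K11) / D' - b = (a * K01 + (b * (K11 - 1) - b * (D' - 1))) / D' by
        field_simp; ring, div1 (hD1.trans hn)]
      refine Valued.v.map_add_le ?_ (Valued.v.map_sub_le ?_ ?_) <;> rw [map_mul]
      · rw [va, one_mul]; exact k01.trans hn1
      · exact (mul_le_mul' hb k11).trans mi
      · exact (mul_le_mul' hb hD1).trans mi
    refine ⟨⟨?_, ?_, ?_, ?_⟩, ?_⟩ <;>
      simp only [e1, ga, gb, gr, ← hDdef]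
    · rw [show r * D * K01 + D * K11 = D * D' by rw [hD']; ring]
      exact mul_ne_zero hd hD0
    · rw [show (a * D * K00 + b * D * K10) / (r * D * K01 + D * K11) - 1 =
          ((a - 1) * K00 + (K00 - 1) + K10 * b - (D' - 1)) / D' by
        rw [show r * D * K01 + D * K11 = D * D' by rw [hD']; ring]; field_simp; ring,
        div1 (hD1.trans hn)]
      refine Valued.v.map_sub_le (Valued.v.map_add_le (Valued.v.map_add_le ?_ (k00.trans hn)) kb)
        (hD1.trans hn)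
      rw [map_mul, v_eq_one_of_sub hm (k00.trans hn), mul_one]; exact ha
    · rw [show (a * D * K01 + b * D * K11) / (r * D * K01 + D * K11) =
          ((a * K01 + b * K11) / D' - b) + b by
        rw [show r * D * K01 + D * K11 = D * D' by rw [hD']; ring]; field_simp; ring]
      exact Valued.v.map_add_le (hbb.trans one_le) hb
    · rw [show (r * D * K00 + D * K10) / (r * D * K01 + D * K11) = (r * K00 + K10) / D' by
        rw [show r * D * K01 + D * K11 = D * D' by rw [hD']; ring]; field_simp,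
        div1 (hD1.trans hn)]
      refine Valued.v.map_add_le ?_ k10
      rw [map_mul, v_eq_one_of_sub hm (k00.trans hn), mul_one]; exact hr
    · rw [show (a * D * K01 + b * D * K11) / (r * D * K01 + D * K11) =
          (a * K01 + b * K11) / D' by
        rw [show r * D * K01 + D * K11 = D * D' by rw [hD']; ring]; field_simp]
      exact hbb
  · set D' := K10 * b + K11 with hD'
    have hD1 : Valued.v (D' - 1) ≤ m := by
      rw [hD', add_sub_assoc]
      exact Valued.v.map_add_le kb (k11.trans hn)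
    have hD0 : D' ≠ 0 := fun h => by simpa [h] using v_eq_one_of_sub hm hD1
    have hbb : Valued.v ((K00 * b + K01) / D' - b) ≤ (1 : Γ₀) := by
      rw [show (K00 * b + K01) / D' - b =
          (K01 + (b * (K00 - 1) - (b * (K11 - 1) + b * (K10 * b)))) / D' by
        field_simp; ring, div1 hD1]
      refine Valued.v.map_add_le (k01.trans hn1)
        (Valued.v.map_sub_le ?_ (Valued.v.map_add_le ?_ ?_)) <;> rw [map_mul]
      · exact (mul_le_mul' hb k00).trans mi
      · exact (mul_le_mul' hb k11).trans mi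
      · exact (mul_le_mul' hb kb).trans_eq (inv_mul_cancel₀ hm0)
    refine ⟨⟨?_, ?_, ?_, ?_⟩, ?_⟩ <;>
      simp only [e2, ga, gb, gr, ← hDdef]
    · rw [show K10 * (b * D) + K11 * D = D * D' by rw [hD']; ring]
      exact mul_ne_zero hd hD0
    · rw [show (K00 * (a * D) + K01 * (r * D)) / (K10 * (b * D) + K11 * D) - 1 =
          ((a - 1) * K00 + (K00 - 1) + K01 * r - (D' - 1)) / D' by
        rw [show K10 * (b * D) + K11 * D = D * D' by rw [hD']; ring]; field_simp; ring, div1 hD1]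
      refine Valued.v.map_sub_le (Valued.v.map_add_le (Valued.v.map_add_le ?_ (k00.trans hn)) ?_) hD1
      · rw [map_mul, v_eq_one_of_sub hm (k00.trans hn), mul_one]; exact ha
      · rw [map_mul]
        exact ((mul_le_mul' (k01.trans hn1) hr).trans_eq (one_mul _)).trans hn
    · rw [show (K00 * (b * D) + K01 * D) / (K10 * (b * D) + K11 * D) =
          ((K00 * b + K01) / D' - b) + b by
        rw [show K10 * (b * D) + K11 * D = D * D' by rw [hD']; ring]; field_simp; ring]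
      exact Valued.v.map_add_le (hbb.trans one_le) hb
    · rw [show (K10 * (a * D) + K11 * (r * D)) / (K10 * (b * D) + K11 * D) =
          (K10 * a + K11 * r) / D' by
        rw [show K10 * (b * D) + K11 * D = D * D' by rw [hD']; ring]; field_simp, div1 hD1]
      refine Valued.v.map_add_le ?_ ?_ <;> rw [map_mul]
      · rw [va, mul_one]; exact k10
      · rw [v_eq_one_of_sub hm (k11.trans hn), one_mul]; exact hr
    · rw [show (K00 * (b * D) + K01 * D) / (K10 * (b * D) + K11 * D) = (K00 * b + K01) / D' by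
        rw [show K10 * (b * D) + K11 * D = D * D' by rw [hD']; ring]; field_simp]
      exact hbb

/-- The function is bi-invariant under the level. -/
theorem eFn_mul (hadd : ∀ a b, χ (a + b) = χ a * χ b)
    (hint : ∀ y, Valued.v y ≤ (1 : Γ₀) → χ (-(x₀ * y)) = 1) (hm : m < 1) (hm0 : m ≠ 0)
    {u : GL (Fin 2) K} (hu : u ∈ lvlZ (m * m)) (g : GL (Fin 2) K) :
    eFn χ m x₀ (u * g) = eFn χ m x₀ g ∧ eFn χ m x₀ (g * u) = eFn χ m x₀ g := by
  classical
  obtain ⟨k, hk, c, rfl⟩ := hu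
  rw [show k * scal c * g = k * g * scal c by rw [mul_assoc, scal_mul_comm, mul_assoc],
    show g * (k * scal c) = g * k * scal c by group, (EPred_scal c _).2, (EPred_scal c _).2]
  have key : ∀ {x y : K}, Valued.v (x - y) ≤ (1 : Γ₀) → χ (-(x₀ * x)) = χ (-(x₀ * y)) :=
    fun {x y} h => by
      rw [show -(x₀ * x) = -(x₀ * (x - y)) + -(x₀ * y) by ring, hadd, hint _ h, one_mul]
  by_cases hg : EPred m g
  · obtain ⟨⟨h1, h2⟩, h3, h4⟩ := EPred_mul_lvl hm hm0 hg hk
    exact ⟨by simp only [eFn, if_pos h3, if_pos hg, key h4],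
      by simp only [eFn, if_pos h1, if_pos hg, key h2]⟩
  · have h1 : ¬ EPred m (g * k) := fun h => hg (by
      simpa using (EPred_mul_lvl hm hm0 h (inv_mem hk)).1.1)
    have h3 : ¬ EPred m (k * g) := fun h => hg (by
      simpa using (EPred_mul_lvl hm hm0 h (inv_mem hk)).2.1)
    exact ⟨by simp only [eFn, if_neg h3, if_neg hg], by simp only [eFn, if_neg h1, if_neg hg]⟩

/-- The value at an upper triangular matrix. -/
theorem eFn_upK {a : Kˣ} {b : K} (ha : Valued.v ((a : K) - 1) ≤ m) (hb : Valued.v b ≤ m⁻¹) :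
    eFn χ m x₀ (upK a b) = χ (-(x₀ * b)) := by
  rw [eFn, if_pos ⟨by simp [coe_upK], by simpa [coe_upK] using ha, by simpa [coe_upK] using hb,
    by simp [coe_upK]⟩]
  simp [coe_upK]

/-- Upper triangular representatives of the support. -/
theorem exists_up_of_EPred (hm : m < 1) (hm0 : m ≠ 0) {g : GL (Fin 2) K} (hg : EPred m g) :
    ∃ (a : Kˣ) (b : K), Valued.v ((a : K) - 1) ≤ m ∧ Valued.v b ≤ m⁻¹ ∧
      ∃ u ∈ lvlZ (m * m), g = upK a b * u := by
  obtain ⟨hd, ha, hb, hr⟩ := hg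
  set D := (g : Matrix (Fin 2) (Fin 2) K) 1 1
  set a := (g : Matrix (Fin 2) (Fin 2) K) 0 0 / D
  set b := (g : Matrix (Fin 2) (Fin 2) K) 0 1 / D
  set r := (g : Matrix (Fin 2) (Fin 2) K) 1 0 / D
  have ha' : Valued.v (a - b * r - 1) ≤ m := by
    rw [sub_right_comm]
    refine Valued.v.map_sub_le ha ?_
    rw [map_mul]
    refine (mul_le_mul' hb hr).trans (le_of_eq ?_)
    rw [← mul_assoc, inv_mul_cancel₀ hm0, one_mul]
  have ha0 : a - b * r ≠ 0 := fun h => by simpa [h] using v_eq_one_of_sub hm ha'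
  set k : GL (Fin 2) K := Matrix.GeneralLinearGroup.mkOfDetNeZero !![1, 0; r, 1]
    (by simp [Matrix.det_fin_two])
  refine ⟨Units.mk0 _ ha0, b, ha', hb, k * scal (Units.mk0 D hd),
    ⟨k, mem_lvl_of_ent ((mul_le_of_le_one_right' hm.le).trans_lt hm) fun i j => by
      fin_cases i <;> fin_cases j <;> simp [k, hr], _, rfl⟩, Units.ext ?_⟩
  have hd' : (g : Matrix (Fin 2) (Fin 2) K) 1 1 ≠ 0 := hd
  ext i j
  fin_cases i <;> fin_cases j <;>
    simp [coe_upK, k, scal, a, b, r, D, Matrix.mul_apply, Fin.sum_univ_two] <;>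
    field_simp <;> ring

/-- Left translation by a unipotent. -/
theorem eFn_upK_mul (hadd : ∀ a b, χ (a + b) = χ a * χ b) (hm : m < 1) (hm0 : m ≠ 0) {β : K}
    (hβ : Valued.v β ≤ m⁻¹) (g : GL (Fin 2) K) :
    eFn χ m x₀ (upK 1 β * g) = χ (-(x₀ * β)) * eFn χ m x₀ g := by
  classical
  have e2 : ∀ (β : K) (g : GL (Fin 2) K) (i l : Fin 2),
      ((upK 1 β * g : GL (Fin 2) K) : Matrix (Fin 2) (Fin 2) K) i l =
      (g : Matrix (Fin 2) (Fin 2) K) i l +
        if i = 0 then β * (g : Matrix (Fin 2) (Fin 2) K) 1 l else 0 := fun β g i l => by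
    fin_cases i <;> fin_cases l <;> simp [coe_upK, Matrix.mul_apply, Fin.sum_univ_two]
  have fwd : ∀ (β : K) (g : GL (Fin 2) K), Valued.v β ≤ m⁻¹ → EPred m g →
      EPred m (upK 1 β * g) := by
    intro β g hβ ⟨hd, ha, hb, hr⟩
    refine ⟨by simpa [e2] using hd, ?_, ?_, by simpa [e2] using hr⟩
    · simp only [e2, one_ne_zero, Fin.isValue, ↓reduceIte, add_zero]
      rw [add_div, mul_div_assoc, add_sub_right_comm]
      refine Valued.v.map_add_le ha ?_
      rw [map_mul]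
      refine (mul_le_mul' hβ hr).trans (le_of_eq ?_)
      rw [← mul_assoc, inv_mul_cancel₀ hm0, one_mul]
    · simp only [e2, one_ne_zero, Fin.isValue, ↓reduceIte, add_zero]
      rw [add_div, mul_div_assoc, div_self hd, mul_one]
      exact Valued.v.map_add_le hb hβ
  by_cases hg : EPred m g
  · rw [eFn, eFn, if_pos (fwd β g hβ hg), if_pos hg]
    simp only [e2, one_ne_zero, Fin.isValue, ↓reduceIte, add_zero]
    rw [add_div, mul_div_assoc, div_self hg.1, mul_one, ← hadd]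
    congr 1
    ring
  · have h : ¬ EPred m (upK 1 β * g) := fun h => hg (by
      have := fwd (-β) _ (by rwa [Valuation.map_neg]) h
      rwa [show upK 1 (-β) * (upK 1 β * g) = g from Units.ext (by
        ext i l; fin_cases i <;> fin_cases l <;> simp [e2])] at this)
    simp only [eFn, if_neg h, if_neg hg, mul_zero]

/-- Left translation by a small unit. -/
theorem eFn_dg_mul (hadd : ∀ a b, χ (a + b) = χ a * χ b)
    (hint : ∀ y, Valued.v y ≤ (1 : Γ₀) → χ (-(x₀ * y)) = 1) (hm : m < 1) (hm0 : m ≠ 0) {u : Kˣ}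
    (hu : Valued.v ((u : K) - 1) ≤ m) (g : GL (Fin 2) K) :
    eFn χ m x₀ (dg (u, 1) * g) = eFn χ m x₀ g := by
  classical
  have e2 : ∀ (u : Kˣ) (g : GL (Fin 2) K) (i l : Fin 2),
      ((dg (u, 1) * g : GL (Fin 2) K) : Matrix (Fin 2) (Fin 2) K) i l =
      (if i = 0 then (u : K) else 1) * (g : Matrix (Fin 2) (Fin 2) K) i l := fun u g i l => by
    fin_cases i <;> fin_cases l <;> simp [dg, Matrix.mul_apply, Fin.sum_univ_two]
  have fwd : ∀ (u : Kˣ) (g : GL (Fin 2) K), Valued.v ((u : K) - 1) ≤ m → EPred m g →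
      EPred m (dg (u, 1) * g) := by
    intro u g hu ⟨hd, ha, hb, hr⟩
    refine ⟨by simpa [e2] using hd, ?_, ?_, by simpa [e2] using hr⟩
    · simp only [e2, one_ne_zero, Fin.isValue, ↓reduceIte, one_mul]
      rw [mul_div_assoc, show ∀ a c : K, a * c - 1 = (a - 1) * c + (c - 1) from fun a c => by ring]
      refine Valued.v.map_add_le ?_ ha
      rw [map_mul, v_eq_one_of_sub hm ha, mul_one]
      exact hu
    · simp only [e2, one_ne_zero, Fin.isValue, ↓reduceIte, one_mul]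
      rw [mul_div_assoc, map_mul, v_eq_one_of_sub hm hu, one_mul]
      exact hb
  by_cases hg : EPred m g
  · rw [eFn, eFn, if_pos (fwd u g hu hg), if_pos hg]
    simp only [e2, one_ne_zero, Fin.isValue, ↓reduceIte, one_mul]
    rw [mul_div_assoc]
    set b := (g : Matrix (Fin 2) (Fin 2) K) 0 1 / (g : Matrix (Fin 2) (Fin 2) K) 1 1
    rw [show -(x₀ * ((u : K) * b)) = -(x₀ * (((u : K) - 1) * b)) + -(x₀ * b) by ring, hadd, hint _
      (by rw [map_mul]; exact (mul_le_mul' hu hg.2.2.1).trans_eq (mul_inv_cancel₀ hm0)), one_mul]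
  · have hu' : Valued.v (((u⁻¹ : Kˣ) : K) - 1) ≤ m := by
      rw [show ((u⁻¹ : Kˣ) : K) - 1 = -(((u⁻¹ : Kˣ) : K) * ((u : K) - 1)) by
        rw [mul_sub, Units.inv_mul, mul_one, neg_sub], Valuation.map_neg, map_mul,
        Units.val_inv_eq_inv_val, map_inv₀, v_eq_one_of_sub hm hu, inv_one, one_mul]
      exact hu
    have h : ¬ EPred m (dg (u, 1) * g) := fun h => hg (by
      have := fwd u⁻¹ _ hu' h
      rwa [← mul_assoc, ← map_mul, show ((u⁻¹, (1 : Kˣ)) * (u, 1)) = 1 by simp, map_one, one_mul]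
        at this)
    simp only [eFn, if_neg h, if_neg hg]

/-- Finitely many cosets meet a bounded family of upper triangular matrices. -/
theorem finite_up_cosets {F : Type*} [Field F] [NumberField F] (v : HeightOneSpectrum (𝓞 F))
    {d c e : Γ₀} (hd : d ≠ 0) (hc : c ≠ 0) (he : e ≠ 0)
    (S : Set (GL (Fin 2) (Kp F v)))
    (hS : ∀ g ∈ S, ∃ (a : (Kp F v)ˣ) (b : Kp F v), d ≤ Valued.v (a : Kp F v) ∧
      Valued.v (a : Kp F v) ≤ 1 ∧ Valued.v b ≤ c ∧ ∃ u ∈ lvlZ e, g = upK a b * u) :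
    ((QuotientGroup.mk : GL (Fin 2) (Kp F v) → GL (Fin 2) (Kp F v) ⧸ lvlZ e) '' S).Finite := by
  obtain ⟨k, hk⟩ := Red.exists_exp_le (inv_ne_zero hc)
  obtain ⟨z, hzv⟩ : ∃ z : Kp F v, Valued.v z = WithZero.exp (-(k : ℤ)) := by
    obtain ⟨z, hz⟩ := HeightOneSpectrum.valuation_surjective F v (WithZero.exp (-(k : ℤ)))
    exact ⟨(z : Kp F v), by rw [HeightOneSpectrum.adicCompletion.valued_coe, hz]⟩
  have hz0 : z ≠ 0 := fun h => by
    rw [h, map_zero] at hzv; exact WithZero.exp_ne_zero hzv.symm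
  have hz1 : Valued.v z ≤ (1 : Γ₀) := by
    rw [hzv, ← WithZero.exp_zero, WithZero.exp_le_exp]; omega
  have hzc : Valued.v z * c ≤ 1 := by
    rw [hzv]
    exact (mul_le_mul' hk le_rfl).trans_eq (inv_mul_cancel₀ hc)
  refine (finite_bounded_cosets v
    (d := d * (WithZero.exp (-(k : ℤ)) * WithZero.exp (-(k : ℤ))))
    (mul_ne_zero hd (mul_ne_zero WithZero.exp_ne_zero WithZero.exp_ne_zero)) he).subset ?_
  rintro _ ⟨g, hg, rfl⟩
  obtain ⟨a, b, ha, ha1, hb, u, hu, rfl⟩ := hS g hg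
  refine ⟨upK a b * scal (Units.mk0 _ hz0), fun i j => ⟨?_, ?_⟩, ?_⟩
  · fin_cases i <;> fin_cases j <;>
      simp [coe_upK, scal, Matrix.mul_apply, Fin.sum_univ_two, map_mul]
    · exact mul_le_one' ha1 hz1
    · exact (mul_le_mul' hb le_rfl).trans ((mul_comm _ _).trans_le hzc)
    · exact hz1
  · rw [Units.val_mul, Matrix.det_mul, map_mul, show ((upK a b : GL (Fin 2) (Kp F v)) :
      Matrix (Fin 2) (Fin 2) (Kp F v)).det = a by simp [coe_upK, Matrix.det_fin_two],
      show ((scal (Units.mk0 _ hz0) : GL (Fin 2) (Kp F v)) :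
        Matrix (Fin 2) (Fin 2) (Kp F v)).det = z * z by
          simp [scal, Matrix.det_fin_two, sq], map_mul, hzv]
    exact mul_le_mul' ha le_rfl
  · refine QuotientGroup.eq.2 ?_
    rw [mul_inv_rev, mul_assoc, inv_mul_cancel_left]
    exact mul_mem (inv_mem (scal_mem_lvlZ e _)) hu

end FLTAgent.LT.TraceTheta
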