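import Fermat.Agent.LT.RS.Coef
import Fermat.Agent.LT.Red.Integral

/-!
The additive character of the finite adeles which is trivial on integral adeles and is
`exp(-2 π i Tr)` on `F`, and the annihilator of the integral adeles (inverse different).
-/

set_option autoImplicit false
set_option linter.style.haveILetI false
set_option linter.unusedSectionVars false

noncomputable section

namespace FLTAgent.LT.TraceTheta

open NumberField IsDedekindDomain WithZero
open FLTAgent.LT.RS FLTAgent.LT.Red

variable {F : Type*} [Field F] [NumberField F]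

local notation "HS" => HeightOneSpectrum (𝓞 F)

theorem valued_sub_comm (v : HS) (a b : Af F) : Valued.v ((a - b) v) = Valued.v ((b - a) v) := by
  show Valued.v (a v - b v) = Valued.v (b v - a v)
  rw [Valuation.map_sub_swap]

theorem intg_one : Intg (1 : Af F) := fun v => by
  show Valued.v (1 : v.adicCompletion F) ≤ 1
  rw [map_one]

theorem intg_zero : Intg (0 : Af F) := fun v => by
  show Valued.v (0 : v.adicCompletion F) ≤ 1
  rw [map_zero]; exact zero_le_one

theorem exists_intg_sub (y : Af F) : ∃ x : F, Intg (y - algebraMap F (Af F) x) := by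
  obtain ⟨x, hx⟩ := exists_sub_le y one_pos
  exact ⟨x, fun v => (hx v).trans (valued_natCast_le_one 1 v)⟩

/-- A rational approximation. -/
def approx (y : Af F) : F := (exists_intg_sub y).choose

theorem intg_sub_approx (y : Af F) : Intg (y - algebraMap F (Af F) (approx y)) :=
  (exists_intg_sub y).choose_spec

/-- The character. -/
def chi (y : Af F) : ℂ := trChar (1 : F) (-embF (approx y))

variable [IsTotallyComplex F]

theorem trChar_embF (x : F) :
    trChar (1 : F) (embF x) =
      Complex.exp ((2 * Real.pi * ((Algebra.trace ℚ F x : ℚ) : ℝ) : ℝ) * Complex.I) := by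
  rw [trChar, trPair_embF, one_mul]

theorem trChar_eq_one_iff (x : F) :
    trChar (1 : F) (embF x) = 1 ↔ ∃ k : ℤ, Algebra.trace ℚ F x = k := by
  have hI : (2 * (Real.pi : ℂ) * Complex.I) ≠ 0 := by simp [Real.pi_ne_zero]
  rw [trChar_embF, Complex.exp_eq_one_iff]
  refine exists_congr fun k => ⟨fun h => ?_, fun h => ?_⟩
  · have h' : (((Algebra.trace ℚ F x : ℚ) : ℝ) : ℂ) = (k : ℂ) := by
      refine mul_right_cancel₀ hI ?_
      rw [← h]; push_cast; ring
    exact_mod_cast h'
  · rw [h]; push_cast; ring

theorem neg_embF (x : F) : -embF x = embF (-x) := by funext w; simp [embF]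

theorem trChar_integral {x : F} (hx : IsIntegral ℤ x) : trChar (1 : F) (embF x) = 1 := by
  rw [trChar_eq_one_iff]
  obtain ⟨k, hk⟩ := IsIntegrallyClosed.isIntegral_iff.1 (Algebra.isIntegral_trace (L := ℚ) hx)
  exact ⟨k, by rw [← hk]; rfl⟩

theorem trChar_neg_embF_add (x y : F) :
    trChar (1 : F) (-embF (x + y)) = trChar 1 (-embF x) * trChar 1 (-embF y) := by
  rw [← trChar_add]
  congr 1
  funext w
  simp [embF]
  ring

/-- Any approximation computes the character. -/
theorem chi_eq {y : Af F} {η : F} (h : Intg (y - algebraMap F (Af F) η)) :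
    chi y = trChar (1 : F) (-embF η) := by
  have hd : IsIntegral ℤ (η - approx y) := isIntegral_of_intg (by
    rw [map_sub, show algebraMap F (Af F) η - algebraMap F (Af F) (approx y) =
      (y - algebraMap F (Af F) (approx y)) - (y - algebraMap F (Af F) η) by ring]
    exact (intg_sub_approx y).sub h)
  rw [chi, show η = approx y + (η - approx y) by ring, trChar_neg_embF_add,
    neg_embF (η - approx y), trChar_integral hd.neg, mul_one]

theorem chi_algebraMap (η : F) : chi (algebraMap F (Af F) η) = trChar (1 : F) (-embF η) :=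
  chi_eq (by rw [sub_self]; exact intg_zero)

theorem chi_of_intg {y : Af F} (h : Intg y) : chi y = 1 := by
  rw [chi_eq (η := 0) (by rwa [map_zero, sub_zero]),
    show -embF (0 : F) = 0 from funext fun w => by simp [embF], trChar_zero]

theorem chi_zero : chi (0 : Af F) = 1 := chi_of_intg intg_zero

theorem chi_add (a b : Af F) : chi (a + b) = chi a * chi b := by
  rw [chi_eq (η := approx a + approx b), trChar_neg_embF_add]
  · rfl
  rw [map_add, show a + b - (algebraMap F (Af F) (approx a) + algebraMap F (Af F) (approx b)) =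
    (a - algebraMap F (Af F) (approx a)) + (b - algebraMap F (Af F) (approx b)) by ring]
  exact (intg_sub_approx a).add (intg_sub_approx b)

theorem norm_chi (a : Af F) : ‖chi a‖ = 1 := norm_trChar _ _

theorem chi_ne_zero (a : Af F) : chi a ≠ 0 := fun h => by simpa [h] using norm_chi a

theorem chi_sum {ι : Type*} (s : Finset ι) (f : ι → Af F) :
    chi (∑ i ∈ s, f i) = ∏ i ∈ s, chi (f i) := by
  classical
  induction s using Finset.induction_on with
  | empty => simpa using chi_zero
  | insert a s ha ih => rw [Finset.sum_insert ha, Finset.prod_insert ha, chi_add, ih]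

/-- The annihilator of the integral adeles. -/
def IsDualAd (y : Af F) : Prop := ∀ c : Af F, Intg c → chi (y * c) = 1

theorem IsDualAd.mul_intg {y c : Af F} (h : IsDualAd y) (hc : Intg c) : IsDualAd (y * c) :=
  fun d hd => by rw [mul_assoc]; exact h _ (hc.mul hd)

theorem isDualAd_of_intg {y : Af F} (h : Intg y) : IsDualAd y :=
  fun _ hc => chi_of_intg (h.mul hc)

theorem IsDualAd.add {y z : Af F} (h : IsDualAd y) (h' : IsDualAd z) : IsDualAd (y + z) :=
  fun c hc => by rw [add_mul, chi_add, h c hc, h' c hc, mul_one]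

theorem isDualAd_sum {ι : Type*} (s : Finset ι) (f : ι → Af F) (h : ∀ i ∈ s, IsDualAd (f i)) :
    IsDualAd (∑ i ∈ s, f i) := fun c hc => by
  rw [Finset.sum_mul, chi_sum]
  exact Finset.prod_eq_one fun i hi => h i hi c hc

/-- The annihilator is bounded. -/
theorem exists_den_dual : ∃ n : ℕ, 0 < n ∧ ∀ y : Af F, IsDualAd y → Intg ((n : Af F) * y) := by
  classical
  obtain ⟨n, hn, hden⟩ : ∃ n : ℕ, 0 < n ∧ ∀ i : Idx F, Intg ((n : Af F) * algebraMap F (Af F)
      ((Algebra.traceForm ℚ F).dualBasis (traceForm_nondegenerate ℚ F) (ratBasis F) i)) := by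
    choose m hm hle using fun i : Idx F => exists_den_entry (algebraMap F (Af F)
      ((Algebra.traceForm ℚ F).dualBasis (traceForm_nondegenerate ℚ F) (ratBasis F) i))
    exact ⟨∏ i, m i, Finset.prod_pos fun i _ => hm i,
      fun i => intg_of_dvd (Finset.dvd_prod_of_mem m (Finset.mem_univ i)) (hle i)⟩
  refine ⟨n, hn, fun y hy => ?_⟩
  set η := approx y
  have hy' : IsDualAd (algebraMap F (Af F) η) := by
    have h2 : IsDualAd (algebraMap F (Af F) η - y) := isDualAd_of_intg
      (by rw [← neg_sub]; exact (intg_sub_approx y).neg)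
    simpa using hy.add h2
  have hd : IsDual 1 η := fun i => by
    have h1 := hy' (algebraMap F (Af F) (RingOfIntegers.basis F i : F))
      (intg_algebraMap (RingOfIntegers.basis F i).2)
    rw [← map_mul, chi_algebraMap, neg_embF, trChar_eq_one_iff] at h1
    obtain ⟨k, hk⟩ := h1
    refine ⟨-k, ?_⟩
    rw [freq, Nat.cast_one, one_mul, Int.cast_neg, ← hk, map_neg, neg_neg]
  have hη : Intg ((n : Af F) * algebraMap F (Af F) η) := by
    rw [← xiOf_kvec one_pos hd, xiOf, map_sum, Finset.mul_sum]
    refine Finset.sum_induction _ Intg (fun a b ha hb => ha.add hb) intg_zero fun i _ => ?_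
    rw [Nat.cast_one, div_one, Algebra.smul_def, map_mul, ← mul_assoc, mul_comm (n : Af F),
      mul_assoc]
    refine Intg.mul ?_ (hden i)
    rw [map_intCast]
    exact intg_algebraMap ((map_intCast (algebraMap ℤ F) _) ▸ isIntegral_algebraMap)
  rw [show (n : Af F) * y = (n : Af F) * algebraMap F (Af F) η +
    (n : Af F) * (y - algebraMap F (Af F) η) by ring]
  exact hη.add ((intg_natCast n).mul (intg_sub_approx y))

theorem adeleSingle_same (v : HS) (x : v.adicCompletion F) : adeleSingle v x v = x := by
  classical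
  exact RestrictedProduct.single_eq_same _ v x

theorem adeleSingle_ne {v w : HS} (x : v.adicCompletion F) (h : w ≠ v) :
    adeleSingle v x w = 0 := by
  classical
  exact RestrictedProduct.single_eq_of_ne _ x h

theorem adeleSingle_mul (v : HS) (x : v.adicCompletion F) (c : Af F) :
    adeleSingle v x * c = adeleSingle v (x * c v) := by
  refine FiniteAdeleRing.ext F fun w => ?_
  rcases eq_or_ne w v with rfl | h
  · show adeleSingle w x w * c w = _
    rw [adeleSingle_same, adeleSingle_same]
  · show adeleSingle v x w * c w = _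
    rw [adeleSingle_ne _ h, adeleSingle_ne _ h, zero_mul]

theorem intg_adeleSingle {v : HS} {x : v.adicCompletion F} (h : Valued.v x ≤ 1) :
    Intg (adeleSingle v x) := fun w => by
  rcases eq_or_ne w v with rfl | hne
  · rwa [adeleSingle_same]
  · rw [adeleSingle_ne _ hne, map_zero]; exact zero_le_one

theorem IsDualAd.single {y : Af F} (h : IsDualAd y) (v : HS) :
    IsDualAd (adeleSingle v (y v)) := by
  have e : y * adeleSingle v 1 = adeleSingle v (y v) := by
    rw [mul_comm, adeleSingle_mul, one_mul]
  exact e ▸ h.mul_intg (intg_adeleSingle (map_one Valued.v).le)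

/-- **The different.** An idele whose ideal is the annihilator. -/
theorem exists_dual_idele : ∃ d : (Af F)ˣ, (∀ v, 1 ≤ Valued.v ((d : Af F) v)) ∧
    ∀ y : Af F, IsDualAd y ↔ ∀ v, Valued.v (y v) ≤ Valued.v ((d : Af F) v) := by
  classical
  obtain ⟨n, hn, hbd⟩ := exists_den_dual (F := F)
  have hex : ∀ v : HS, ∃ x : v.adicCompletion F, 1 ≤ Valued.v x ∧ IsDualAd (adeleSingle v x) ∧
      ∀ y, IsDualAd (adeleSingle v y) → Valued.v y ≤ Valued.v x := by
    intro v
    set P : ℤ → Prop := fun k => ∃ x : v.adicCompletion F, IsDualAd (adeleSingle v x) ∧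
      Valued.v x = exp k
    have hb : ∀ k, P k → k ≤ -log (Valued.v ((n : Af F) v)) := by
      rintro k ⟨x, hx, hk⟩
      have h := hbd _ hx v
      change Valued.v ((n : Af F) v * adeleSingle v x v) ≤ 1 at h
      rw [adeleSingle_same, map_mul, hk, ← exp_log (valued_natCast_ne_zero hn v), ← exp_add,
        ← exp_zero, exp_le_exp] at h
      omega
    have h0 : P 0 := ⟨1, isDualAd_of_intg (intg_adeleSingle (map_one Valued.v).le), by simp⟩
    obtain ⟨k, ⟨x, hx, hk⟩, hmax⟩ := Int.exists_greatest_of_bdd ⟨_, hb⟩ ⟨0, h0⟩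
    refine ⟨x, ?_, hx, fun y hy => ?_⟩
    · rw [hk, ← exp_zero, exp_le_exp]
      exact hmax 0 h0
    · rcases eq_or_ne (Valued.v y) 0 with h | h
      · rw [h]; exact zero_le
      · rw [hk, ← exp_log h, exp_le_exp]
        exact hmax _ ⟨y, hy, (exp_log h).symm⟩
  choose x hx1 hxd hxmax using hex
  have hn1 : ∀ v : HS, (n : 𝓞 F) ∉ v.asIdeal → Valued.v (x v) ≤ 1 := fun v hv => by
    have h := hbd _ (hxd v) v
    change Valued.v ((n : Af F) v * adeleSingle v (x v) v) ≤ 1 at h
    rwa [map_mul, valued_natCast_eq_one hv, one_mul, adeleSingle_same] at h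
  have hne : ∀ v, x v ≠ 0 := fun v h => by
    have h1 := hx1 v
    rw [h, map_zero] at h1
    exact absurd h1 (not_le.2 zero_lt_one)
  let d : (Af F)ˣ :=
    { val := ⟨x, Filter.eventually_cofinite.2 ((finite_natCast_mem hn).subset fun v hv => by
        by_contra h; exact hv (hn1 v h))⟩
      inv := ⟨fun v => (x v)⁻¹, Filter.eventually_cofinite.2
        ((Set.finite_empty).subset fun v hv => hv (by
          show Valued.v (x v)⁻¹ ≤ 1
          rw [map_inv₀]
          exact inv_le_one_of_one_le₀ (hx1 v)))⟩
      val_inv := FiniteAdeleRing.ext F fun v => mul_inv_cancel₀ (hne v)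
      inv_val := FiniteAdeleRing.ext F fun v => inv_mul_cancel₀ (hne v) }
  refine ⟨d, hx1, fun y => ⟨fun hy v => hxmax v _ (hy.single v), fun hy => ?_⟩⟩
  have hfin : {v : HS | ¬ Valued.v (y v) ≤ 1}.Finite := Filter.eventually_cofinite.1 y.2
  set T := hfin.toFinset
  have hsplit : y = ∑ v ∈ T, adeleSingle v (y v) + (y - ∑ v ∈ T, adeleSingle v (y v)) := by ring
  have hcomp : ∀ w, (∑ v ∈ T, adeleSingle v (y v)) w = if w ∈ T then y w else 0 := fun w => by
    have he : ∀ (s : Finset HS), (∑ v ∈ s, adeleSingle v (y v)) w =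
        ∑ v ∈ s, adeleSingle v (y v) w := fun s => by
      induction s using Finset.induction_on with
      | empty => rfl
      | insert a s ha ih => rw [Finset.sum_insert ha, Finset.sum_insert ha, ← ih]; rfl
    rw [he]
    split_ifs with h
    · rw [Finset.sum_eq_single_of_mem w h fun v _ hv => adeleSingle_ne _ hv.symm, adeleSingle_same]
    · exact Finset.sum_eq_zero fun v hv => adeleSingle_ne _ (ne_of_mem_of_not_mem hv h).symm
  rw [hsplit]
  refine (isDualAd_sum _ _ fun v _ => ?_).add (isDualAd_of_intg fun w => ?_)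
  · have : adeleSingle v (y v) = adeleSingle v (x v) * adeleSingle v ((x v)⁻¹ * y v) := by
      rw [adeleSingle_mul, adeleSingle_same, mul_inv_cancel_left₀ (hne v)]
    rw [this]
    refine (hxd v).mul_intg (intg_adeleSingle ?_)
    rw [map_mul, map_inv₀, inv_mul_le_iff₀ (lt_of_lt_of_le zero_lt_one (hx1 v)), mul_one]
    exact hy v
  · show Valued.v (y w - (∑ v ∈ T, adeleSingle v (y v)) w) ≤ 1
    rw [hcomp]
    split_ifs with h
    · rw [sub_self, map_zero]; exact zero_le_one
    · rw [sub_zero]
      by_contra h'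
      exact h (hfin.mem_toFinset.2 h')

/-- The chosen idele of the inverse different. -/
def diffId : (Af F)ˣ := (exists_dual_idele (F := F)).choose

theorem one_le_diffId (v : HS) : 1 ≤ Valued.v ((diffId (F := F) : Af F) v) :=
  (exists_dual_idele (F := F)).choose_spec.1 v

theorem isDualAd_iff (y : Af F) :
    IsDualAd y ↔ ∀ v, Valued.v (y v) ≤ Valued.v ((diffId (F := F) : Af F) v) :=
  (exists_dual_idele (F := F)).choose_spec.2 y

end FLTAgent.LT.TraceTheta
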