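import Fermat.Agent.LT.TF.Trace.Char
import Fermat.Agent.LT.RS.CoefDiag

/-!
The coefficient `a ↦ wh φ (diag a) 1 t` of a form as a function of finite ideles: linearity, effect
of right translations, support and the Hecke recursion.
-/

set_option autoImplicit false
set_option linter.style.haveILetI false
set_option linter.unusedSectionVars false

noncomputable section

namespace FLTAgent.LT.TraceTheta

open NumberField IsDedekindDomain MeasureTheory
open FLTAgent.LT.RS FLTAgent.LT.Red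

variable {F : Type*} [Field F] [NumberField F] [IsTotallyComplex F]

local notation "HS" => HeightOneSpectrum (𝓞 F)

/-- Right translation. -/
def Rt (g : GF F) : Form F →ₗ[ℂ] Form F where
  toFun φ x h := φ x (h * g)
  map_add' _ _ := rfl
  map_smul' _ _ := rfl

theorem Rt_apply (g : GF F) (φ : Form F) (x : Xinf F) (h : GF F) : Rt g φ x h = φ x (h * g) := rfl

theorem isDual_one (m : ℕ) : IsDual m (1 : F) := fun i => by
  obtain ⟨k, hk⟩ := IsIntegrallyClosed.isIntegral_iff.1
    (Algebra.isIntegral_trace (L := ℚ) (RingOfIntegers.basis F i).2)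
  refine ⟨m * k, ?_⟩
  rw [freq, one_mul, Int.cast_mul, Int.cast_natCast]
  exact congrArg _ hk.symm

theorem wh_one_eq_fc {φ : Form F} {g : GF F} (hc : Continuous fun x ↦ φ x g) {m : ℕ}
    (hp : HasPeriod φ g m) (t : Tinf F) :
    wh φ g 1 t = fc (periodFun φ g m t) (kvec m (1 : F)) := by
  rw [fc_periodFun_eq_wh hc hp, xiOf_kvec hp.pos (isDual_one m)]

/-- The coefficient is linear on forms with periods. -/
theorem wh_one_sum {ι : Type*} (s : Finset ι) (c : ι → ℂ) (φ : ι → Form F) {g : GF F}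
    (hc : ∀ i ∈ s, Continuous fun x ↦ φ i x g) (hp : ∀ i ∈ s, ∃ m, HasPeriod (φ i) g m)
    (t : Tinf F) :
    wh (∑ i ∈ s, c i • φ i) g 1 t = ∑ i ∈ s, c i * wh (φ i) g 1 t := by
  classical
  obtain ⟨m, hm0, hm⟩ : ∃ m : ℕ, 0 < m ∧ ∀ i ∈ s, HasPeriod (φ i) g m := by
    choose! p hp using hp
    refine ⟨∏ i ∈ s, p i, Finset.prod_pos fun i hi => (hp i hi).pos, fun i hi => ?_⟩
    rw [← Finset.mul_prod_erase _ _ hi]
    exact (hp i hi).mul (Finset.prod_pos fun j hj => (hp j (Finset.mem_of_mem_erase hj)).pos)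
  have happ : ∀ x, (∑ i ∈ s, c i • φ i) x g = ∑ i ∈ s, c i * φ i x g := fun x => by
    simp [Finset.sum_apply, Pi.smul_apply]
  have hc' : Continuous fun x ↦ (∑ i ∈ s, c i • φ i) x g := by
    simp only [happ]
    exact continuous_finsetSum _ fun i hi => continuous_const.mul (hc i hi)
  have hp' : HasPeriod (∑ i ∈ s, c i • φ i) g m := ⟨hm0, fun β x => by
    simp only [happ]
    exact Finset.sum_congr rfl fun i hi => by rw [(hm i hi).inv]⟩
  rw [wh_one_eq_fc hc' hp',
    Finset.sum_congr (g := fun i => c i * fc (periodFun (φ i) g m t) (kvec m (1 : F))) rfl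
      fun i hi => by rw [wh_one_eq_fc (hc i hi) (hm i hi)]]
  simp only [fc]
  have hint : ∀ i ∈ s, IntegrableOn (fun y => c i * (FLTAgent.LT.Theta31.echar
      (-kvec m (1 : F)) y * periodFun (φ i) g m t y)) (boxSet (Idx F)) := fun i hi => by
    refine Integrable.const_mul ?_ _
    refine IntegrableOn.mono_set (t := Set.Icc (fun _ => (0 : ℝ)) fun _ => 1) ?_ ?_
    · exact ((continuous_echar _).mul (continuous_periodFun (hc i hi) m t)).integrableOn_Icc
    · exact fun y hy => ⟨fun j => (hy j trivial).1, fun j => (hy j trivial).2.le⟩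
  rw [show (fun y => FLTAgent.LT.Theta31.echar (-kvec m (1 : F)) y *
      periodFun (∑ i ∈ s, c i • φ i) g m t y) = fun y => ∑ i ∈ s, c i *
        (FLTAgent.LT.Theta31.echar (-kvec m (1 : F)) y * periodFun (φ i) g m t y) from
    funext fun y => by
      simp only [periodFun, happ, Finset.mul_sum]
      exact Finset.sum_congr rfl fun i _ => by ring]
  rw [integral_finsetSum _ hint]
  exact Finset.sum_congr rfl fun i _ => integral_const_mul _ _

variable {N : ℕ}

/-- The coefficient at `ξ = 1` and height `s`. -/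
def cf (s : Set.Ioi (0 : ℝ)) (φ : Form F) (a : (Af F)ˣ) : ℂ :=
  wh φ (upperGF a 0) 1 (fun _ => s)

variable (s : Set.Ioi (0 : ℝ)) (hN : 0 < N)

theorem upperGF_mul (a π : (Af F)ˣ) (b : Af F) :
    upperGF a 0 * upperGF π b = upperGF 1 ((a : Af F) * b) * upperGF (a * π) 0 := by
  apply Units.ext
  ext i j
  fin_cases i <;> fin_cases j <;> simp [upperGF, Matrix.mul_apply, Fin.sum_univ_two]

theorem upperGF_mul_lowerDiag (a π : (Af F)ˣ) :
    upperGF a 0 * lowerDiag π = upperGF (a * π⁻¹) 0 * scalarGF π := by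
  apply Units.ext
  ext i j
  fin_cases i <;> fin_cases j <;>
    simp [upperGF, lowerDiag, scalarGF, Matrix.mul_apply, Fin.sum_univ_two, mul_assoc]

include hN

/-- Approximation of the horizontal parameter. -/
theorem exists_upper_approx (g : GF F) (b : Af F) : ∃ η : F,
    Intg (b - algebraMap F (Af F) η) ∧
      InLevel N (g⁻¹ * upperGF 1 (b - algebraMap F (Af F) η) * g) := by
  obtain ⟨D, hD, hsmall⟩ := exists_conj_bound g
  obtain ⟨η, hη⟩ := exists_sub_le b (Nat.mul_pos hD hN)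
  exact ⟨η, fun v => (hη v).trans (valued_natCast_le_one _ v), hsmall N _ hη⟩

/-- Unipotent translations multiply by the character. -/
theorem wh_upper_chi {φ : Form F} (ha : Automorphic N φ) {g : GF F}
    (hc : Continuous fun x ↦ φ x g) (b : Af F) (t : Tinf F) :
    wh φ (upperGF 1 b * g) 1 t = chi b * wh φ g 1 t := by
  obtain ⟨η, hη, hk⟩ := exists_upper_approx hN g b
  rw [wh_upperGF_mul hN ha hc hk, chi_eq hη]

/-- Right translation by `(π, b; 0, 1)`. -/
theorem cf_Rt_upper {φ : Form F} (hφ : CuspZero N φ) (π : (Af F)ˣ) (b : Af F) (a : (Af F)ˣ) :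
    cf s (Rt (upperGF π b) φ) a = chi ((a : Af F) * b) * cf s φ (a * π) := by
  rw [cf, cf]
  refine (wh_congr (φ := Rt (upperGF π b) φ) (ψ := φ)
    (h := upperGF 1 ((a : Af F) * b) * upperGF (a * π) 0)
    (fun x => by rw [Rt_apply, upperGF_mul]) _ _ (hφ.cont _)).trans ?_
  rw [wh_upper_chi hN hφ.aut (hφ.cont _)]

theorem cf_Rt_diag {φ : Form F} (hφ : CuspZero N φ) (u a : (Af F)ˣ) :
    cf s (Rt (upperGF u 0) φ) a = cf s φ (a * u) := by
  rw [cf_Rt_upper s hN hφ, mul_zero, chi_zero, one_mul]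

theorem cf_Rt_lowerDiag {φ : Form F} (hφ : CuspZero N φ) (π a : (Af F)ˣ) :
    cf s (Rt (lowerDiag π) φ) a = cf s φ (a * π⁻¹) := by
  rw [cf, cf]
  exact wh_congr (φ := Rt (lowerDiag π) φ) (ψ := φ)
    (fun x => by rw [Rt_apply, upperGF_mul_lowerDiag, hφ.aut.central]) _ _ (hφ.cont _)

theorem exists_period_Rt {φ : Form F} (hφ : CuspZero N φ) (g h : GF F) :
    (Continuous fun x ↦ Rt g φ x h) ∧ ∃ m, HasPeriod (Rt g φ) h m := by
  obtain ⟨m, hm⟩ := exists_hasPeriod hN hφ.aut (h * g)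
  exact ⟨hφ.cont _, m, hm.pos, fun β x => hm.inv β x⟩

/-- The coefficient of a combination of translates. -/
theorem cf_sum_Rt {ι : Type*} (t : Finset ι) (c : ι → ℂ) (g : ι → GF F) {φ : Form F}
    (hφ : CuspZero N φ) (a : (Af F)ˣ) :
    cf s (∑ i ∈ t, c i • Rt (g i) φ) a = ∑ i ∈ t, c i * cf s (Rt (g i) φ) a :=
  wh_one_sum t c _ (fun i _ => (exists_period_Rt hN hφ (g i) _).1)
    (fun i _ => (exists_period_Rt hN hφ (g i) _).2) _

/-- The operator attached to `π` and a family of integral parameters. -/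
theorem cf_sum_upper {ι : Type*} (t : Finset ι) (π : (Af F)ˣ) (b : ι → Af F) {φ : Form F}
    (hφ : CuspZero N φ) (a : (Af F)ˣ) :
    cf s (∑ i ∈ t, Rt (upperGF π (b i)) φ) a =
      (∑ i ∈ t, chi ((a : Af F) * b i)) * cf s φ (a * π) := by
  have h := cf_sum_Rt s hN t (fun _ => (1 : ℂ)) (fun i => upperGF π (b i)) hφ a
  simp only [one_smul, one_mul] at h
  rw [h, Finset.sum_mul]
  exact Finset.sum_congr rfl fun i _ => cf_Rt_upper s hN hφ π (b i) a

omit hN in
theorem inLevel_upperGF {u : (Af F)ˣ} {b : Af F}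
    (hu : ∀ v, Valued.v (((u : Af F) - 1) v) ≤ Valued.v ((N : Af F) v))
    (hu' : ∀ v, Valued.v ((((u⁻¹ : (Af F)ˣ) : Af F) - 1) v) ≤ Valued.v ((N : Af F) v))
    (hb : ∀ v, Valued.v (b v) ≤ Valued.v ((N : Af F) v))
    (hb' : ∀ v, Valued.v ((((u⁻¹ : (Af F)ˣ) : Af F) * b) v) ≤ Valued.v ((N : Af F) v)) :
    InLevel N (upperGF u b) := by
  intro v i j
  have z : Valued.v ((0 : Af F) v) ≤ Valued.v ((N : Af F) v) := by
    show Valued.v (0 : v.adicCompletion F) ≤ _
    simp
  have hb'' : Valued.v ((-((((u⁻¹ : (Af F)ˣ) : Af F) * b))) v) ≤ Valued.v ((N : Af F) v) := by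
    show Valued.v (-((((u⁻¹ : (Af F)ˣ) : Af F) * b) v)) ≤ _
    rw [Valuation.map_neg]; exact hb' v
  fin_cases i <;> fin_cases j <;> refine ⟨?_, ?_⟩ <;>
    simp only [upperGF, Matrix.sub_apply, Matrix.one_apply, Units.inv_mk, Fin.zero_eta, Fin.isValue,
      Fin.mk_one, Matrix.of_apply, Matrix.cons_val', Matrix.cons_val_zero, Matrix.cons_val_one,
      Matrix.empty_val', Matrix.cons_val_fin_one, sub_self, sub_zero, if_true, if_false,
      zero_ne_one, one_ne_zero] <;>
    first | exact hu v | exact hu' v | exact hb v | exact z | exact hb''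

/-- Invariance under small unit ideles. -/
theorem cf_mul_unit {φ : Form F} (hφ : CuspZero N φ) {u : (Af F)ˣ}
    (hu : ∀ v, Valued.v (((u : Af F) - 1) v) ≤ Valued.v ((N : Af F) v))
    (hu' : ∀ v, Valued.v ((((u⁻¹ : (Af F)ˣ) : Af F) - 1) v) ≤ Valued.v ((N : Af F) v))
    (a : (Af F)ˣ) : cf s φ (a * u) = cf s φ a := by
  have hz : ∀ v, Valued.v ((0 : Af F) v) ≤ Valued.v ((N : Af F) v) := fun v => by
    show Valued.v (0 : v.adicCompletion F) ≤ _
    simp
  have hk : InLevel N (upperGF u 0) := inLevel_upperGF hu hu' hz fun v => by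
    rw [mul_zero]; exact hz v
  rw [← cf_Rt_diag s hN hφ u a, cf, cf]
  exact wh_congr (φ := Rt (upperGF u 0) φ) (ψ := φ)
    (fun x => by rw [Rt_apply, hφ.aut.right_inv _ hk]) _ _ (hφ.cont _)

/-- Support: `N a` is in the inverse different. -/
theorem isDualAd_of_cf_ne_zero {φ : Form F} (hφ : CuspZero N φ) {a : (Af F)ˣ}
    (h : cf s φ a ≠ 0) : IsDualAd ((a : Af F) * (N : Af F)) := by
  intro c hc
  have hb : ∀ v, Valued.v (((N : Af F) * c) v) ≤ Valued.v ((N : Af F) v) := fun v => by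
    show Valued.v ((N : Af F) v * c v) ≤ _
    rw [map_mul]
    exact mul_le_of_le_one_right' (hc v)
  have hz : ∀ v, Valued.v (((1 : Af F) - 1) v) ≤ Valued.v ((N : Af F) v) := fun v => by
    rw [sub_self]
    show Valued.v (0 : v.adicCompletion F) ≤ _
    simp
  have hk : InLevel N (upperGF 1 ((N : Af F) * c)) := inLevel_upperGF
    (by simpa using hz) (by simpa using hz) hb (by simpa using hb)
  have e1 : cf s (Rt (upperGF 1 ((N : Af F) * c)) φ) a = cf s φ a := by
    rw [cf, cf]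
    exact wh_congr (φ := Rt (upperGF 1 ((N : Af F) * c)) φ) (ψ := φ)
      (fun x => by rw [Rt_apply, hφ.aut.right_inv _ hk]) _ _ (hφ.cont _)
  rw [cf_Rt_upper s hN hφ, mul_one, ← mul_assoc] at e1
  exact mul_right_cancel₀ h (e1.trans (one_mul _).symm)

/-- The Hecke operator on coefficients. -/
theorem cf_hecke {φ : Form F} (hφ : CuspZero N φ) (v : HS) (a : (Af F)ˣ) :
    cf s (hecke v φ) a =
      (∑ᶠ u : 𝓞 F ⧸ v.asIdeal, chi ((a : Af F) *
          adeleSingle v (((Quotient.out u : 𝓞 F) : F) : v.adicCompletion F))) *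
        cf s φ (a * unifIdele v) + cf s φ (a * (unifIdele v)⁻¹) := by
  classical
  haveI : Finite (𝓞 F ⧸ v.asIdeal) := Ideal.finiteQuotientOfFreeOfNeBot v.asIdeal v.ne_bot
  letI := Fintype.ofFinite (𝓞 F ⧸ v.asIdeal)
  set b : 𝓞 F ⧸ v.asIdeal → Af F := fun u =>
    adeleSingle v (((Quotient.out u : 𝓞 F) : F) : v.adicCompletion F)
  have e : hecke v φ = ∑ o : Option (𝓞 F ⧸ v.asIdeal), (1 : ℂ) • Rt (o.elim (lowerDiag (unifIdele v))
      fun u => upperGF (unifIdele v) (b u)) φ := by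
    funext x g
    simp only [hecke, Fintype.sum_option, finsum_eq_sum_of_fintype, one_smul, Pi.add_apply,
      Finset.sum_apply, Option.elim_none, Option.elim_some, Rt_apply, b]
    ring
  rw [e, cf_sum_Rt s hN _ _ _ hφ, Fintype.sum_option, finsum_eq_sum_of_fintype, Finset.sum_mul,
    add_comm]
  simp only [one_mul, Option.elim_none, Option.elim_some, cf_Rt_lowerDiag s hN hφ,
    cf_Rt_upper s hN hφ, b]

end FLTAgent.LT.TraceTheta
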