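import Fermat.Agent.LT.TF.Trace.BadGerm

/-!
The twisted trace of the test at the bad places: the operator of the test maps into the pinned
subspace, acts on germs as a power of the parameter times the average over units of norm one, kills
forms without germ, and so has a nonzero twisted trace for some parameter.
-/

set_option autoImplicit false
set_option linter.unusedSectionVars false
set_option linter.style.haveILetI false

noncomputable section

namespace FLTAgent.LT.TraceTheta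

open NumberField IsDedekindDomain LinearMap
open FLTAgent.LT.Match FLTAgent.LT.Red FLTAgent.LT.RS

local notation "Γ₀" => WithZero (Multiplicative ℤ)

section upper

variable {K : Type*} [Field K]

theorem upK_inv_mul (a a' : Kˣ) (b b' : K) :
    (upK a b)⁻¹ * upK a' b' = upK (a⁻¹ * a') ((b' - b) / a) := by
  rw [inv_mul_eq_iff_eq_mul]
  refine Units.ext (Matrix.ext fun p q => ?_)
  fin_cases p <;> fin_cases q <;> simp [coe_upK, Matrix.mul_apply, Fin.sum_univ_two]
  field_simp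
  ring

variable [Valued K Γ₀]

/-- An upper triangular element of a congruence group times the centre. -/
theorem sub_le_of_upK_mem {e : Γ₀} (he : e < 1) {a : Kˣ} {b : K} (h : upK a b ∈ lvlZ e) :
    Valued.v ((a : K) - 1) ≤ e := by
  obtain ⟨k, hk, c, hc⟩ := h
  have e00 := congrArg (fun g : GL (Fin 2) K => (g : Matrix (Fin 2) (Fin 2) K) 0 0) hc
  have e11 := congrArg (fun g : GL (Fin 2) K => (g : Matrix (Fin 2) (Fin 2) K) 1 1) hc
  simp [coe_upK, scal, Matrix.mul_apply, Fin.sum_univ_two] at e00 e11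
  have h0 := ((mem_lvl he.le).1 hk).1 0 0
  have h1 := ((mem_lvl he.le).1 hk).1 1 1
  simp at h0 h1
  have hv1 := v_eq_one_of_sub he h1
  have hk1 : (k : Matrix (Fin 2) (Fin 2) K) 1 1 ≠ 0 := fun h => by simp [h] at hv1
  rw [show (a : K) = (k : Matrix (Fin 2) (Fin 2) K) 0 0 / (k : Matrix (Fin 2) (Fin 2) K) 1 1 by
      rw [e00, eq_div_iff hk1]
      linear_combination -(k : Matrix (Fin 2) (Fin 2) K) 0 0 * e11,
    div_sub_one hk1, map_div₀, hv1, div_one, ← sub_sub_sub_cancel_right _ _ (1 : K)]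
  exact Valued.v.map_sub_le h0 h1

end upper

variable {F : Type} [Field F] [NumberField F] [PinSel F] [IsTotallyComplex F]

local notation "HS" => HeightOneSpectrum (𝓞 F)

variable {τ : F ≃+* F} {N M : ℕ} {x₀ : (Af F)ˣ} {s : Set.Ioi (0 : ℝ)}
  {V : Submodule ℂ (Form F)}

theorem upperGF_mul_upper (u α : (Af F)ˣ) (β : Af F) :
    upperGF u 0 * upperGF α β = upperGF (u * α) ((u : Af F) * β) := by
  apply Units.ext
  ext i j
  fin_cases i <;> fin_cases j <;> simp [upperGF, Matrix.mul_apply, Fin.sum_univ_two]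

theorem nsPart_mul (a b : (Af F)ˣ) : nsPart τ N (a * b) = nsPart τ N a * nsPart τ N b :=
  Subtype.ext (af_unit_ext fun v => by
    rw [Subgroup.coe_mul, af_unit_mul_apply]
    by_cases hv : NsV τ N v
    · rw [nsPart_apply τ N hv, nsPart_apply τ N hv, nsPart_apply τ N hv, af_unit_mul_apply]
    · rw [(nsPart τ N (a * b)).2 v hv, (nsPart τ N a).2 v hv, (nsPart τ N b).2 v hv, one_mul])

theorem nsPart_coe (u : nsId τ N) : nsPart τ N (u : (Af F)ˣ) = u :=
  Subtype.ext (af_unit_ext fun v => by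
    by_cases hv : NsV τ N v
    · rw [nsPart_apply τ N hv]
    · rw [(nsPart τ N _).2 v hv, u.2 v hv])

/-- The translation by the part at the fixed bad places depends only on the coset. -/
theorem rangeTrans_nsPart_congr {V' : Submodule ℂ (Form F)} (h : TraceHyp τ N M x₀ s V')
    (hst : ∀ g : nsId τ N, ∀ x ∈ LinearMap.range h.germ,
      transQ τ N h.hN g x ∈ LinearMap.range h.germ)
    {α α' : (Af F)ˣ} {β β' : Af F}
    (e : ((upperGF α β : GF F) : Cos F N) = (upperGF α' β' : GF F)) :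
    rangeTrans h hst (nsPart τ N α) = rangeTrans h hst (nsPart τ N α') := by
  set w := nsPart τ N (α⁻¹ * α') with hw
  have key : ∀ v : HS,
      Valued.v ((((w : (Af F)ˣ)) : Af F) v - 1) ≤ Valued.v ((N : Af F) v) := fun v => by
    by_cases hv : NsV τ N v
    · have h1 := mem_UZ_iff.1 (QuotientGroup.eq.1 e) v
      rw [map_mul, map_inv, locGF_upperGF, locGF_upperGF, upK_inv_mul, ← map_inv, ← map_mul] at h1
      have h2 := sub_le_of_upK_mem (levN_lt_one hv.1) h1
      rw [hw, nsPart_apply τ N hv]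
      exact h2
    · rw [hw, (nsPart τ N _).2 v hv, sub_self, map_zero]
      exact zero_le
  have hw1 : rangeTrans h hst w = 1 := by
    rw [← map_one (rangeTrans h hst)]
    refine rangeTrans_congr h hst (fun v => ?_) (fun v => map_one _) fun v => by
      rw [Subgroup.coe_one, af_unit_one_apply]; exact key v
    by_cases hv : NsV τ N v
    · exact v_eq_one_of_sub (levN_lt_one hv.1) (key v)
    · rw [w.2 v hv, map_one]
  rw [show α' = α * (α⁻¹ * α') by group, nsPart_mul, map_mul, ← hw, hw1, mul_one]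

variable {K : Type} [Field K] [NumberField K] {i : K →+* F}

/-- The contracting classes meet the parameter. -/
theorem BadSetup.suppSet_bad_nonempty (S : BadSetup τ N M x₀ i) {j : ℕ} (hj : 0 < j) :
    (suppSet S.hN (S.locFam_bad hj)).Nonempty := by
  set π := (piNs τ N S.hN ^ j : nsId τ N) with hπ
  refine ⟨((upperGF (π : (Af F)ˣ) 0 : GF F) : Cos F N), ?_⟩
  rw [mem_suppSet]
  obtain ⟨u, hu⟩ := QuotientGroup.mk_out_eq_mul (UZ F N) (upperGF (π : (Af F)ˣ) 0 : GF F)
  rw [hu, (S.locFam_bad hj).prod_right_inv u.2, prodFun_upperGF,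
    finprod_eq_one_of_forall_eq_one fun v => ?_]
  · exact one_ne_zero
  have h1 : ∀ h : ¬ NsV τ N v, evU v (π : (Af F)ˣ) = 1 := fun h => Units.ext (π.2 v h)
  rw [show ((0 : Af F) v) = 0 from rfl]
  rcases bad_cases τ N v with hb | hb | hb
  · rw [h1 fun h => hb h.1, badFam, mkFam_good hb, upK_one_zero, unitFn_one]
  · refine S.badFam_upK hj (fun h => h.2 hb.2) ⟨fun _ h => ⟨?_, ?_, ?_⟩,
      fun h => absurd hb.2 h.2, fun h => absurd hb.1 h⟩
    · rw [hπ, evU_piNs_pow τ N S.hN j h]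
    · rw [hπ, evU_piNs_pow τ N S.hN j h, nrm3_piU S.hN j h.2.1, div_self', Units.val_one, sub_self,
        map_zero]
      exact zero_le
    · rw [map_zero]; exact zero_le
  · rw [h1 fun h => hb.2 h.2, badFam, mkFam_sp hb, S.eAt_upK ⟨?_, ?_⟩, mul_zero, neg_zero]
    · exact chiAt_eq_one (by rw [map_zero]; exact zero_le)
    · rw [Units.val_one, sub_self, map_zero]; exact zero_le
    · rw [map_zero]; exact zero_le

set_option maxHeartbeats 800000 in
/-- Coefficients of the pinned translate of an invariant form. -/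
theorem BadSetup.exists_pinned_start (S : BadSetup τ N M x₀ i) (hV : SpaceHyp τ N V)
    {φ₀ : Form F} (hφ₀ : φ₀ ∈ V)
    (hinv : ∀ w : (Af F)ˣ, (∀ v : HS, Valued.v ((w : Af F) v) = 1) → ∀ a,
      cf s φ₀ (a * w) = cf s φ₀ a)
    (htail : ∀ k, ∃ b : nsId τ N, Deep τ N k b ∧ cf s φ₀ (x₀ * (b : (Af F)ˣ)) ≠ 0) :
    ∃ φ₁ : pinned τ N M x₀ s V S.hN hV,
      (∀ u : nsId τ N, (∀ v, Valued.v (((u : (Af F)ˣ) : Af F) v) = 1) → ∀ a,
        cf s (φ₁ : Form F) (a * (u : (Af F)ˣ)) = cf s (φ₁ : Form F) a) ∧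
      ∀ k, ∃ b : nsId τ N, Deep τ N k b ∧ cf s (φ₁ : Form F) (x₀ * (b : (Af F)ˣ)) ≠ 0 := by
  have hA : ∀ v, NsV τ N v → UpRep N v (unitFn (levN v N)) (QOne v) :=
    fun v _ => upRep_unitFn N v
  have hB : ∀ v, SpV τ N v → UpRep N v (eAt M x₀ v) (RPin M v) := fun v h => upRep_eAt S h
  obtain ⟨p, hp⟩ := exists_repMap S.hN hA hB S.locFam_pin
  set C := suppSet S.hN S.locFam_pin with hC
  have hzero : ∀ c ∈ C, ∀ v, ¬ SpV τ N v → (p c).2 v = 0 := fun c hc v hv => by
    rcases bad_cases τ N v with hb | hb | hb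
    · exact (((hp c hc).2 v).2.2 hb).2
    · exact (((hp c hc).2 v).1 hb).2
    · exact absurd hb hv
  have hα : ∀ c ∈ C, ∀ v, Valued.v (((p c).1 : Af F) v) = 1 := fun c hc v => by
    have h := (hp c hc).2 v
    rcases bad_cases τ N v with hb | hb | hb
    · rw [← evU_val, (h.2.2 hb).1, Units.val_one, map_one]
    · rw [← evU_val, (h.1 hb).1, Units.val_one, map_one]
    · rw [← evU_val]
      exact v_eq_one_of_sub (S.radA_lt hb.1) (h.2.1 hb).1
  set φ₁ : Form F := finAct N (prodFun (pinFam τ N M x₀)) φ₀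
  have hm : φ₁ ∈ pinned τ N M x₀ s V S.hN hV := S.finAct_mem_pinned hV hA S.locFam_pin hφ₀
  have hcf : ∀ a, cf s φ₁ a = (∑ c ∈ C, prodFun (pinFam τ N M x₀) (upperGF (p c).1 (p c).2) *
      chi ((a : Af F) * (p c).2)) * cf s φ₀ a := fun a => by
    rw [cf_finAct S.hN S.locFam_pin (hV.cusp _ hφ₀) fun c hc => (hp c hc).1, Finset.sum_mul]
    exact Finset.sum_congr rfl fun c hc => by rw [hinv _ (hα c hc)]
  refine ⟨⟨φ₁, hm⟩, fun u hu a => ?_, fun k => ?_⟩
  · show cf s φ₁ _ = cf s φ₁ _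
    rw [hcf, hcf, hinv _ hu]
    congr 1
    refine Finset.sum_congr rfl fun c hc => ?_
    rw [show ((a * (u : (Af F)ˣ) : (Af F)ˣ) : Af F) * (p c).2 = (a : Af F) * (p c).2 from
      FiniteAdeleRing.ext F fun v => ?_]
    rw [af_mul_apply, af_mul_apply, af_unit_mul_apply]
    by_cases hv : SpV τ N v
    · rw [u.2 v fun h => hv.2 h.2, mul_one]
    · rw [hzero c hc v hv, mul_zero, mul_zero]
  · obtain ⟨b, hb, hne⟩ := htail k
    refine ⟨b, hb, ?_⟩
    show cf s φ₁ _ ≠ 0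
    rw [hcf, Finset.sum_congr rfl fun c hc => ?_, Finset.sum_const, nsmul_one]
    · refine mul_ne_zero (Nat.cast_ne_zero.2 (Finset.card_ne_zero.2 ⟨((1 : GF F) : Cos F N), ?_⟩))
        hne
      rw [hC, mem_suppSet]
      obtain ⟨u, hu⟩ := QuotientGroup.mk_out_eq_mul (UZ F N) (1 : GF F)
      rw [hu, S.locFam_pin.prod_right_inv u.2, prodFun, finprod_eq_one_of_forall_eq_one fun v => ?_]
      · exact one_ne_zero
      rw [map_one]
      rcases bad_cases τ N v with hb' | hb' | hb'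
      · rw [pinFam, mkFam_good hb', unitFn_one]
      · rw [pinFam, mkFam_ns hb', unitFn_one]
      · rw [pinFam, mkFam_sp hb', ← upK_one_zero, S.eAt_upK ⟨?_, ?_⟩, mul_zero, neg_zero]
        · exact chiAt_eq_one (by rw [map_zero]; exact zero_le)
        · rw [Units.val_one, sub_self, map_zero]; exact zero_le
        · rw [map_zero]; exact zero_le
    · have hr := (hp c hc).2
      refine prod_mul_chi (τ := τ) (x₀ := x₀) S.hN (fun v hv => ?_)
        (fun v hv => pinFam_upK hv (hr v)) (fun v hv => ?_) fun v hv => ?_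
      · rw [pinFam, mkFam_sp hv]
        exact S.eAt_upK ((hr v).2.1 hv)
      · rw [af_unit_mul_apply, b.2 v fun h => hv.2 h.2, mul_one]
      · rw [hzero c hc v hv, map_zero, mul_zero]
        exact zero_le

/-- Units of norm one permute the translations in the support. -/
theorem BadSetup.rangeTrans_mul_sum (S : BadSetup τ N M x₀ i) {V' : Submodule ℂ (Form F)}
    (h : TraceHyp τ N M x₀ s V')
    (hst : ∀ g : nsId τ N, ∀ x ∈ LinearMap.range h.germ,
      transQ τ N h.hN g x ∈ LinearMap.range h.germ)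
    {j : ℕ} (hj : 0 < j) {Q R : (v : HeightOneSpectrum (𝓞 F)) → (Kp F v)ˣ → Kp F v → Prop}
    {p : Cos F N → (Af F)ˣ × Af F}
    (hp : RepMap τ N Q R (suppSet S.hN (S.locFam_bad hj)) p) {u : nsId τ N}
    (hu : u ∈ normUnits τ N) :
    rangeTrans h hst u *
        ∑ c ∈ suppSet S.hN (S.locFam_bad hj), rangeTrans h hst (nsPart τ N (p c).1) =
      ∑ c ∈ suppSet S.hN (S.locFam_bad hj), rangeTrans h hst (nsPart τ N (p c).1) := by
  set g : GF F := upperGF (u : (Af F)ˣ) 0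
  set C := suppSet S.hN (S.locFam_bad hj) with hC
  have hiff : ∀ c : Cos F N, g • c ∈ C ↔ c ∈ C := fun c => by
    obtain ⟨w, hw⟩ := QuotientGroup.mk_out_eq_mul (UZ F N) (g * c.out)
    rw [hC, mem_suppSet, mem_suppSet,
      show g • c = ((g * c.out : GF F) : Cos F N) by
        conv_lhs => rw [← QuotientGroup.out_eq' c]
        rfl,
      hw, (S.locFam_bad hj).prod_right_inv w.2, S.badFam_translate hj hu]
  rw [Finset.mul_sum]
  refine Finset.sum_equiv (MulAction.toPerm g) (fun c => (hiff c).symm) fun c hc => ?_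
  rw [MulAction.toPerm_apply, ← map_mul]
  conv_lhs => rw [← nsPart_coe u, ← nsPart_mul]
  refine rangeTrans_nsPart_congr h hst (β := ((u : (Af F)ˣ) : Af F) * (p c).2)
    (β' := (p (g • c)).2) ?_
  rw [(hp _ ((hiff c).2 hc)).1, ← upperGF_mul_upper]
  conv_rhs => rw [← (hp c hc).1]
  rfl

theorem BadSetup.inv_mul_mem_normUnits (S : BadSetup τ N M x₀ i) {j : ℕ}
    {α : (Af F)ˣ} {β : Af F} (hr : Reps τ N (QBad τ N j) (RPin M) α β) :
    ((piNs τ N S.hN) ^ j)⁻¹ * nsPart τ N α ∈ normUnits τ N := by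
  refine mem_normUnits.2 ⟨fun v => ?_, fun v hv => ?_⟩
  · by_cases hv : NsV τ N v
    · rw [Subgroup.coe_mul, Subgroup.coe_inv, af_unit_mul_apply, map_mul, valued_inv, ← evU_val,
        ← evU_val, evU_piNs_pow τ N S.hN j hv,
        show evU v (nsPart τ N α : (Af F)ˣ) = evU v α from
          Units.ext (nsPart_apply τ N hv), ((hr v).1 hv hv).1]
      exact inv_mul_cancel₀ ((map_ne_zero _).2 (Units.ne_zero _))
    · rw [((piNs τ N S.hN ^ j)⁻¹ * nsPart τ N α).2 v hv, map_one]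
  · rw [Subgroup.coe_mul, Subgroup.coe_inv, map_mul, map_inv, evU_piNs_pow τ N S.hN j hv,
      show evU v (nsPart τ N α : (Af F)ˣ) = evU v α from
        Units.ext (nsPart_apply τ N hv), nrm3_mul, nrm3_inv, nrm3_piU S.hN j hv.2.1, mul_comm,
      ← div_eq_mul_inv]
    exact (mem_oneAdd (levN_lt_one hv.1)).2 ((hr v).1 hv hv).2.1

/-- A sum of translations fixed by a finite group of units is a multiple of its average. -/
theorem sum_rho_eq_smul_repAvg {Γ Q ι G : Type*} [CommGroup Γ] [AddCommGroup Q] [Module ℂ Q]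
    [Group G] [Fintype G] (ρ : Γ →* Module.End ℂ Q) (ρB : G →* Module.End ℂ Q) (H : Set Γ)
    (h1 : ∀ x, ∃ u ∈ H, ρB x = ρ u) (h2 : ∀ u ∈ H, ∃ x, ρB x = ρ u) (C : Finset ι) (f : ι → Γ)
    (π : Γ) (j : ℕ) (hf : ∀ c ∈ C, (π ^ j)⁻¹ * f c ∈ H)
    (hfix : ∀ u ∈ H, ρ u * ∑ c ∈ C, ρ (f c) = ∑ c ∈ C, ρ (f c)) :
    ∑ c ∈ C, ρ (f c) = (C.card : ℂ) • (ρ π ^ j * repAvg ρB) := by
  have hcomm : ∀ g, Commute (repAvg ρB) (ρ g) := fun g => commute_repAvg ρB fun x => by
    obtain ⟨u, -, e⟩ := h1 x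
    rw [e]
    exact (Commute.all u g).map ρ
  have hfix' : ∀ x, ρB x * ∑ c ∈ C, ρ (f c) = ∑ c ∈ C, ρ (f c) := fun x => by
    obtain ⟨u, hu, e⟩ := h1 x
    rw [e, hfix u hu]
  have havg : repAvg ρB * ∑ c ∈ C, ρ (f c) = ∑ c ∈ C, ρ (f c) := by
    rw [repAvg, smul_mul_assoc, Finset.sum_mul, Finset.sum_congr rfl fun x _ => hfix' x,
      Finset.sum_const, Finset.card_univ, ← Nat.cast_smul_eq_nsmul ℂ, smul_smul,
      inv_mul_cancel₀ (Nat.cast_ne_zero.2 Fintype.card_ne_zero), one_smul]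
  rw [← havg, Finset.mul_sum, Nat.cast_smul_eq_nsmul ℂ, ← Finset.sum_const]
  refine Finset.sum_congr rfl fun c hc => ?_
  obtain ⟨x, hx⟩ := h2 _ (hf c hc)
  have hxavg : repAvg ρB * ρB x = repAvg ρB := by
    rw [hx, (hcomm _).eq, ← hx, rho_mul_repAvg]
  rw [show f c = π ^ j * ((π ^ j)⁻¹ * f c) by rw [mul_inv_cancel_left], map_mul, map_pow, ← hx,
    ← mul_assoc, ((hcomm π).pow_right j).eq, mul_assoc, hxavg]

/-- The finite group of values of a subgroup. -/
theorem exists_image_group {Γ : Type*} [Group Γ] {M : Type} [Monoid M] (ρ : Γ →* M)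
    (H : Subgroup Γ) (hfin : (ρ '' (H : Set Γ)).Finite) :
    ∃ (G : Type) (_ : Group G) (_ : Fintype G) (ρB : G →* M),
      (∀ x, ∃ u ∈ (H : Set Γ), ρB x = ρ u) ∧ ∀ u ∈ (H : Set Γ), ∃ x, ρB x = ρ u := by
  set G := (ρ.toHomUnits.comp H.subtype).range with hG
  haveI : Finite G := by
    have hsub : (G : Set Mˣ) ⊆ Units.val ⁻¹' (ρ '' (H : Set Γ)) := by
      rintro _ ⟨u, rfl⟩
      exact ⟨u.1, u.2, rfl⟩
    exact ((hfin.preimage Units.val_injective.injOn).subset hsub).to_subtype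
  refine ⟨G, inferInstance, Fintype.ofFinite G, (Units.coeHom M).comp G.subtype, fun x => ?_,
    fun u hu => ⟨⟨_, ⟨u, hu⟩, rfl⟩, rfl⟩⟩
  obtain ⟨u, hu⟩ := x.2
  exact ⟨u.1, u.2, (congrArg Units.val hu).symm⟩

/-- Traces of operators factoring through a stable subspace. -/
theorem trace_through {W P : Type*} [AddCommGroup W] [Module ℂ W] [FiniteDimensional ℂ W]
    [AddCommGroup P] [Module ℂ P] [FiniteDimensional ℂ P] (inc : P →ₗ[ℂ] W) (X : W →ₗ[ℂ] P)
    (T : W →ₗ[ℂ] W) (T' : P →ₗ[ℂ] P) (hT : ∀ x, T (inc x) = inc (T' x)) :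
    trace ℂ W (T * (inc ∘ₗ X)) = trace ℂ P (T' * (X ∘ₗ inc)) := by
  rw [show T * (inc ∘ₗ X) = inc ∘ₗ (T' ∘ₗ X) from LinearMap.ext fun x => hT (X x),
    trace_comp_comm' (T' ∘ₗ X) inc]
  rfl

/-- The operator of a product is linear on forms of the space. -/
theorem exists_linear_finAct (hN : 0 < N) {L : (v : HeightOneSpectrum (𝓞 F)) → GL (Fin 2) (Kp F v) → ℂ}
    (hL : LocFam N L) (hV : ∀ φ ∈ V, CuspZero N φ) :
    ∃ Lin : Form F →ₗ[ℂ] Form F, ∀ φ ∈ V, Lin φ = finAct N (prodFun L) φ := by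
  refine ⟨∑ c ∈ suppSet hN hL, prodFun L c.out • Rt c.out, fun φ hφ => ?_⟩
  rw [finAct_eq_sum (fun u hu g => hL.prod_right_inv hu g) (hV φ hφ).aut (suppSet hN hL)
    (fun c hc => (mem_suppSet hN hL).2 hc) (fun c => c.out) fun c _ => QuotientGroup.out_eq' c]
  simp [LinearMap.sum_apply]

set_option maxHeartbeats 400000 in
/-- **The twisted trace of the test at the bad places is nonzero.** -/
theorem BadSetup.exists_trace_badFam_ne_zero (S : BadSetup τ N M x₀ i) (hV : SpaceHyp τ N V)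
    [FiniteDimensional ℂ V] {φ₀ : Form F} (hφ₀ : φ₀ ∈ V) {K₀ : ℝ → ℂ} {t0 : ℝ}
    (hK : RefMode K₀ t0)
    (hinv : ∀ w : (Af F)ˣ, (∀ v : HS, Valued.v ((w : Af F) v) = 1) → ∀ a,
      cf ⟨t0, hK.pos⟩ φ₀ (a * w) = cf ⟨t0, hK.pos⟩ φ₀ a)
    (htail : ∀ k, ∃ b : nsId τ N, Deep τ N k b ∧
      cf ⟨t0, hK.pos⟩ φ₀ (x₀ * (b : (Af F)ˣ)) ≠ 0) :
    ∃ (j : ℕ) (_ : 0 < j) (X T : V →ₗ[ℂ] V),
      (∀ φ : V, ((X φ : V) : Form F) = finAct N (prodFun (badFam τ N M x₀ j)) (φ : Form F)) ∧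
      (∀ φ : V, ((T φ : V) : Form F) = Tform τ (φ : Form F)) ∧
      LinearMap.trace ℂ V (T * X) ≠ 0 := by
  classical
  have hle : pinned τ N M x₀ ⟨t0, hK.pos⟩ V S.hN hV ≤ V := fun φ h => h.1
  haveI : FiniteDimensional ℂ (pinned τ N M x₀ ⟨t0, hK.pos⟩ V S.hN hV) :=
    Submodule.finiteDimensional_of_le hle
  have hπ : ∀ v, NsV τ N v → Valued.v (((piNs τ N S.hN : (Af F)ˣ) : Af F) v) < 1 := fun v hv => by
    rw [piNs, nsPart_apply τ N hv, natId_val]
    exact levN_lt_one hv.1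
  have hst := (S.traceHyp (s := (⟨t0, hK.pos⟩ : Set.Ioi (0 : ℝ))) hV).range_stable
    (S.hasShifts hV) hπ
  obtain ⟨φ₁, hinv₁, htail₁⟩ := S.exists_pinned_start hV hφ₀ hinv htail
  obtain ⟨j₀, hkill⟩ := S.exists_badOp_kill hV hK
  generalize hh : S.traceHyp (s := (⟨t0, hK.pos⟩ : Set.Ioi (0 : ℝ))) hV = h at hst
  -- the finite group of norm one units
  have hfin : (rangeTrans h hst '' (normUnits τ N : Set (nsId τ N))).Finite := by
    obtain ⟨R, hR, hrep⟩ := exists_finite_units (τ := τ) (F := F) S.hN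
    refine (hR.image fun r => rangeTrans h hst r.1).subset ?_
    rintro _ ⟨u, hu, rfl⟩
    obtain ⟨r, hr, hd⟩ := hrep ⟨u, hu.1⟩
    exact ⟨r, hr, (rangeTrans_congr h hst hu.1 r.2 hd).symm⟩
  obtain ⟨G, _, _, ρB, hBu, huB⟩ := exists_image_group (rangeTrans h hst) (normUnits τ N) hfin
  obtain ⟨j, hj, hne⟩ := exists_range_trace_ne_zero h hst (piNs τ N S.hN) ρB
    (fun x => by
      obtain ⟨u, hu, e⟩ := hBu x
      exact ⟨u, hu.1, e⟩) φ₁ hinv₁ htail₁ (max j₀ 1)
  have hj0 : 0 < j := lt_of_lt_of_le one_pos ((le_max_right _ _).trans hj)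
  have hQ : ∀ v, NsV τ N v → UpRep N v (omegaAt (τ : F →+* F) N j v) (QBad τ N j v) :=
    fun v h => upRep_omegaAt S hj0 h
  obtain ⟨p, hp⟩ := exists_repMap S.hN hQ (fun v h => upRep_eAt S h) (S.locFam_bad hj0)
  have hB := sum_rho_eq_smul_repAvg (rangeTrans h hst) ρB
    (normUnits τ N : Set (nsId τ N)) hBu huB (suppSet S.hN (S.locFam_bad hj0))
    (fun c => nsPart τ N (p c).1) (piNs τ N S.hN) j
    (fun c hc => S.inv_mul_mem_normUnits (hp c hc).2)
    fun u hu => S.rangeTrans_mul_sum h hst hj0 hp hu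
  -- the operators
  obtain ⟨Lin, hLin⟩ := exists_linear_finAct S.hN (S.locFam_bad hj0) hV.cusp
  have hmemP : ∀ φ : V, (Lin.comp V.subtype) φ ∈ pinned τ N M x₀ ⟨t0, hK.pos⟩ V S.hN hV :=
    fun φ => by
      rw [LinearMap.comp_apply, Submodule.subtype_apply, hLin _ φ.2]
      exact S.finAct_mem_pinned hV hQ (S.locFam_bad hj0) φ.2
  refine ⟨j, hj0, Submodule.inclusion hle ∘ₗ (Lin.comp V.subtype).codRestrict _ hmemP,
    (Tform τ).restrict fun φ hφ => hV.twist_mem φ hφ, fun φ => hLin _ φ.2, fun φ => rfl, ?_⟩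
  rw [trace_through (Submodule.inclusion hle) ((Lin.comp V.subtype).codRestrict _ hmemP)
    ((Tform τ).restrict fun φ hφ => hV.twist_mem φ hφ)
    ((Tform τ).restrict fun φ hφ => h.twist_mem φ hφ) fun x => rfl]
  set A := (Lin.comp V.subtype).codRestrict _ hmemP ∘ₗ Submodule.inclusion hle
  have hA : ∀ φ, ((A φ : pinned τ N M x₀ ⟨t0, hK.pos⟩ V S.hN hV) : Form F) =
      finAct N (prodFun (badFam τ N M x₀ j)) (φ : Form F) := fun φ => hLin _ (hle φ.2)
  clear_value A
  have hgA : ∀ φ, h.germ.rangeRestrict (A φ) =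
      (∑ c ∈ suppSet S.hN (S.locFam_bad hj0), rangeTrans h hst (nsPart τ N (p c).1))
        (h.germ.rangeRestrict φ) := fun φ => by
    refine Subtype.ext ?_
    rw [LinearMap.sum_apply, Submodule.coe_sum]
    simp only [rangeTrans_val]
    exact S.germ_badOp hV hj0 hp φ (A φ) (hA φ)
  rw [trace_eq_trace_range h.germ _ (rangeTwist h *
      ∑ c ∈ suppSet S.hN (S.locFam_bad hj0), rangeTrans h hst (nsPart τ N (p c).1))
    (fun φ => by
      rw [Module.End.mul_apply, Module.End.mul_apply, germ_Tform h _ (fun φ => rfl), hgA])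
    ⟨1, fun φ hφ => by
      rw [pow_one, Module.End.mul_apply,
        hkill j ((le_max_left _ _).trans hj) hj0 p hp φ (A φ) (hA φ) hφ, map_zero]⟩,
    hB, mul_smul_comm, map_smul, smul_eq_mul]
  exact mul_ne_zero (Nat.cast_ne_zero.2 (S.suppSet_bad_nonempty hj0).card_ne_zero) hne

end FLTAgent.LT.TraceTheta
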