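import Fermat.Agent.LT.TF.Trace.Setup
import Fermat.Agent.LT.TF.Trace.Test
import Fermat.Agent.LT.TF.Spaces

/-!
A level, a matched pair of bad factors and operators on the split space with nonzero twisted trace.
-/

set_option autoImplicit false
set_option linter.unusedSectionVars false
set_option linter.style.haveILetI false
set_option synthInstance.maxHeartbeats 400000

noncomputable section

namespace FLTAgent.LT.Descent

open NumberField IsDedekindDomain
open FLTAgent.LT.Match FLTAgent.LT.RS FLTAgent.LT.Red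
open FLTAgent.LT.TraceTheta (NsV Deep nsId cf BadSetup)

variable {d : Octa}

/-- A form with a nonzero coefficient is nonzero somewhere. -/
theorem exists_ne_zero_of_cf {M : ℕ} (hM : 0 < M) {φ : Form d.Mf} (hφ : CuspZero M φ)
    {s : Set.Ioi (0 : ℝ)} {a : (Af d.Mf)ˣ} (ha : cf s φ a ≠ 0) : ∃ x g, φ x g ≠ 0 := by
  by_contra h
  push Not at h
  have e : φ = 0 := funext fun x => funext fun g => h x g
  have h2 := TraceTheta.cf_smul_add (s := s) hM hφ hφ 1 a
  rw [show (1 : ℂ) • φ + φ = φ by rw [e, smul_zero, add_zero]] at h2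
  refine ha ?_
  linear_combination -h2

/-- **The bad factors with a nonzero twisted trace.** -/
theorem exists_badPair_trace (d : Octa) (hrec : CyclicReciprocity) :
    ∃ (N j : ℕ) (LM : ∀ w, GL (Fin 2) (Kp d.Mf w) → ℂ)
      (LK : ∀ v, GL (Fin 2) (Kp d.Kf v) → ℂ),
      d.Good N ∧ 0 < j ∧
      BadPair d N j LM LK ∧
      ∃ X T : splitSpace d N →ₗ[ℂ] splitSpace d N,
        (∀ φ : splitSpace d N, ((X φ : splitSpace d N) : Form d.Mf) =
          TraceTheta.finAct N (prodFun LM) (φ : Form d.Mf)) ∧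
        (∀ φ : splitSpace d N, ((T φ : splitSpace d N) : Form d.Mf) =
          TraceTheta.Tform (tauE d).symm (φ : Form d.Mf)) ∧
        LinearMap.trace ℂ (splitSpace d N) (T * X) ≠ 0 := by
  obtain ⟨P, M₁, x₀, φ₀, hgood, hq, h3, S, hc, he, hinv, htail⟩ := exists_witness d hrec
  set N := M₁ * M₁ with hNdef
  have hN : d.Good N := good_mul hgood hgood.1
  have h9 : 9 ∣ N := by
    rw [show (9 : ℕ) = 3 * 3 from rfl]
    exact Nat.mul_dvd_mul hgood.2.1 hgood.2.1
  obtain ⟨C⟩ := exists_choice hN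
  haveI : Countable (Cos d.Mf N) := Red.countable_cos (F := d.Mf) hN.1
  haveI : FiniteDimensional ℂ (splitSpace d N) :=
    C.finiteDimensional_forms (S.locFam_bad one_pos) _ fun _ hφ => (mem_splitSpace hN.1).1 hφ
  obtain ⟨b₁, -, hb₁⟩ := htail ⟨1, Set.mem_Ioi.2 one_pos⟩ 0
  obtain ⟨x, g, hxg⟩ := exists_ne_zero_of_cf hgood.1 hc hb₁
  obtain ⟨K₀, t0, hK⟩ := exists_refMode hgood.1 hc hxg
  obtain ⟨j, hj, X, T, hX, hT, htr⟩ := S.exists_trace_badFam_ne_zero (spaceHyp_splitSpace hN)
    (mem_of_good_level hc he hNdef) hK (hinv _) (htail _)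
  exact ⟨N, j, TraceTheta.badFam (tauE d).symm N M₁ x₀ j, _, hN, hj,
    badPair_badFam S h3 h9 hq hj, X, T, hX, hT, htr⟩

end FLTAgent.LT.Descent
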