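import Fermat.Agent.LT.TF.Trace.BadFam
import Fermat.Agent.LT.TF.Trace.Stable

/-!
The subspace of a stable space of cusp forms pinned to the base idele at the moved bad places, and
the operators into it.
-/

set_option autoImplicit false
set_option linter.unusedSectionVars false
set_option linter.style.haveILetI false

noncomputable section

namespace FLTAgent.LT.TraceTheta

open NumberField IsDedekindDomain
open FLTAgent.LT.Match FLTAgent.LT.Red FLTAgent.LT.RS

local notation "Γ₀" => WithZero (Multiplicative ℤ)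

variable {F : Type} [Field F] [NumberField F] [PinSel F] [IsTotallyComplex F]

local notation "HS" => HeightOneSpectrum (𝓞 F)

/-- A space of cusp forms stable under the twist, the good Hecke operators and the finite operators
supported at the bad places. -/
structure SpaceHyp (τ : F ≃+* F) (N : ℕ) (V : Submodule ℂ (Form F)) : Prop where
  cusp : ∀ φ ∈ V, CuspZero N φ
  twist_mem : ∀ φ ∈ V, Tform τ φ ∈ V
  hecke_mem : ∀ v : HS, (N : 𝓞 F) ∉ v.asIdeal → ∀ φ ∈ V, hecke v φ ∈ V
  hecke_below : ∀ v : HS, (N : 𝓞 F) ∉ v.asIdeal → ∀ φ ∈ V, hecke (below τ v) φ = hecke v φ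
  fin_mem : ∀ f : GF F → ℂ, (∀ u ∈ UZ F N, ∀ g, f (g * u) = f g) →
    (∀ u ∈ UZ F N, ∀ g, f (u * g) = f g) →
    ((QuotientGroup.mk : GF F → Cos F N) '' Function.support f).Finite →
    (∀ c : Cos F N, f c.out ≠ 0 → ∃ r : GF F, (r : Cos F N) = c ∧
      ∀ v : HS, (N : 𝓞 F) ∉ v.asIdeal → Red.loc v (r : Matrix (Fin 2) (Fin 2) (Af F)) = 1) →
    ∀ φ ∈ V, finAct N f φ ∈ V

variable {τ : F ≃+* F} {N M : ℕ} {x₀ : (Af F)ˣ} {s : Set.Ioi (0 : ℝ)}
  {V : Submodule ℂ (Form F)}
  {L : (v : HeightOneSpectrum (𝓞 F)) → GL (Fin 2) (Kp F v) → ℂ}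
  {A B : (v : HeightOneSpectrum (𝓞 F)) → GL (Fin 2) (Kp F v) → ℂ}
  {Q R : (v : HeightOneSpectrum (𝓞 F)) → (Kp F v)ˣ → Kp F v → Prop}

/-- The cosets in the support of a product. -/
def suppSet (hN : 0 < N) (hL : LocFam N L) : Finset (Cos F N) := (hL.prod_finite hN).toFinset

theorem mem_suppSet (hN : 0 < N) (hL : LocFam N L) {c : Cos F N} :
    c ∈ suppSet hN hL ↔ prodFun L c.out ≠ 0 := by
  rw [suppSet, Set.Finite.mem_toFinset]
  refine ⟨?_, fun h => ⟨c.out, h, QuotientGroup.out_eq' c⟩⟩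
  rintro ⟨g, hg, rfl⟩
  obtain ⟨u, hu⟩ := QuotientGroup.mk_out_eq_mul (UZ F N) g
  rw [hu, hL.prod_right_inv u.2]
  exact hg

/-- Upper triangular representatives of the support, one for every coset. -/
def RepMap (τ : F ≃+* F) (N : ℕ) (Q R : (v : HeightOneSpectrum (𝓞 F)) → (Kp F v)ˣ → Kp F v → Prop)
    (C : Finset (Cos F N)) (p : Cos F N → (Af F)ˣ × Af F) : Prop :=
  ∀ c ∈ C, ((upperGF (p c).1 (p c).2 : GF F) : Cos F N) = c ∧ Reps τ N Q R (p c).1 (p c).2

theorem exists_repMap (hN : 0 < N) (hA : ∀ v, NsV τ N v → UpRep N v (A v) (Q v))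
    (hB : ∀ v, SpV τ N v → UpRep N v (B v) (R v)) (hL : LocFam N (mkFam τ N A B)) :
    ∃ p, RepMap τ N Q R (suppSet hN hL) p := by
  classical
  have key : ∀ c ∈ suppSet hN hL, ∃ α β, ((upperGF α β : GF F) : Cos F N) = c ∧
      Reps τ N Q R α β := fun c hc => by
    obtain ⟨α, β, h1, h2⟩ := exists_reps hN hA hB hL ((mem_suppSet hN hL).1 hc)
    exact ⟨α, β, h1.trans (QuotientGroup.out_eq' c), h2⟩
  choose! α β h using key
  exact ⟨fun c => (α c, β c), h⟩

theorem SpaceHyp.mem_fam (hV : SpaceHyp τ N V) (hN : 0 < N)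
    (hA : ∀ v, NsV τ N v → UpRep N v (A v) (Q v)) (hB : ∀ v, SpV τ N v → UpRep N v (B v) (R v))
    (hL : LocFam N (mkFam τ N A B)) {φ : Form F} (hφ : φ ∈ V) :
    finAct N (prodFun (mkFam τ N A B)) φ ∈ V := by
  refine hV.fin_mem _ (fun u hu g => hL.prod_right_inv hu g) (fun u hu g => hL.prod_left_inv hu g)
    (hL.prod_finite hN) (fun c hc => ?_) φ hφ
  obtain ⟨α, β, h1, h2⟩ := exists_reps hN hA hB hL hc
  exact ⟨upperGF α β, h1.trans (QuotientGroup.out_eq' c), fun v hv => loc_upperGF_of_reps h2 hv⟩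

/-- Coefficients of the operator of a product. -/
theorem cf_finAct (hN : 0 < N) (hL : LocFam N L) {φ : Form F} (hφ : CuspZero N φ)
    {p : Cos F N → (Af F)ˣ × Af F}
    (hp : ∀ c ∈ suppSet hN hL, ((upperGF (p c).1 (p c).2 : GF F) : Cos F N) = c) (a : (Af F)ˣ) :
    cf s (finAct N (prodFun L) φ) a = ∑ c ∈ suppSet hN hL,
      prodFun L (upperGF (p c).1 (p c).2) * chi ((a : Af F) * (p c).2) * cf s φ (a * (p c).1) := by
  rw [finAct_eq_sum (fun u hu g => hL.prod_right_inv hu g) hφ.aut (suppSet hN hL)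
    (fun c hc => (mem_suppSet hN hL).2 hc) (fun c => upperGF (p c).1 (p c).2) hp,
    cf_sum_Rt s hN _ _ _ hφ]
  exact Finset.sum_congr rfl fun c _ => by rw [cf_Rt_upper s hN hφ]; ring

theorem smul_Rt_finAct (hL : LocFam N L) {φ : Form F} (hφ : CuspZero N φ) {h : GF F} {κ : ℂ}
    (hκ : ∀ g, prodFun L (h * g) = κ * prodFun L g) :
    κ • Rt h (finAct N (prodFun L) φ) = finAct N (prodFun L) φ := by
  funext x g
  rw [Pi.smul_apply, Pi.smul_apply, Rt_apply, smul_eq_mul]
  exact finAct_translate (fun u hu y => hL.prod_right_inv hu y) hφ.aut hκ x g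

variable (τ N M x₀ s) in
/-- Coefficients concentrated near the base idele at the moved bad places. -/
def PinCond (φ : Form F) : Prop :=
  ∀ a : (Af F)ˣ, cf s φ a ≠ 0 → ∀ v : HS, SpV τ N v →
    Valued.v ((a : Af F) v / (x₀ : Af F) v - 1) ≤ radA M v ∧
      Valued.v ((a : Af F) v) = Valued.v ((x₀ : Af F) v)

variable (τ N M s) in
/-- Coefficients invariant under units congruent to one at the moved bad places. -/
def InvCond (φ : Form F) : Prop :=
  ∀ a u : (Af F)ˣ, (∀ v, ¬ SpV τ N v → (u : Af F) v = 1) →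
    (∀ v, SpV τ N v → Valued.v ((u : Af F) v - 1) ≤ radA M v ∧
      Valued.v ((u : Af F) v) = 1) → cf s φ (a * u) = cf s φ a

variable {K : Type} [Field K] [NumberField K] {i : K →+* F}

/-- The character pins the coefficients. -/
theorem BadSetup.pinCond_of (S : BadSetup τ N M x₀ i) (hL : LocFam N L)
    (hsp : ∀ v, SpV τ N v → L v = eAt M x₀ v) {φ : Form F} (hφ : CuspZero N φ)
    (hX : CuspZero N (finAct N (prodFun L) φ)) :
    PinCond τ N M x₀ s (finAct N (prodFun L) φ) := by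
  classical
  intro a ha v hv
  have hm := S.radA_lt hv.1
  have hx0 := S.x0_sp v hv
  have hx0' : (x₀ : Af F) v ≠ 0 := unit_apply_ne_zero _ _
  have key : ∀ β : Kp F v, Valued.v β ≤ radB M v →
      chiAt v (((a : Af F) v - (x₀ : Af F) v) * β) = 1 := by
    intro β hβ
    set h : GF F := upperGF 1 (adeleSingle v β)
    have hloc : ∀ w, locGF w h = upK 1 (adeleSingle v β w) := fun w => by
      rw [locGF_upperGF, map_one]
    set κ : HS → ℂ := fun w => if w = v then chiAt v (-((x₀ : Af F) v * β)) else 1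
    have hH : ∀ g, prodFun L (h * g) = chiAt v (-((x₀ : Af F) v * β)) * prodFun L g := fun g => by
      rw [prodFun_translate hL h κ ((Set.finite_singleton v).subset fun w hw => by
          by_contra hwv
          exact hw (if_neg hwv)) (fun w y => ?_) g,
        finprod_eq_single κ v fun w hw => if_neg hw]
      · simp only [κ, if_pos]
      · rcases eq_or_ne w v with rfl | hwv
        · rw [hloc, adeleSingle_same, hsp w hv]
          simp only [κ, if_pos]
          exact S.eAt_upK_mul hv hβ y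
        · rw [hloc, adeleSingle_ne _ hwv, upK_one_zero, one_mul]
          simp only [κ, if_neg hwv, one_mul]
    have e := congrArg (fun ψ => cf s ψ a) (smul_Rt_finAct hL hφ hH)
    have e1 : cf s (chiAt v (-((x₀ : Af F) v * β)) • Rt h (finAct N (prodFun L) φ)) a =
        chiAt v (-((x₀ : Af F) v * β)) * cf s (Rt h (finAct N (prodFun L) φ)) a := by
      simpa using cf_sum_Rt s S.hN (Finset.univ : Finset Unit)
        (fun _ => chiAt v (-((x₀ : Af F) v * β))) (fun _ => h) hX a
    simp only [e1, h, cf_Rt_upper s S.hN hX, mul_one] at e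
    rw [mul_comm (a : Af F), adeleSingle_mul, ← mul_assoc,
      show chi (adeleSingle v (β * (a : Af F) v)) = chiAt v (β * (a : Af F) v) from rfl,
      ← chiAt_add] at e
    rw [show ((a : Af F) v - (x₀ : Af F) v) * β = -((x₀ : Af F) v * β) + β * (a : Af F) v by ring]
    exact mul_right_cancel₀ ha (e.trans (one_mul _).symm)
  set y := (a : Af F) v - (x₀ : Af F) v
  obtain ⟨z, hz⟩ : ∃ z : Kp F v, Valued.v z = radB M v := by
    obtain ⟨z, hz⟩ := HeightOneSpectrum.valuation_surjective F v (radB M v)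
    exact ⟨(z : Kp F v), by rw [HeightOneSpectrum.adicCompletion.valued_coe, hz]⟩
  have hy : Valued.v y ≤ Valued.v ((x₀ : Af F) v) * radA M v := by
    have h1 : Valued.v (y * z) ≤ Valued.v ((diffId (F := F) : Af F) v) :=
      le_of_chiAt_eq_one fun c hc => by
        rw [mul_assoc]
        refine key _ ?_
        rw [map_mul, hz]
        exact mul_le_of_le_one_right' hc
    rw [map_mul, hz, ← hx0, ← mul_assoc] at h1
    exact le_of_mul_le_mul_right h1 (zero_lt_iff.2 (S.radB_ne v))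
  have hq : Valued.v ((a : Af F) v / (x₀ : Af F) v - 1) ≤ radA M v := by
    rw [div_sub_one hx0', map_div₀]
    exact (div_le_iff₀ (zero_lt_iff.2 ((map_ne_zero _).2 hx0'))).2 (by rwa [mul_comm])
  refine ⟨hq, ?_⟩
  have h1 := v_eq_one_of_sub hm hq
  rwa [map_div₀, div_eq_one_iff_eq ((map_ne_zero _).2 hx0')] at h1

/-- The congruence units fix the coefficients. -/
theorem BadSetup.invCond_of (S : BadSetup τ N M x₀ i) (hL : LocFam N L)
    (hsp : ∀ v, SpV τ N v → L v = eAt M x₀ v) {φ : Form F} (hφ : CuspZero N φ)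
    (hX : CuspZero N (finAct N (prodFun L) φ)) :
    InvCond τ N M s (finAct N (prodFun L) φ) := by
  intro a u hu hu'
  set h : GF F := upperGF u 0
  have hH : ∀ g, prodFun L (h * g) = 1 * prodFun L g := fun g => by
    rw [prodFun_translate hL h (fun _ => 1) (by simp) (fun w y => ?_) g, finprod_one]
    rw [one_mul, locGF_upperGF, show ((0 : Af F) w) = 0 from rfl]
    change L w (upK (evU w u) 0 * y) = _
    by_cases hw : SpV τ N w
    · have e : upK (evU w u) (0 : Kp F w) = dg (evU w u, 1) := by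
        rw [upK_eq_mul_dg, upK_one_zero, one_mul]
      rw [e, hsp w hw]
      exact S.eAt_dg_mul hw (u := evU w u) (hu' w hw).1 y
    · rw [show evU w u = 1 from Units.ext (hu w hw), upK_one_zero, one_mul]
  have e := congrArg (fun ψ => cf s ψ a) (smul_Rt_finAct hL hφ hH)
  simpa [h, cf_Rt_upper s S.hN hX, chi_zero] using e

variable (τ N M x₀ s V) in
/-- The pinned subspace. -/
def pinned (hN : 0 < N) (hV : SpaceHyp τ N V) : Submodule ℂ (Form F) where
  carrier := {φ | φ ∈ V ∧ PinCond τ N M x₀ s φ ∧ InvCond τ N M s φ}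
  zero_mem' := by
    have h0 : ∀ a, cf s (0 : Form F) a = 0 := fun a => by
      simpa using cf_smul_add hN (hV.cusp _ (zero_mem V)) (hV.cusp _ (zero_mem V)) 1 a (s := s)
    exact ⟨zero_mem V, fun a ha => absurd (h0 a) ha, fun a u _ _ => by rw [h0, h0]⟩
  add_mem' {φ ψ} hφ hψ := by
    have e : ∀ a, cf s (φ + ψ) a = cf s φ a + cf s ψ a := fun a => by
      simpa using cf_smul_add hN (hV.cusp _ hφ.1) (hV.cusp _ hψ.1) 1 a (s := s)
    refine ⟨add_mem hφ.1 hψ.1, fun a ha v hv => ?_, fun a u h h' => by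
      rw [e, e, hφ.2.2 a u h h', hψ.2.2 a u h h']⟩
    by_cases h1 : cf s φ a = 0
    · exact hψ.2.1 a (fun h2 => ha (by rw [e, h1, h2, add_zero])) v hv
    · exact hφ.2.1 a h1 v hv
  smul_mem' c φ hφ := by
    have h0 : ∀ a, cf s (0 : Form F) a = 0 := fun a => by
      simpa using cf_smul_add hN (hV.cusp _ (zero_mem V)) (hV.cusp _ (zero_mem V)) 1 a (s := s)
    have e : ∀ a, cf s (c • φ) a = c * cf s φ a := fun a => by
      simpa [h0] using cf_smul_add hN (hV.cusp _ hφ.1) (hV.cusp _ (zero_mem V)) c a (s := s)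
    exact ⟨V.smul_mem c hφ.1, fun a ha => hφ.2.1 a fun h => ha (by rw [e, h, mul_zero]),
      fun a u h h' => by rw [e, e, hφ.2.2 a u h h']⟩

theorem mem_pinned {hN : 0 < N} {hV : SpaceHyp τ N V} {φ : Form F} :
    φ ∈ pinned τ N M x₀ s V hN hV ↔ φ ∈ V ∧ PinCond τ N M x₀ s φ ∧ InvCond τ N M s φ :=
  Iff.rfl

theorem BadSetup.finAct_mem_pinned (S : BadSetup τ N M x₀ i) (hV : SpaceHyp τ N V)
    (hA : ∀ v, NsV τ N v → UpRep N v (A v) (Q v)) (hL : LocFam N (mkFam τ N A (eAt M x₀)))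
    {φ : Form F} (hφ : φ ∈ V) :
    finAct N (prodFun (mkFam τ N A (eAt M x₀))) φ ∈ pinned τ N M x₀ s V S.hN hV := by
  have hm := hV.mem_fam S.hN hA (fun _ h => upRep_eAt S h) hL hφ
  exact ⟨hm, S.pinCond_of hL (fun v h => mkFam_sp h) (hV.cusp _ hφ) (hV.cusp _ hm),
    S.invCond_of hL (fun v h => mkFam_sp h) (hV.cusp _ hφ) (hV.cusp _ hm)⟩

/-- The radius is invariant under the twist. -/
theorem BadSetup.radA_below (S : BadSetup τ N M x₀ i) (w : HS) :
    radA M (below τ w) = radA M w := by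
  by_cases h : below τ w = w
  · rw [h]
  · rw [radA_of_not_pin fun hp => h (below_injective τ (S.pin_fix _ hp).1),
      radA_of_not_pin fun hp => h (S.pin_fix _ hp).1, levN_eq, levN_eq]
    exact valued_natCast_below τ M w

/-- The pinned subspace satisfies the hypotheses of the twisted trace on germs. -/
theorem BadSetup.traceHyp (S : BadSetup τ N M x₀ i) (hV : SpaceHyp τ N V) :
    TraceHyp τ N M x₀ s (pinned τ N M x₀ s V S.hN hV) where
  hN := S.hN
  cusp φ hφ := hV.cusp φ hφ.1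
  x0_ns := S.x0_ns
  x0_val := S.x0_good
  x0_le := S.x0_le
  x0_twist := S.x0_twist
  pin φ hφ := hφ.2.1
  inv φ hφ := hφ.2.2
  hecke_below v hv φ hφ := hV.hecke_below v hv φ hφ.1
  twist_mem φ hφ := by
    have hc := hV.cusp φ hφ.1
    refine ⟨hV.twist_mem φ hφ.1, fun a ha v hv => ?_, fun a u hu hu' => ?_⟩
    · obtain ⟨w, rfl⟩ := below_surjective τ v
      have hw : SpV τ N w :=
        ⟨(natCast_mem_below τ N w).1 hv.1, fun h => hv.2 (by rw [h.1]; exact h)⟩
      rw [cf_Tform τ S.hN s hc] at ha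
      obtain ⟨h1, h2⟩ := hφ.2.1 _ ha w hw
      refine ⟨?_, ?_⟩
      · have e : Valued.v ((((Tu τ (a * x₀⁻¹) : (Af F)ˣ) : Af F) - 1) w) =
            Valued.v ((a : Af F) (below τ w) / (x₀ : Af F) (below τ w) - 1) := by
          rw [show ((Tu τ (a * x₀⁻¹) : (Af F)ˣ) : Af F) - 1 =
              Ta τ (((a * x₀⁻¹ : (Af F)ˣ) : Af F) - 1) by rw [map_sub, map_one]; rfl,
            valued_Ta, af_sub_apply, af_unit_mul_apply, af_unit_inv_apply, div_eq_mul_inv]
          rfl
        rw [← e, map_mul, map_inv, af_sub_apply, af_unit_mul_apply, af_unit_inv_apply,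
          S.x0_twist w hw, ← div_eq_mul_inv, S.radA_below]
        exact h1
      · rw [← valued_Ta τ (a : Af F) w, ← valued_Ta τ (x₀ : Af F) w]
        show Valued.v ((Tu τ a : Af F) w) = Valued.v ((Tu τ x₀ : Af F) w)
        rw [S.x0_twist w hw]
        exact h2
    · rw [cf_Tform τ S.hN s hc, cf_Tform τ S.hN s hc, map_mul]
      refine hφ.2.2 _ _ (fun w hw => Tu_apply_eq_one (hu _ fun h => hw ⟨(natCast_mem_below τ N w).1
        h.1, fun h' => h.2 (by rw [h'.1]; exact h')⟩)) fun w hw => ?_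
      have hv : SpV τ N (below τ w) := ⟨(natCast_mem_below τ N w).2 hw.1, fun h => hw.2 (by
        have e := below_injective τ h.1
        rwa [e] at h)⟩
      obtain ⟨h1, h2⟩ := hu' _ hv
      refine ⟨?_, by rw [Tu_apply_valued]; exact h2⟩
      have e : (Tu τ u : Af F) w - 1 = Ta τ ((u : Af F) - 1) w := by
        rw [map_sub, map_one]; rfl
      rw [e, valued_Ta, ← S.radA_below w]
      exact h1
  hecke_mem w hw φ hφ := by
    have hc := hV.cusp φ hφ.1
    have hne : ∀ v, SpV τ N v → v ≠ w := fun v hv e => hw (e ▸ hv.1)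
    refine ⟨hV.hecke_mem w hw φ hφ.1, fun a ha v hv => ?_, fun a u hu hu' => ?_⟩
    · have h1 := unifIdele_apply_ne (hne v hv)
      rw [cf_hecke s S.hN hc] at ha
      by_cases hz : cf s φ (a * unifIdele w) = 0
      · rw [hz, mul_zero, zero_add] at ha
        have := hφ.2.1 _ ha v hv
        rwa [af_unit_mul_apply, af_unit_inv_apply, h1, inv_one, mul_one] at this
      · have := hφ.2.1 _ hz v hv
        rwa [af_unit_mul_apply, h1, mul_one] at this
    · have huw : (u : Af F) w = 1 := hu w fun h => hw h.1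
      have e : ∀ y : Kp F w, ((a * u : (Af F)ˣ) : Af F) * adeleSingle w y =
          (a : Af F) * adeleSingle w y := fun y => by
        rw [Units.val_mul, mul_assoc, mul_comm (u : Af F), adeleSingle_mul, huw, mul_one]
      rw [cf_hecke s S.hN hc, cf_hecke s S.hN hc,
        show a * u * unifIdele w = a * unifIdele w * u by ac_rfl,
        show a * u * (unifIdele w)⁻¹ = a * (unifIdele w)⁻¹ * u by ac_rfl,
        hφ.2.2 _ u hu hu', hφ.2.2 _ u hu hu']
      simp only [e]

/-- Shifts on the pinned subspace. -/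
theorem BadSetup.hasShifts (S : BadSetup τ N M x₀ i) (hV : SpaceHyp τ N V) :
    HasShifts τ N s (pinned τ N M x₀ s V S.hN hV) := by
  classical
  intro g hg φ
  have hc := hV.cusp _ φ.2.1
  have hA : ∀ v, NsV τ N v → UpRep N v (shiftFn (levN v N) (evU v (g : (Af F)ˣ)))
      (QShift N (g : (Af F)ˣ) v) := fun v h => upRep_shiftFn _ h.1 (hg v h)
  have hB : ∀ v, SpV τ N v → UpRep N v (unitFn (levN v N)) (QOne v) :=
    fun v _ => upRep_unitFn N v
  have hL : LocFam N (shiftFam τ N (g : (Af F)ˣ)) := locFam_shift S.hN _ hg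
  obtain ⟨p, hp⟩ := exists_repMap S.hN hA hB hL
  set C := suppSet S.hN hL
  have hα : ∀ c ∈ C, (p c).1 = (g : (Af F)ˣ) := fun c hc' => af_unit_ext fun v => by
    have h := (hp c hc').2 v
    rcases bad_cases τ N v with hb | hb | hb
    · rw [← evU_val, (h.2.2 hb).1, Units.val_one, g.2 v fun h' => hb h'.1]
    · rw [← evU_val, (h.1 hb).1, evU_val]
    · rw [← evU_val, (h.2.1 hb).1, Units.val_one, g.2 v fun h' => hb.2 h'.2]
  have hval : ∀ c ∈ C, prodFun (shiftFam τ N (g : (Af F)ˣ)) (upperGF (p c).1 (p c).2) = 1 :=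
    fun c hc' => by
      rw [prodFun_upperGF]
      exact finprod_eq_one_of_forall_eq_one fun v => shiftFam_upK _ ((hp c hc').2 v)
  set ψ : Form F := finAct N (prodFun (shiftFam τ N (g : (Af F)ˣ))) (φ : Form F)
  have hψV : ψ ∈ V := hV.mem_fam S.hN hA hB hL φ.2.1
  have hcf : ∀ a, cf s ψ a =
      (∑ c ∈ C, chi ((a : Af F) * (p c).2)) * cf s (φ : Form F) (a * (g : (Af F)ˣ)) := fun a => by
    rw [cf_finAct S.hN hL hc (fun c hc' => (hp c hc').1), Finset.sum_mul]
    exact Finset.sum_congr rfl fun c hc' => by rw [hval c hc', hα c hc', one_mul]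
  have hβ : ∀ c ∈ C, ∀ v, Valued.v ((p c).2 v) ≤ levN v N := fun c hc' v => by
    have h := (hp c hc').2 v
    rcases bad_cases τ N v with hb | hb | hb
    · rw [(h.2.2 hb).2, map_zero]; exact zero_le
    · exact (h.1 hb).2
    · rw [(h.2.1 hb).2, map_zero]; exact zero_le
  have hgsp : ∀ v, SpV τ N v → ((g : (Af F)ˣ) : Af F) v = 1 := fun v hv => g.2 v fun h => hv.2 h.2
  have hmem : ψ ∈ pinned τ N M x₀ s V S.hN hV := by
    refine ⟨hψV, fun a ha v hv => ?_, fun a u hu hu' => ?_⟩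
    · rw [hcf] at ha
      have := φ.2.2.1 _ (right_ne_zero_of_mul ha) v hv
      rwa [af_unit_mul_apply, hgsp v hv, mul_one] at this
    · rw [hcf, hcf, show a * u * (g : (Af F)ˣ) = a * (g : (Af F)ˣ) * u by ac_rfl,
        φ.2.2.2 _ u hu hu']
      congr 1
      refine Finset.sum_congr rfl fun c hc' => congrArg chi (FiniteAdeleRing.ext F fun v => ?_)
      rw [af_mul_apply, af_mul_apply, af_unit_mul_apply]
      by_cases hv : SpV τ N v
      · rw [((hp c hc').2 v).2.1 hv |>.2, mul_zero, mul_zero]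
      · rw [hu v hv, mul_one]
  set ν := natId F N S.hN
  set e := C.equivFin
  refine ⟨⟨ψ, hmem⟩, C.card, fun k => ((ν⁻¹ : (Af F)ˣ) : Af F) * (p (e.symm k)).2, ?_, fun k v => ?_,
    fun a => ?_⟩
  · refine Finset.card_pos.2 ⟨((upperGF (g : (Af F)ˣ) 0 : GF F) : Cos F N), ?_⟩
    rw [mem_suppSet]
    obtain ⟨u, hu⟩ := QuotientGroup.mk_out_eq_mul (UZ F N) (upperGF (g : (Af F)ˣ) 0 : GF F)
    rw [hu, hL.prod_right_inv u.2, prodFun_upperGF, finprod_eq_one_of_forall_eq_one fun v =>
      shiftFam_upK (g : (Af F)ˣ) ?_]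
    · exact one_ne_zero
    · refine ⟨fun _ => ⟨rfl, ?_⟩, fun h => ⟨Units.ext (hgsp v h), rfl⟩, fun h =>
        ⟨Units.ext (g.2 v fun h' => h h'.1), rfl⟩⟩
      rw [show ((0 : Af F) v) = 0 from rfl, map_zero]
      exact zero_le
  · rw [af_mul_apply, map_mul, valued_inv, natId_val]
    exact (inv_mul_le_iff₀ (zero_lt_iff.2 (levN_ne_zero v S.hN))).2
      ((hβ _ (e.symm k).2 v).trans_eq (mul_one _).symm)
  · show cf s ψ a = _
    rw [hcf, ← Finset.sum_coe_sort C, ← e.symm.sum_comp]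
    congr 1
    refine Finset.sum_congr rfl fun k _ => congrArg chi ?_
    rw [← natId_val N S.hN, ← mul_assoc (ν : Af F), Units.mul_inv, one_mul]

end FLTAgent.LT.TraceTheta
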