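import Fermat.Agent.LT.TF.Trace.Shift

/-!
The space of germs of a space of forms: translations, twist, and the induced operators.
-/

set_option autoImplicit false
set_option linter.style.haveILetI false
set_option linter.unusedSectionVars false

noncomputable section

namespace FLTAgent.LT.TraceTheta

open NumberField IsDedekindDomain WithZero LinearMap
open FLTAgent.LT.RS FLTAgent.LT.Red

variable {F : Type} [Field F] [NumberField F] [PinSel F] [IsTotallyComplex F]

local notation "HS" => HeightOneSpectrum (𝓞 F)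

variable {τ : F ≃+* F} {N M : ℕ} {x₀ : (Af F)ˣ} {s : Set.Ioi (0 : ℝ)} {V : Submodule ℂ (Form F)}
  (h : TraceHyp τ N M x₀ s V)
  (hst : ∀ g : nsId τ N, ∀ x ∈ LinearMap.range h.germ, transQ τ N h.hN g x ∈ LinearMap.range h.germ)

include hst in
theorem transQ_stable (g : nsId τ N) :
    ∀ x ∈ LinearMap.range h.germ, transQ τ N h.hN g x ∈ LinearMap.range h.germ := hst g

/-- Translations on the range. -/
def rangeTrans : nsId τ N →* Module.End ℂ (LinearMap.range h.germ) where
  toFun g := (transQ τ N h.hN g).restrict (hst g)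
  map_one' := LinearMap.ext fun x => Subtype.ext (by
    show transQ τ N h.hN 1 (x : Germ τ N) = x
    rw [map_one]; rfl)
  map_mul' g g' := LinearMap.ext fun x => Subtype.ext (by
    show transQ τ N h.hN (g * g') (x : Germ τ N) = _
    rw [map_mul]; rfl)

theorem rangeTrans_val (g : nsId τ N) (x : LinearMap.range h.germ) :
    ((rangeTrans h hst g x : LinearMap.range h.germ) : Germ τ N) =
      transQ τ N h.hN g (x : Germ τ N) := rfl

theorem commute_rangeTrans (g g' : nsId τ N) :
    Commute (rangeTrans h hst g) (rangeTrans h hst g') := (Commute.all g g').map (rangeTrans h hst)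

/-- Unit translations depend on classes modulo the level. -/
theorem rangeTrans_congr {u u' : nsId τ N}
    (hu : ∀ v : HS, Valued.v (((u : (Af F)ˣ) : Af F) v) = 1)
    (hu' : ∀ v : HS, Valued.v (((u' : (Af F)ˣ) : Af F) v) = 1)
    (hd : ∀ v : HS, Valued.v (((u : (Af F)ˣ) : Af F) v - ((u' : (Af F)ˣ) : Af F) v) ≤
      Valued.v ((N : Af F) v)) : rangeTrans h hst u = rangeTrans h hst u' := by
  refine LinearMap.ext fun x => Subtype.ext ?_
  obtain ⟨φ, hφ⟩ := x.2
  rw [rangeTrans_val, rangeTrans_val, ← hφ]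
  simp only [TraceHyp.germ, LinearMap.comp_apply, Submodule.mkQ_apply, transQ_mk]
  congr 1
  funext o b
  exact h.germ_congr φ hu hu' hd o b

/-- The twist on the range. -/
def rangeTwist : Module.End ℂ (LinearMap.range h.germ) :=
  (twQ τ N).restrict fun x (hx : x ∈ LinearMap.range h.germ) => by
    obtain ⟨φ, rfl⟩ := hx
    exact ⟨⟨Tform τ (φ : Form F), h.twist_mem _ φ.2⟩, h.germ_twist φ⟩

theorem rangeTwist_val (x : LinearMap.range h.germ) :
    ((rangeTwist h x : LinearMap.range h.germ) : Germ τ N) = twQ τ N (x : Germ τ N) := rfl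

theorem rangeTwist_mul_rangeTrans (d : nsId τ N) :
    rangeTwist h * rangeTrans h hst (twB τ N d) = rangeTrans h hst d * rangeTwist h :=
  LinearMap.ext fun x => Subtype.ext
    (LinearMap.congr_fun (twQ_mul_transQ τ N h.hN d) (x : Germ τ N))

/-- The twist commutes with the germ map. -/
theorem germ_Tform (T : V →ₗ[ℂ] V) (hT : ∀ φ : V, ((T φ : V) : Form F) = Tform τ (φ : Form F))
    (φ : V) : h.germ.rangeRestrict (T φ) = rangeTwist h (h.germ.rangeRestrict φ) :=
  Subtype.ext (by
    show h.germ (T φ) = twQ τ N (h.germ φ)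
    rw [← h.germ_twist φ]
    exact congrArg h.germ (Subtype.ext (hT φ)))

/-- A shift commutes with the germ map. -/
theorem germ_shiftOp {π : nsId τ N} (A : V →ₗ[ℂ] V) {n : ℕ} {c : Fin n → Af F}
    (hc : ∀ i, Intg (c i))
    (hA : ∀ φ : V, IsShift N s (π : (Af F)ˣ) (φ : Form F) ((A φ : V) : Form F) c) (φ : V) :
    h.germ.rangeRestrict (A φ) = ((n : ℂ) • rangeTrans h hst π) (h.germ.rangeRestrict φ) :=
  Subtype.ext (h.germ_shift π hc (hA φ))

/-- A sum of unit translations commutes with the germ map. -/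
theorem germ_unitOp {ι : Type} [Fintype ι] (β : ι → nsId τ N) (W : V →ₗ[ℂ] V)
    (hW : ∀ (φ : V) (a : (Af F)ˣ), cf s ((W φ : V) : Form F) a =
      ∑ x, cf s (φ : Form F) (a * (β x : (Af F)ˣ))) (φ : V) :
    h.germ.rangeRestrict (W φ) = (∑ x, rangeTrans h hst (β x)) (h.germ.rangeRestrict φ) := by
  refine Subtype.ext ?_
  rw [LinearMap.sum_apply, Submodule.coe_sum]
  simp only [rangeTrans_val]
  show h.germ (W φ) = ∑ x, transQ τ N h.hN (β x) (h.germ φ)
  simp only [TraceHyp.germ, LinearMap.comp_apply, Submodule.mkQ_apply, transQ_mk]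
  simp only [← Submodule.mkQ_apply (evZero τ N), ← map_sum]
  congr 1
  funext o b
  simp only [Finset.sum_apply]
  show cf s ((W φ : V) : Form F) _ = _
  rw [hW]
  refine Finset.sum_congr rfl fun x _ => ?_
  show _ = cf s (φ : Form F) (x₀ * (o : (Af F)ˣ) * ((β x * b : nsId τ N) : (Af F)ˣ))
  rw [Subgroup.coe_mul]
  congr 1
  ac_rfl

/-- A unit invariant form has a germ fixed by unit translations. -/
theorem germ_fixed {φ : V}
    (hinv : ∀ u : nsId τ N, (∀ v, Valued.v (((u : (Af F)ˣ) : Af F) v) = 1) → ∀ a,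
      cf s (φ : Form F) (a * (u : (Af F)ˣ)) = cf s (φ : Form F) a)
    {u : nsId τ N} (hu : ∀ v, Valued.v (((u : (Af F)ˣ) : Af F) v) = 1) :
    rangeTrans h hst u (h.germ.rangeRestrict φ) = h.germ.rangeRestrict φ := Subtype.ext (by
  show transQ τ N h.hN u (h.germ φ) = h.germ φ
  simp only [TraceHyp.germ, LinearMap.comp_apply, Submodule.mkQ_apply, transQ_mk]
  congr 1
  funext o b
  show cf s (φ : Form F) (x₀ * (o : (Af F)ˣ) * ((u * b : nsId τ N) : (Af F)ˣ)) = _
  rw [Subgroup.coe_mul, mul_comm (u : (Af F)ˣ), ← mul_assoc, hinv u hu]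
  rfl)

/-- The group of twist cocycles acting on the range. -/
def cocycleGroup : Subgroup (Module.End ℂ (LinearMap.range h.germ))ˣ :=
  ((rangeTrans h hst).toHomUnits.comp (zB τ N)).range

theorem finite_cocycleGroup :
    (cocycleGroup h hst : Set (Module.End ℂ (LinearMap.range h.germ))ˣ).Finite := by
  obtain ⟨R, hR, hrep⟩ := exists_finite_unit_classes (τ := τ) (F := F) h.hN
  refine (hR.image fun b => ((rangeTrans h hst).toHomUnits.comp (zB τ N)) b).subset ?_
  rintro _ ⟨b, rfl⟩
  obtain ⟨r, hr, hd⟩ := hrep b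
  exact ⟨r, hr, Units.ext
    (rangeTrans_congr h hst (valued_zB τ N b) (valued_zB τ N r) hd).symm⟩

/-- The twist fixes germs fixed by the cocycles. -/
theorem rangeTwist_eq_self (y : LinearMap.range h.germ)
    (hfix : ∀ d, rangeTrans h hst (zB τ N d) y = y) : rangeTwist h y = y := by
  obtain ⟨R, hR, hrep⟩ := exists_finite_unit_classes (τ := τ) (F := F) h.hN
  obtain ⟨φ, hφ⟩ := y.2
  have hfix' : ∀ d, transQ τ N h.hN (zB τ N d) (y : Germ τ N) = y := fun d =>
    congrArg Subtype.val (hfix d)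
  refine Subtype.ext ?_
  rw [rangeTwist_val]
  rw [← hφ] at hfix' ⊢
  simp only [TraceHyp.germ, LinearMap.comp_apply, Submodule.mkQ_apply, twQ_mk, transQ_mk,
    Submodule.Quotient.eq] at hfix' ⊢
  intro o
  choose k hk using fun r => hfix' r o
  refine ⟨hR.toFinset.sup k, fun b hb => ?_⟩
  show cf s (φ : Form F) (x₀ * (o : (Af F)ˣ) * (twB τ N b : (Af F)ˣ)) -
    cf s (φ : Form F) (x₀ * (o : (Af F)ˣ) * (b : (Af F)ˣ)) = 0
  obtain ⟨r, hr, hd⟩ := hrep b
  have e : twB τ N b = zB τ N b * b := (inv_mul_cancel_right _ b).symm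
  rw [e, h.germ_congr φ (valued_zB τ N b) (valued_zB τ N r) hd o b]
  exact hk r b (hb.mono (Finset.le_sup (hR.mem_toFinset.2 hr)))

end FLTAgent.LT.TraceTheta
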