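import Fermat.Agent.LT.TF.Trace.BadFam
import Fermat.Agent.LT.TF.Trace.Pinned
import Fermat.Agent.LT.TF.SplitSpace
import Fermat.Agent.LT.TF.SlotFam
import Fermat.Agent.LT.TF.Match.PinMatch

/-!
The split space is stable as required for the twisted trace of the inverse generator; the family of
the test on `M` and its descended family on `K` form a matched pair.
-/

set_option autoImplicit false
set_option linter.unusedSectionVars false
set_option linter.style.haveILetI false
set_option linter.deprecated false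
set_option synthInstance.maxHeartbeats 400000

noncomputable section

namespace FLTAgent.LT.Match

open NumberField IsDedekindDomain

local notation "Γ₀" => WithZero (Multiplicative ℤ)

theorem BiFin.finite_image {G : Type*} [Group G] {U : Subgroup G} {f : G → ℂ} (hf : BiFin U f) :
    ((QuotientGroup.mk : G → G ⧸ U) '' Function.support f).Finite := by
  refine hf.fin.subset ?_
  rintro _ ⟨g, hg, rfl⟩
  show f _ ≠ 0
  rwa [hf.apply_out']

variable {E F : Type} [Field F] [NumberField F] [Field E] [NumberField E] {i : F →+* E}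
  {σ τ : E →+* E}

theorem natU_pow_val {v : HeightOneSpectrum (𝓞 F)} {N : ℕ} (hN : 0 < N) (j : ℕ) :
    Valued.v (((natU (Kp F v) N ^ j : (Kp F v)ˣ)) : Kp F v) = levN v N ^ j := by
  rw [Units.val_pow_eq_pow_val, natU_val hN, map_pow, levN_eq]

/-- The twisted classes of a generator and of its square are the same. -/
theorem omegaAt_sq (h : Ell.CycGen i τ 3) (h' : Ell.CycGen i σ 3) (hσ : ∀ x, σ x = τ (τ x))
    {N : ℕ} (hN : 0 < N) {j : ℕ} (hj : 0 < j) {w : HeightOneSpectrum (𝓞 E)}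
    (hw : placeBelow τ w = w) (hw' : placeBelow σ w = w) (hwN : (N : 𝓞 E) ∈ w.asIdeal) :
    omegaAt σ N j w = omegaAt τ N j w := by
  classical
  simp only [omegaAt, dif_pos hw, dif_pos hw', omegaFn]
  have he := TraceTheta.levN_lt_one hwN
  have hϖ : Valued.v ((natU (Kp E w) N ^ j : (Kp E w)ˣ) : Kp E w) < (1 : Γ₀) := by
    rw [natU_pow_val hN]
    exact pow_lt_one₀ zero_le he hj.ne'
  have P := pair_of_fixed h hw rfl
  have P' := pair_of_fixed h' hw' rfl
  have hc : ∀ x, cMap σ w w hw' x = cMap τ w w hw (cMap τ w w hw x) := fun x =>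
    congrFun (hom_ext_dense (continuous_cMap σ hw')
      ((continuous_cMap τ hw).comp (continuous_cMap τ hw)) fun y => by
        simp only [Function.comp_apply, cMap_coe, hσ]) x
  have hn : ∀ b, nrm3 (cMap σ w w hw') b = nrm3 (cMap τ w w hw) b := fun b => by
    refine Units.ext ?_
    simp only [nrm3, Units.val_mul, Units.coe_map, RingHom.toMonoidHom_eq_coe, MonoidHom.coe_coe,
      hc, P.cube]
    ring
  congr 1
  ext s
  rw [P.omega_iff_dset he hϖ, P'.omega_iff_dset he hϖ]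
  simp only [hn]

/-- Representatives of the contracting classes below. -/
theorem upRep_dsetAt [IsTotallyComplex F] {N : ℕ} (hN : 0 < N) (j : ℕ)
    {v : HeightOneSpectrum (𝓞 F)} (hv : (N : 𝓞 F) ∈ v.asIdeal) :
    TraceTheta.UpRep N v (dsetAt N j v)
      (fun a b => a = (natU (Kp F v) N ^ j) ^ 3 ∧ Valued.v b ≤ levN v N) := by
  refine ⟨fun u hu g => (dsetFn_mul hu g).1, fun u hu g => (dsetFn_mul hu g).2, fun g hg => ?_⟩
  obtain ⟨y, hy, hu⟩ := TraceTheta.exists_up_of_shiftSet (TraceTheta.levN_lt_one hv)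
    (a := (natU (Kp F v) N ^ j) ^ 3) (by
      rw [← pow_mul, natU_pow_val hN]
      exact pow_le_one₀ zero_le (levN_le_one v N))
    (Set.mem_of_indicator_ne_zero
      (s := TraceTheta.shiftSet (levN v N) ((natU (Kp F v) N ^ j) ^ 3))
      (f := fun _ => (1 : ℂ)) hg)
  exact ⟨_, y, ⟨rfl, hy⟩, hu⟩

theorem finite_dsetAt [IsTotallyComplex F] {N : ℕ} (hN : 0 < N) (j : ℕ)
    {v : HeightOneSpectrum (𝓞 F)} (hv : (N : 𝓞 F) ∈ v.asIdeal) :
    ((QuotientGroup.mk : GL (Fin 2) (Kp F v) → GL (Fin 2) (Kp F v) ⧸ lvlZ (levN v N)) ''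
      Function.support (dsetAt N j v)).Finite := by
  refine (upRep_dsetAt hN j hv).finite hN
    ⟨levN v N ^ (j * 3), levN v N, pow_ne_zero _ (levN_ne_zero v hN), levN_ne_zero v hN,
      fun a b h => ?_⟩
  obtain ⟨rfl, hb⟩ := h
  rw [← pow_mul, natU_pow_val hN]
  exact ⟨le_rfl, pow_le_one₀ zero_le (levN_le_one v N), hb⟩

/-- The congruence groups correspond along a map of completions. -/
theorem gl_cMap_mem_lvlZ {w : HeightOneSpectrum (𝓞 E)} {v : HeightOneSpectrum (𝓞 F)}
    (hw : placeBelow i w = v) {N : ℕ} (hv : (N : 𝓞 F) ∈ v.asIdeal)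
    {k : GL (Fin 2) (Kp F v)} (hk : k ∈ lvlZ (levN v N)) :
    gl (cMap i w v hw) k ∈ lvlZ (levN w N) := by
  obtain ⟨l, hl, c, rfl⟩ := hk
  have hwN : (N : 𝓞 E) ∈ w.asIdeal := by
    rw [← hw] at hv
    have h' : RingOfIntegers.mapRingHom i (N : 𝓞 F) ∈ w.asIdeal := hv
    rwa [map_natCast] at h'
  have he := TraceTheta.levN_lt_one hv
  refine ⟨_, mem_lvl_of_ent (TraceTheta.levN_lt_one hwN) fun a b => ?_,
    Units.map (cMap i w v hw).toMonoidHom c, by rw [map_mul, gl_scal]⟩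
  rw [Matrix.sub_apply, gl_apply,
    show (1 : Matrix (Fin 2) (Fin 2) (Kp E w)) a b =
        cMap i w v hw ((1 : Matrix (Fin 2) (Fin 2) (Kp F v)) a b) by
      rcases eq_or_ne a b with rfl | h <;> simp_all, ← map_sub, levN_eq,
    ← map_natCast (cMap i w v hw), v_cMap_le_iff, ← levN_eq]
  exact ((mem_lvl he.le).1 hl).1 a b

/-- Only one place lies above the place below a fixed one. -/
theorem above_unique (h : Ell.CycGen i τ 3) {u w : HeightOneSpectrum (𝓞 E)}
    (hw : placeBelow τ w = w) (e : placeBelow i u = placeBelow i w) : u = w := by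
  rcases placeBelow_orbit h e with e' | e' | e' <;> simpa [hw] using e'

end FLTAgent.LT.Match

namespace FLTAgent.LT.TraceTheta

open NumberField IsDedekindDomain
open FLTAgent.LT.Match FLTAgent.LT.RS FLTAgent.LT.Red

variable {F : Type} [Field F] [NumberField F] [IsTotallyComplex F]

/-- The character at a fixed place is invariant under the automorphism. -/
theorem chiAt_cMap (τ : F ≃+* F) {w : HeightOneSpectrum (𝓞 F)} (hw : below τ w = w)
    (y : Kp F w) : chiAt w (cMap (τ : F →+* F) w w hw y) = chiAt w y := by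
  have e : adeleSingle w (cMap (τ : F →+* F) w w hw y) = Ta τ (adeleSingle w y) :=
    FiniteAdeleRing.ext F fun u => by
      show _ = complMap (τ : F →+* F) u (adeleSingle w y (below τ u))
      rcases eq_or_ne u w with rfl | hu
      · rw [adeleSingle_same]
        exact (congrArg (cMap (τ : F →+* F) u u hw) (adeleSingle_same u y).symm).trans
          (cMap_afMap (τ : F →+* F) hw (adeleSingle u y))
      · rw [adeleSingle_ne _ hu, adeleSingle_ne _ fun h => hu (below_injective τ (h.trans hw.symm)),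
          map_zero]
  rw [chiAt, chiAt, e, chi_Ta]

end FLTAgent.LT.TraceTheta

namespace FLTAgent.LT.Descent

open NumberField IsDedekindDomain
open FLTAgent.LT.Match FLTAgent.LT.RS FLTAgent.LT.Red

variable (d : Octa) [TraceTheta.PinSel d.Mf]

theorem tauE_symm_apply (x : d.Mf) : (tauE d).symm x = tauM d (tauM d x) := rfl

theorem cycGen_symm : Ell.CycGen (iKM d) ((tauE d).symm : d.Mf →+* d.Mf) 3 where
  odd := (cycGen d).odd
  pow x := by
    show (tauE d).symm ((tauE d).symm ((tauE d).symm x)) = x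
    simp only [tauE_symm_apply, tauM_cube']
  ne k h0 h3 := by
    obtain rfl | rfl : k = 1 ∨ k = 2 := by omega
    · obtain ⟨x, hx⟩ := (cycGen d).ne 2 (by omega) (by omega)
      exact ⟨x, hx⟩
    · obtain ⟨x, hx⟩ := (cycGen d).ne 1 (by omega) (by omega)
      refine ⟨x, ?_⟩
      show (tauE d).symm ((tauE d).symm x) ≠ x
      simp only [tauE_symm_apply, tauM_cube']
      exact hx
  fix x hx := (cycGen d).fix x (by
    have h1 : tauM d (tauM d x) = x := hx
    have h2 := congrArg (tauM d) h1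
    rw [tauM_cube'] at h2
    exact h2.symm)
  fixed y := by
    show (tauE d).symm (iKM d y) = iKM d y
    rw [tauE_symm_apply, (cycGen d).fixed, (cycGen d).fixed]

theorem below_symm_iff (w : HeightOneSpectrum (𝓞 d.Mf)) :
    TraceTheta.below (tauE d).symm w = w ↔ placeBelow (tauM d) w = w := by
  show TraceTheta.below (tauE d).symm w = w ↔ TraceTheta.below (tauE d) w = w
  constructor <;> intro h
  · conv_lhs => rw [← h]
    exact TraceTheta.below_below_symm (tauE d) w
  · conv_lhs => rw [← h]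
    exact below_symm_below (tauE d) w

theorem nsV_symm_iff {N : ℕ} (w : HeightOneSpectrum (𝓞 d.Mf)) :
    TraceTheta.NsV (tauE d).symm N w ↔
      (N : 𝓞 d.Mf) ∈ w.asIdeal ∧ placeBelow (tauM d) w = w ∧ ¬ TraceTheta.PinV w :=
  and_congr Iff.rfl (and_congr_left' (below_symm_iff d w))

variable {d} {N : ℕ}

/-- The split space has the hypotheses of the twisted trace. -/
theorem spaceHyp_splitSpace (hN : d.Good N) :
    TraceTheta.SpaceHyp (tauE d).symm N (splitSpace d N) where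
  cusp _ hφ := ((mem_splitSpace hN.1).1 hφ).1
  twist_mem _ hφ := tform_mem (Or.inr rfl) hφ
  hecke_mem _ hv _ hφ := hecke_mem hN hv hφ
  hecke_below _ hv _ hφ := hecke_below hN (Or.inr rfl) hv hφ
  fin_mem _ hr hl hfin hloc _ hφ := finAct_mem hr hl hfin hloc hφ

theorem natCast_mem_under (d : Octa) {N : ℕ} {w : HeightOneSpectrum (𝓞 d.Mf)}
    (hw : (N : 𝓞 d.Mf) ∈ w.asIdeal) : (N : 𝓞 d.Kf) ∈ (placeBelow (iKM d) w).asIdeal := by
  show RingOfIntegers.mapRingHom (iKM d) (N : 𝓞 d.Kf) ∈ w.asIdeal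
  rwa [map_natCast]

/-- The function below at a selected place. -/
def pinK (M : ℕ) (x₀ : (Af d.Mf)ˣ) {w : HeightOneSpectrum (𝓞 d.Mf)}
    {v : HeightOneSpectrum (𝓞 d.Kf)} (hw : placeBelow (iKM d) w = v)
    (g : GL (Fin 2) (Kp d.Kf v)) : ℂ :=
  TraceTheta.pinFn (TraceTheta.chiAt w) (TraceTheta.PinSel.rad w) (levN w M * levN w M)
    ((x₀ : Af d.Mf) w / 3) (gl (cMap (iKM d) w v hw) g)

open scoped Classical in
/-- The descended family on `K`. -/
def badLK (d : Octa) [TraceTheta.PinSel d.Mf] (N M : ℕ) (x₀ : (Af d.Mf)ˣ) (j : ℕ)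
    (LM : ∀ w, GL (Fin 2) (Kp d.Mf w) → ℂ)
    (v : HeightOneSpectrum (𝓞 d.Kf)) : GL (Fin 2) (Kp d.Kf v) → ℂ :=
  if (N : 𝓞 d.Kf) ∈ v.asIdeal then
    if hf : ∃ w, placeBelow (iKM d) w = v ∧ placeBelow (tauM d) w = w then
      if TraceTheta.PinV hf.choose then pinK M x₀ hf.choose_spec.1 else dsetAt N j v
    else if h : ∃ w, placeBelow (iKM d) w = v then
      conv3 (lvlZ (levN v N)) (orbitFn (tauM d) (iKM d) (cycGen d) h.choose_spec LM)
    else unitFn (levN v N)
  else unitFn 1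

variable {M : ℕ} {x₀ : (Af d.Mf)ˣ}

/-- The hypotheses of the characters at a selected place. -/
theorem pinK_int (S : TraceTheta.BadSetup (tauE d).symm N M x₀ (iKM d))
    (h3 : ∀ w : HeightOneSpectrum (𝓞 d.Mf), TraceTheta.PinV w → ((3 : ℕ) : 𝓞 d.Mf) ∉ w.asIdeal)
    {w : HeightOneSpectrum (𝓞 d.Mf)} (hp : TraceTheta.PinV w) :
    Valued.v (3 : Kp d.Mf w) = (1 : WithZero (Multiplicative ℤ)) ∧
      TraceTheta.SpV (tauE d).symm N w ∧
      ∀ y, Valued.v y ≤ TraceTheta.PinSel.rad w * TraceTheta.PinSel.rad w →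
        TraceTheta.chiAt w (-((x₀ : Af d.Mf) w / 3 * y)) = 1 := by
  have h31 : Valued.v (3 : Kp d.Mf w) = (1 : WithZero (Multiplicative ℤ)) := by
    have h := levN_eq_one (h3 w hp)
    rwa [levN_eq, Nat.cast_ofNat] at h
  have hs : TraceTheta.SpV (tauE d).symm N w := ⟨(S.pin_fix w hp).2, fun h => h.2 hp⟩
  refine ⟨h31, hs, fun y hy => ?_⟩
  rw [show (x₀ : Af d.Mf) w / 3 * y = (x₀ : Af d.Mf) w * (y / 3) by ring]
  exact S.int_pin hs hp _ (by rwa [map_div₀, h31, div_one])

theorem upRep_pinK (S : TraceTheta.BadSetup (tauE d).symm N M x₀ (iKM d))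
    (h3 : ∀ w : HeightOneSpectrum (𝓞 d.Mf), TraceTheta.PinV w → ((3 : ℕ) : 𝓞 d.Mf) ∉ w.asIdeal)
    {w : HeightOneSpectrum (𝓞 d.Mf)} (hp : TraceTheta.PinV w) {v : HeightOneSpectrum (𝓞 d.Kf)}
    (hw : placeBelow (iKM d) w = v) (hv : (N : 𝓞 d.Kf) ∈ v.asIdeal) :
    TraceTheta.UpRep N v (pinK M x₀ hw) (fun a b =>
      Valued.v ((a : Kp d.Kf v) - 1) ≤ WithZero.exp (-1 : ℤ) ∧
        Valued.v b ≤ WithZero.exp (-1 : ℤ)) := by
  obtain ⟨-, -, hint⟩ := pinK_int S h3 hp
  have hadd := TraceTheta.chiAt_add (F := d.Mf) w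
  have hn := S.lev_sq hp
  have hmap : ∀ u ∈ lvlZ (levN v N),
      gl (cMap (iKM d) w v hw) u ∈ lvlZ (levN w M * levN w M) := fun u hu => by
    rw [← TraceTheta.levN_mul_self S.hNM]
    exact gl_cMap_mem_lvlZ hw hv hu
  refine ⟨fun u hu g => ?_, fun u hu g => ?_, fun g hg => ?_⟩
  · rw [pinK, pinK, map_mul]
    exact (TraceTheta.pinFn_mul_small hadd hint hp hn (hmap u hu) _).1
  · rw [pinK, pinK, map_mul]
    exact (TraceTheta.pinFn_mul_small hadd hint hp hn (hmap u hu) _).2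
  obtain ⟨hd0, ha, hb, hr⟩ :=
    TraceTheta.pinGrp_bounds hp ((TraceTheta.pinFn_ne_zero (TraceTheta.chiAt_ne_zero w)).1 hg)
  simp only [gl_apply, ← map_div₀] at hd0 ha hb hr
  set D := (g : Matrix (Fin 2) (Fin 2) (Kp d.Kf v)) 1 1
  have hD : D ≠ 0 := fun h => hd0 (by rw [h, map_zero])
  have small : ∀ x, Valued.v (cMap (iKM d) w v hw x) < (1 : WithZero (Multiplicative ℤ)) →
      Valued.v x ≤ WithZero.exp (-1 : ℤ) := fun x hx => by
    have h1 : Valued.v x < (1 : WithZero (Multiplicative ℤ)) := by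
      rwa [← map_one (Valued.v (R := Kp d.Kf v)), ← v_cMap_lt_iff (iKM d) hw, map_one, map_one]
    rcases eq_or_ne (Valued.v x) 0 with h0 | h0
    · rw [h0]; exact zero_le
    · rw [← WithZero.exp_log h0, ← WithZero.exp_zero, WithZero.exp_lt_exp] at h1
      rw [← WithZero.exp_log h0, WithZero.exp_le_exp]
      omega
  have he : (WithZero.exp (-1 : ℤ)) < (1 : WithZero (Multiplicative ℤ)) := by
    rw [← WithZero.exp_zero, WithZero.exp_lt_exp]; norm_num
  rw [show cMap (iKM d) w v hw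
      ((g : Matrix (Fin 2) (Fin 2) (Kp d.Kf v)) 0 0 / D) - 1 =
    cMap (iKM d) w v hw ((g : Matrix (Fin 2) (Fin 2) (Kp d.Kf v)) 0 0 / D - 1) by
      rw [map_sub, map_one]] at ha
  have ha' := small _ (ha.trans_lt hp)
  have hb' := small _ (hb.trans_lt hp)
  have hr' : Valued.v ((g : Matrix (Fin 2) (Fin 2) (Kp d.Kf v)) 1 0 / D) ≤ levN v N := by
    rw [← TraceTheta.levN_mul_self S.hNM, levN_eq, ← map_natCast (cMap (iKM d) w v hw),
      v_cMap_le_iff, ← levN_eq] at hr
    exact hr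
  have hne : levN v N ≤ WithZero.exp (-1 : ℤ) := by
    rw [levN_eq]
    refine small _ ?_
    rw [map_natCast, ← levN_eq]
    exact TraceTheta.levN_lt_one (S.pin_fix w hp).2
  set k := g * scal (Units.mk0 D⁻¹ (inv_ne_zero hD))
  have hk : ∀ i l, (k : Matrix (Fin 2) (Fin 2) (Kp d.Kf v)) i l =
      (g : Matrix (Fin 2) (Fin 2) (Kp d.Kf v)) i l / D := fun i l => by
    fin_cases i <;> fin_cases l <;> simp [k, scal, Matrix.mul_apply, div_eq_mul_inv]
  have hlvl : k ∈ lvl (WithZero.exp (-1 : ℤ)) := mem_lvl_of_ent he fun i l => by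
    fin_cases i <;> fin_cases l <;>
      simp only [Matrix.sub_apply, hk, Fin.zero_eta, Fin.mk_one, Fin.isValue, Matrix.one_apply_eq,
        ne_eq, zero_ne_one, one_ne_zero, not_false_eq_true, Matrix.one_apply_ne, sub_zero]
    · exact ha'
    · exact hb'
    · exact hr'.trans hne
    · rw [div_self hD, sub_self, map_zero]; exact zero_le
  have hg' : g ∈ pinGrp (WithZero.exp (-1 : ℤ)) (levN v N) := by
    have h1 := TraceTheta.mem_pinGrp_of_lvl (n := levN v N) hlvl (by rw [hk]; exact hr')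
      (Units.mk0 D hD)
    rwa [mul_assoc, ← scal_mul,
      show Units.mk0 D⁻¹ (inv_ne_zero hD) * Units.mk0 D hD = 1 from Units.ext (inv_mul_cancel₀ hD),
      show scal (1 : (Kp d.Kf v)ˣ) = 1 from map_one _,
      mul_one] at h1
  obtain ⟨a, b, h1, h2, h⟩ := TraceTheta.exists_up_of_pinGrp he hne hg'
  exact ⟨a, b, ⟨h1, h2⟩, h⟩

theorem badLK_fixed {j : ℕ} {LM : ∀ w, GL (Fin 2) (Kp d.Mf w) → ℂ}
    {w : HeightOneSpectrum (𝓞 d.Mf)} (hτ : placeBelow (tauM d) w = w)
    (hv : (N : 𝓞 d.Kf) ∈ (placeBelow (iKM d) w).asIdeal) :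
    (TraceTheta.PinV w → badLK d N M x₀ j LM (placeBelow (iKM d) w) = pinK M x₀ rfl) ∧
      (¬ TraceTheta.PinV w →
        badLK d N M x₀ j LM (placeBelow (iKM d) w) = dsetAt N j (placeBelow (iKM d) w)) := by
  classical
  have hf : ∃ u, placeBelow (iKM d) u = placeBelow (iKM d) w ∧ placeBelow (tauM d) u = u :=
    ⟨w, rfl, hτ⟩
  have key : ∀ u (hu : placeBelow (iKM d) u = placeBelow (iKM d) w),
      (TraceTheta.PinV u ↔ TraceTheta.PinV w) ∧
        pinK M x₀ hu = pinK M x₀ (w := w) rfl := fun u hu => by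
    obtain rfl := above_unique (cycGen d) hτ hu
    exact ⟨Iff.rfl, rfl⟩
  obtain ⟨k1, k2⟩ := key _ hf.choose_spec.1
  refine ⟨fun hp => ?_, fun hp => ?_⟩
  · rw [badLK, if_pos hv, dif_pos hf, if_pos (k1.2 hp), k2]
  · rw [badLK, if_pos hv, dif_pos hf, if_neg (fun h => hp (k1.1 h))]

theorem locFam_badLK (S : TraceTheta.BadSetup (tauE d).symm N M x₀ (iKM d))
    (h3 : ∀ w : HeightOneSpectrum (𝓞 d.Mf), TraceTheta.PinV w → ((3 : ℕ) : 𝓞 d.Mf) ∉ w.asIdeal)
    (j : ℕ) {LM : ∀ w, GL (Fin 2) (Kp d.Mf w) → ℂ}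
    (hLM : LocFam N LM) : LocFam N (badLK d N M x₀ j LM) := by
  classical
  have hN := S.hN
  have hunit : ∀ v : HeightOneSpectrum (𝓞 d.Kf),
      (∀ u ∈ lvlZ (K := Kp d.Kf v) (levN v N), ∀ g,
        unitFn (levN v N) (u * g) = unitFn (levN v N) g) ∧
      (∀ u ∈ lvlZ (K := Kp d.Kf v) (levN v N), ∀ g,
        unitFn (levN v N) (g * u) = unitFn (levN v N) g) ∧
      ((QuotientGroup.mk : GL (Fin 2) (Kp d.Kf v) →
          GL (Fin 2) (Kp d.Kf v) ⧸ lvlZ (levN v N)) ''
        Function.support (unitFn (levN v N))).Finite := fun v =>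
    ⟨(TraceTheta.upRep_unitFn N v).left, (TraceTheta.upRep_unitFn N v).right,
      (biFin_unitFn _).finite_image⟩
  have key : ∀ v,
      (∀ u ∈ lvlZ (levN v N), ∀ g, badLK d N M x₀ j LM v (u * g) = badLK d N M x₀ j LM v g) ∧
      (∀ u ∈ lvlZ (levN v N), ∀ g, badLK d N M x₀ j LM v (g * u) = badLK d N M x₀ j LM v g) ∧
      ((QuotientGroup.mk : GL (Fin 2) (Kp d.Kf v) →
          GL (Fin 2) (Kp d.Kf v) ⧸ lvlZ (levN v N)) ''
        Function.support (badLK d N M x₀ j LM v)).Finite := by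
    intro v
    by_cases hv : (N : 𝓞 d.Kf) ∈ v.asIdeal
    · by_cases hf : ∃ w, placeBelow (iKM d) w = v ∧ placeBelow (tauM d) w = w
      · by_cases hp : TraceTheta.PinV hf.choose
        · rw [badLK, if_pos hv, dif_pos hf, if_pos hp]
          have U := upRep_pinK S h3 hp hf.choose_spec.1 hv
          have he : (WithZero.exp (-1 : ℤ)) < (1 : WithZero (Multiplicative ℤ)) := by
            rw [← WithZero.exp_zero, WithZero.exp_lt_exp]; norm_num
          refine ⟨U.left, U.right, U.finite hN ⟨1, WithZero.exp (-1 : ℤ), one_ne_zero,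
            WithZero.exp_ne_zero, fun a b h => ?_⟩⟩
          rw [v_eq_one_of_sub he h.1]
          exact ⟨le_rfl, le_rfl, h.2⟩
        · rw [badLK, if_pos hv, dif_pos hf, if_neg hp]
          exact ⟨(upRep_dsetAt hN j hv).left, (upRep_dsetAt hN j hv).right, finite_dsetAt hN j hv⟩
      · by_cases hw : ∃ w, placeBelow (iKM d) w = v
        · rw [badLK, if_pos hv, dif_neg hf, dif_pos hw]
          have hb : ∀ k, BiFin (lvlZ (levN v N))
              (orbitFn (tauM d) (iKM d) (cycGen d) hw.choose_spec LM k) := fun k => by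
            rw [orbitFn_eq]
            exact biFin_pull (cycGen d) _
              (fun e => hf ⟨_, (orb (cycGen d) hw.choose_spec k).2, e⟩) hLM
          have h3 := conv3_biFin hb le_rfl (hb 0).left (hb 2).right
          exact ⟨h3.left, h3.right, h3.finite_image⟩
        · rw [badLK, if_pos hv, dif_neg hf, dif_neg hw]
          exact hunit v
    · rw [badLK, if_neg hv, ← levN_eq_one hv]
      exact hunit v
  refine ⟨(TraceTheta.eventually_good hN).mono fun v hv => ?_, fun v => (key v).1,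
    fun v => (key v).2.1, fun v => (key v).2.2⟩
  rw [badLK, if_neg hv]

theorem cMap_tau_x0 (S : TraceTheta.BadSetup (tauE d).symm N M x₀ (iKM d))
    {w : HeightOneSpectrum (𝓞 d.Mf)} (hp : TraceTheta.PinV w)
    (hτ : placeBelow (tauM d) w = w) :
    cMap (tauM d) w w hτ ((x₀ : Af d.Mf) w) = (x₀ : Af d.Mf) w := by
  have hσ := (S.pin_fix w hp).1
  have h1 : cMap ((tauE d).symm : d.Mf →+* d.Mf) w w hσ ((x₀ : Af d.Mf) w) = (x₀ : Af d.Mf) w :=
    (cMap_afMap _ hσ _).trans
      (S.x0_twist w ⟨(S.pin_fix w hp).2, fun h => h.2 hp⟩)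
  have e : ((tauE d).symm : d.Mf →+* d.Mf).comp ((tauE d).symm : d.Mf →+* d.Mf) = tauM d :=
    RingHom.ext fun x => by
      show (tauE d).symm ((tauE d).symm x) = tauM d x
      simp only [tauE_symm_apply, tauM_cube']
  rw [← cMap_congr e (by rw [e]; exact hτ) hτ, ← cMap_comp _ _ hσ hσ, h1, h1]

/-- **The matched pair of the test.** -/
theorem badPair_badFam {M : ℕ} {x₀ : (Af d.Mf)ˣ}
    (S : TraceTheta.BadSetup (tauE d).symm N M x₀ (iKM d))
    (h3 : ∀ w : HeightOneSpectrum (𝓞 d.Mf), TraceTheta.PinV w → ((3 : ℕ) : 𝓞 d.Mf) ∉ w.asIdeal)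
    (h9 : 9 ∣ N) (hq : ∃ w, TraceTheta.NsV (tauE d).symm N w) {j : ℕ} (hj : 0 < j) :
    BadPair d N j (TraceTheta.badFam (tauE d).symm N M x₀ j)
      (badLK d N M x₀ j (TraceTheta.badFam (tauE d).symm N M x₀ j)) where
  famM := S.locFam_bad hj
  famK := locFam_badLK S h3 j (S.locFam_bad hj)
  unitM w hw := TraceTheta.mkFam_good hw
  unitK v hv := by
    classical
    rw [badLK, if_neg hv]
  fixed w hτ hw := by
    classical
    have hv := natCast_mem_under d hw
    by_cases hp : TraceTheta.PinV w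
    · have hs : TraceTheta.SpV (tauE d).symm N w := ⟨hw, fun h => h.2 hp⟩
      have h31 := (pinK_int S h3 hp).1
      rw [TraceTheta.badFam, TraceTheta.mkFam_sp hs, TraceTheta.eAt_of_pin hp,
        (badLK_fixed hτ hv).1 hp]
      exact badLoc_pin (cycGen d) S.hN hτ rfl h31
        (le_of_eq (TraceTheta.levN_mul_self S.hNM w))
        (TraceTheta.pinChar_pinFn _ (fun x => v_cMap_endo (tauM d) hτ x) (TraceTheta.chiAt_add w)
          (TraceTheta.chiAt_ne_zero w) (fun y => TraceTheta.chiAt_cMap (tauE d) hτ y)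
          (cMap_tau_x0 S hp hτ) (S.int_pin hs hp) hp (S.lev_sq hp) h31)
    · have hns : TraceTheta.NsV (tauE d).symm N w := (nsV_symm_iff d w).2 ⟨hw, hτ, hp⟩
      rw [TraceTheta.badFam, TraceTheta.mkFam_ns hns,
        omegaAt_sq (cycGen d) (cycGen_symm d) (tauE_symm_apply d) S.hN hj hτ hns.2.1 hw,
        (badLK_fixed hτ hv).2 hp]
      exact badLoc_omega (cycGen d) S.hN h9 hj hτ rfl hv
  contract := by
    obtain ⟨w, hns⟩ := hq
    obtain ⟨hw, hτ, hp⟩ := (nsV_symm_iff d w).1 hns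
    have hv := natCast_mem_under d hw
    refine ⟨w, hτ, hw, ?_, (badLK_fixed hτ hv).2 hp⟩
    rw [TraceTheta.badFam, TraceTheta.mkFam_ns hns]
    exact omegaAt_sq (cycGen d) (cycGen_symm d) (tauE_symm_apply d) S.hN hj hτ hns.2.1 hw
  moved v hv hex := by
    classical
    obtain ⟨w, hw, hτ⟩ := hex
    have hf : ¬ ∃ u, placeBelow (iKM d) u = v ∧ placeBelow (tauM d) u = u :=
      fun ⟨u, hu, e⟩ => moved_of_moved (cycGen d) hτ hw ⟨u, hu⟩ e
    have hex' : ∃ u, placeBelow (iKM d) u = v := ⟨w, hw⟩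
    exact ⟨hex'.choose, hex'.choose_spec, by rw [badLK, if_pos hv, dif_neg hf, dif_pos hex']⟩

end FLTAgent.LT.Descent
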