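import Fermat.Agent.LT.TF.Trace.Germ
import Fermat.Agent.LT.RS.Mode
import Fermat.Agent.LT.TF.Action
import Fermat.Agent.LT.ThetaM.Strong

/-!
The twisted trace of contracting operators on a space of cusp forms is nonzero as soon as the space
contains one form with an unbounded tail at the fixed bad places.
-/

set_option autoImplicit false
set_option linter.style.haveILetI false
set_option linter.unusedSectionVars false

noncomputable section

namespace FLTAgent.LT.TraceTheta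

open NumberField IsDedekindDomain WithZero LinearMap
open FLTAgent.LT.RS FLTAgent.LT.Red

variable {F : Type} [Field F] [NumberField F] [PinSel F] [IsTotallyComplex F]

local notation "HS" => HeightOneSpectrum (𝓞 F)

omit [PinSel F] [IsTotallyComplex F] in
theorem af_sub_apply (a b : Af F) (v : HS) : (a - b) v = a v - b v := rfl

omit [PinSel F] in
/-- A cusp form whose coefficients vanish is zero. -/
theorem eq_zero_of_cf {N : ℕ} (hN : 0 < N) {φ : Form F} (hφ : CuspZero N φ) {K : ℝ → ℂ} {t0 : ℝ}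
    (hK : RefMode K t0) (h : ∀ a, cf ⟨t0, hK.pos⟩ φ a = 0) : φ = 0 := by
  funext x g
  obtain ⟨γ, k, hk, hg⟩ := ThetaM.exists_decomp g hN
  show φ x g = 0
  rw [hg, hφ.aut.right_inv k hk,
    show x = actInf γ (actInf γ⁻¹ x) by rw [← actInf_mul, mul_inv_cancel, actInf_one],
    hφ.aut.left_inv]
  set a := Matrix.GeneralLinearGroup.det g
  by_contra hne
  obtain ⟨m, hm⟩ := exists_hasPeriod hN hφ.aut (ThetaM.diagGF a)
  obtain ⟨q, hq⟩ := exists_wh_ne_zero (hφ.cont _) hm hne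
  set ξ := xiOf (F := F) m q
  have hξ : ξ ≠ 0 := fun e => hq (by rw [e]; exact wh_zero (hφ.cont _) hφ.cusp _)
  have h0 : coefA φ K t0 (ThetaM.diagGF a) ξ = 0 := by
    have e := coefA_diag_mul hN hφ hK (Units.mk0 ξ hξ) (ThetaM.diagGF a) (one_ne_zero (α := F))
    rw [one_mul, Units.val_mk0] at e
    rw [← e, toFin_diagF, upperGF_mul, mul_zero,
      show upperGF (1 : (Af F)ˣ) (0 : Af F) = 1 from Units.ext (by
        ext i j; fin_cases i <;> fin_cases j <;> simp [upperGF]), one_mul, coefA,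
      dif_pos ⟨hK.pos, one_ne_zero⟩,
      show refT hK.pos (one_ne_zero (α := F)) = fun _ => (⟨t0, hK.pos⟩ : Set.Ioi (0 : ℝ)) from
        funext fun w => Subtype.ext (by simp [refT]),
      show wh φ _ 1 (fun _ => (⟨t0, hK.pos⟩ : Set.Ioi (0 : ℝ))) = 0 from h _, zero_div]
  exact hq (by rw [wh_eq_coefA_mul (hφ.cont _) hφ.bdd hφ.eigen hK hξ, h0, zero_mul])

variable {τ : F ≃+* F} {N M : ℕ} {x₀ : (Af F)ˣ} {s : Set.Ioi (0 : ℝ)} {V : Submodule ℂ (Form F)}

/-- The operator effect of a shift by `g`. -/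
def IsShift (N : ℕ) (s : Set.Ioi (0 : ℝ)) (g : (Af F)ˣ) (φ ψ : Form F) {n : ℕ}
    (c : Fin n → Af F) : Prop :=
  ∀ a : (Af F)ˣ,
    cf s ψ a = (∑ i, chi ((a : Af F) * ((N : Af F) * c i))) * cf s φ (a * g)

theorem TraceHyp.germ_shift (h : TraceHyp τ N M x₀ s V) (g : nsId τ N) {φ ψ : V} {n : ℕ}
    {c : Fin n → Af F} (hc : ∀ i, Intg (c i))
    (hs : IsShift N s (g : (Af F)ˣ) (φ : Form F) (ψ : Form F) c) :
    h.germ ψ = (n : ℂ) • transQ τ N h.hN g (h.germ φ) := by
  simp only [TraceHyp.germ, LinearMap.comp_apply, Submodule.mkQ_apply, transQ_mk,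
    ← Submodule.Quotient.mk_smul]
  rw [Submodule.Quotient.eq]
  intro o
  refine ⟨0, fun b hb => ?_⟩
  show cf s (ψ : Form F) (x₀ * (o : (Af F)ˣ) * (b : (Af F)ˣ)) -
    (n : ℂ) * cf s (φ : Form F) (x₀ * (o : (Af F)ˣ) * ((g * b : nsId τ N) : (Af F)ˣ)) = 0
  have e : x₀ * (o : (Af F)ˣ) * ((g * b : nsId τ N) : (Af F)ˣ) =
      x₀ * (o : (Af F)ˣ) * (b : (Af F)ˣ) * (g : (Af F)ˣ) := by
    rw [Subgroup.coe_mul]; ac_rfl
  by_cases hle : ∀ w : HS, Valued.v (((o : (Af F)ˣ) : Af F) w) ≤ 1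
  · have hd : IsDualAd (((x₀ * (o : (Af F)ˣ) * (b : (Af F)ˣ) : (Af F)ˣ) : Af F) * (N : Af F)) :=
      (isDualAd_iff _).2 fun v => by
        rw [af_mul_apply, map_mul, af_unit_mul_apply, af_unit_mul_apply, map_mul, map_mul]
        have hb' : Valued.v (((b : (Af F)ˣ) : Af F) v) ≤ 1 := by
          by_cases hv : NsV τ N v
          · have := hb v hv
            rwa [pow_zero] at this
          · rw [b.2 v hv, map_one]
        exact (mul_le_mul' (mul_le_of_le_one_right' hb') le_rfl).trans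
          ((mul_le_mul' (mul_le_of_le_one_right' (hle v)) le_rfl).trans (h.x0_le v))
    rw [hs, e, Finset.sum_congr rfl fun i _ => (by rw [← mul_assoc]; exact hd _ (hc i) :
      chi (((x₀ * (o : (Af F)ˣ) * (b : (Af F)ˣ) : (Af F)ˣ) : Af F) * ((N : Af F) * c i)) = 1)]
    simp
  · push Not at hle
    obtain ⟨w, hw⟩ := hle
    have hwN : (N : 𝓞 F) ∉ w.asIdeal := fun h' => by
      rw [o.2 w h', map_one] at hw; exact lt_irrefl _ hw
    have z : ∀ χ : V, ∀ b' : nsId τ N,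
        cf s (χ : Form F) (x₀ * (o : (Af F)ˣ) * (b' : (Af F)ˣ)) = 0 := fun χ b' => by
      refine h.cf_eq_zero_of_lt χ.2 hwN ?_
      rw [af_unit_mul_apply, af_unit_mul_apply, b'.2 w fun h' => hwN h'.1, mul_one, map_mul,
        h.x0_val w hwN]
      exact lt_mul_of_one_lt_right (lt_of_lt_of_le zero_lt_one (one_le_diffId w)) hw
    rw [z ψ b, z φ (g * b), mul_zero, sub_zero]

theorem intg_nsId {g : nsId τ N}
    (hg : ∀ v, NsV τ N v → Valued.v (((g : (Af F)ˣ) : Af F) v) ≤ 1) :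
    Intg ((g : (Af F)ˣ) : Af F) := fun v => by
  by_cases hv : NsV τ N v
  · exact hg v hv
  · rw [g.2 v hv, map_one]

theorem valued_unit_ne_zero (a : (Af F)ˣ) (v : HS) : Valued.v ((a : Af F) v) ≠ 0 :=
  (map_ne_zero _).2 (unit_apply_ne_zero a v)

theorem exists_pow_contract (hN : 0 < N) {π : nsId τ N}
    (hπ : ∀ v, NsV τ N v → Valued.v (((π : (Af F)ˣ) : Af F) v) < 1) (γ : HS → ℤᵐ⁰)
    (hγ : ∀ v, γ v ≠ 0) :
    ∃ k : ℕ, ∀ j, k ≤ j → ∀ v, NsV τ N v →
      Valued.v ((((π ^ j : nsId τ N) : (Af F)ˣ) : Af F) v) ≤ γ v := by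
  classical
  choose e he using fun v => exists_exp_le (hγ v)
  refine ⟨(finite_nsV (τ := τ) hN).toFinset.sup e, fun j hj v hv => ?_⟩
  have h1 : Valued.v (((π : (Af F)ˣ) : Af F) v) ≤ exp (-1 : ℤ) := by
    obtain ⟨m, hm⟩ : ∃ m : ℤ, Valued.v (((π : (Af F)ˣ) : Af F) v) = exp m :=
      ⟨_, (exp_log (valued_unit_ne_zero _ v)).symm⟩
    have h' := hπ v hv
    rw [hm, ← exp_zero, exp_lt_exp] at h'
    rw [hm, exp_le_exp]; omega
  have hv' : ∀ i : ℕ, Valued.v ((((π ^ i : nsId τ N) : (Af F)ˣ) : Af F) v) =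
      Valued.v (((π : (Af F)ˣ) : Af F) v) ^ i := fun i => by
    induction i with
    | zero => rw [pow_zero, pow_zero]; exact map_one _
    | succ i ih => rw [pow_succ, Subgroup.coe_mul, af_unit_mul_apply, map_mul, ih, pow_succ]
  have hej : e v ≤ j := (Finset.le_sup ((finite_nsV (τ := τ) hN).mem_toFinset.2 hv)).trans hj
  calc Valued.v ((((π ^ j : nsId τ N) : (Af F)ˣ) : Af F) v)
      = Valued.v (((π : (Af F)ˣ) : Af F) v) ^ j := hv' j
    _ ≤ exp (-1 : ℤ) ^ j := pow_le_pow_left' h1 _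
    _ ≤ exp (-1 : ℤ) ^ e v := pow_le_pow_right_of_le_one'
        (by rw [← exp_zero, exp_le_exp]; omega) hej
    _ = exp (-(e v : ℤ)) := by rw [← exp_nsmul]; simp
    _ ≤ γ v := he v

/-- Shifts by integral ideles at the fixed bad places exist. -/
def HasShifts (τ : F ≃+* F) (N : ℕ) (s : Set.Ioi (0 : ℝ)) (V : Submodule ℂ (Form F)) : Prop :=
  ∀ g : nsId τ N, (∀ v, NsV τ N v → Valued.v (((g : (Af F)ˣ) : Af F) v) ≤ 1) → ∀ φ : V,
    ∃ (ψ : V) (n : ℕ) (c : Fin n → Af F), 0 < n ∧ (∀ i, Intg (c i)) ∧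
      IsShift N s (g : (Af F)ˣ) (φ : Form F) (ψ : Form F) c

theorem TraceHyp.range_stable [FiniteDimensional ℂ V] (h : TraceHyp τ N M x₀ s V)
    (hop : HasShifts τ N s V) {π : nsId τ N}
    (hπ : ∀ v, NsV τ N v → Valued.v (((π : (Af F)ˣ) : Af F) v) < 1) (g : nsId τ N) :
    ∀ x ∈ range h.germ, transQ τ N h.hN g x ∈ range h.germ := by
  have hint : ∀ g : nsId τ N, (∀ v, NsV τ N v → Valued.v (((g : (Af F)ˣ) : Af F) v) ≤ 1) →
      ∀ x ∈ range h.germ, transQ τ N h.hN g x ∈ range h.germ := by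
    rintro g hg _ ⟨φ, rfl⟩
    obtain ⟨ψ, n, c, hn, hc, hs⟩ := hop g hg φ
    exact ⟨(n : ℂ)⁻¹ • ψ, by rw [map_smul, h.germ_shift g hc hs, smul_smul,
      inv_mul_cancel₀ (Nat.cast_ne_zero.2 hn.ne'), one_smul]⟩
  have hcancel : ∀ x, transQ τ N h.hN π⁻¹ (transQ τ N h.hN π x) = x := fun x => by
    rw [← Module.End.mul_apply, ← map_mul, inv_mul_cancel, map_one, Module.End.one_apply]
  have hneg : ∀ x ∈ range h.germ, transQ τ N h.hN π⁻¹ x ∈ range h.germ := by
    intro x hx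
    set P : range h.germ →ₗ[ℂ] range h.germ :=
      (transQ τ N h.hN π).restrict (hint π fun v hv => (hπ v hv).le)
    have hinj : Function.Injective P := fun a b hab => Subtype.ext (by
      have := congrArg (fun z : range h.germ => transQ τ N h.hN π⁻¹ (z : Germ τ N)) hab
      simpa [P, LinearMap.restrict_apply, hcancel] using this)
    obtain ⟨y, hy⟩ := LinearMap.injective_iff_surjective.1 hinj ⟨x, hx⟩
    have e : transQ τ N h.hN π (y : Germ τ N) = x := congrArg Subtype.val hy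
    rw [← e, hcancel]
    exact y.2
  obtain ⟨j, hj⟩ := exists_pow_contract h.hN hπ
    (fun v => (Valued.v (((g : (Af F)ˣ) : Af F) v))⁻¹) fun v => inv_ne_zero (valued_unit_ne_zero _ v)
  have hpow : ∀ i : ℕ, ∀ x ∈ range h.germ, transQ τ N h.hN (π⁻¹ ^ i) x ∈ range h.germ := by
    intro i
    induction i with
    | zero => intro x hx; simpa using hx
    | succ i ih => intro x hx; rw [pow_succ, map_mul]; exact ih _ (hneg x hx)
  intro x hx
  rw [show g = π⁻¹ ^ j * (g * π ^ j) by rw [inv_pow]; simp [mul_comm], map_mul]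
  refine hpow j _ (hint _ (fun v hv => ?_) x hx)
  rw [Subgroup.coe_mul, af_unit_mul_apply, map_mul]
  calc Valued.v (((g : (Af F)ˣ) : Af F) v) *
        Valued.v ((((π ^ j : nsId τ N) : (Af F)ˣ) : Af F) v)
      ≤ Valued.v (((g : (Af F)ˣ) : Af F) v) * (Valued.v (((g : (Af F)ˣ) : Af F) v))⁻¹ :=
        mul_le_mul' le_rfl (hj j le_rfl v hv)
    _ = 1 := mul_inv_cancel₀ (valued_unit_ne_zero _ v)

/-- The contracting operator kills the kernel of the germ map after enough steps. -/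
theorem TraceHyp.exists_kill [FiniteDimensional ℂ V] (h : TraceHyp τ N M x₀ s V) {π : nsId τ N}
    (hπ : ∀ v, NsV τ N v → Valued.v (((π : (Af F)ˣ) : Af F) v) < 1) (A : V →ₗ[ℂ] V) {n : ℕ}
    (c : Fin n → Af F)
    (hA : ∀ φ : V, IsShift N s (π : (Af F)ˣ) (φ : Form F) ((A φ : V) : Form F) c)
    {K : ℝ → ℂ} {t0 : ℝ} (hK : RefMode K t0) (hs : s = ⟨t0, hK.pos⟩) :
    ∃ j₀, ∀ j, j₀ ≤ j → ∀ φ : V, h.germ φ = 0 → (A ^ j) φ = 0 := by
  classical
  obtain ⟨k, hk⟩ := h.exists_deep_zero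
  obtain ⟨j₀, hj₀⟩ := exists_pow_contract h.hN hπ
    (fun v => Valued.v ((N : Af F) v) ^ (k + 1) / Valued.v ((diffId (F := F) : Af F) v)) fun v =>
      div_ne_zero (pow_ne_zero _ (valued_natCast_ne_zero h.hN v)) (valued_unit_ne_zero _ v)
  refine ⟨j₀, fun j hj φ hφ => Subtype.ext ?_⟩
  have hpow : ∀ (i : ℕ) (a : (Af F)ˣ),
      cf s (φ : Form F) (a * ((π ^ i : nsId τ N) : (Af F)ˣ)) = 0 →
      cf s (((A ^ i) φ : V) : Form F) a = 0 := by
    intro i
    induction i with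
    | zero => intro a ha; simpa using ha
    | succ i ih =>
      intro a ha
      rw [pow_succ', Module.End.mul_apply, hA, ih, mul_zero]
      rw [pow_succ, Subgroup.coe_mul] at ha
      rw [← ha]
      congr 1
      ac_rfl
  refine eq_zero_of_cf h.hN (h.cusp _ ((A ^ j) φ).2) hK fun a => ?_
  rw [← hs]
  by_contra hne
  have hpin := h.pin _ ((A ^ j) φ).2 a hne
  -- the three parts of `a`
  set o := restr (fun v : HS => (N : 𝓞 F) ∉ v.asIdeal) (a * x₀⁻¹) with hodef
  set b : nsId τ N := ⟨restr (fun v => NsV τ N v) a, fun v hv => restr_apply_of_not hv a⟩ with hbdef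
  set u := restr (fun v => SpV τ N v) (a * x₀⁻¹) with hudef
  have ho : o ∈ goodId N := fun v hv => by
    refine restr_apply_of_not (fun h' => ?_) _
    exact h' hv
  have ha : a = x₀ * o * (b : (Af F)ˣ) * u := af_unit_ext fun v => by
    simp only [af_unit_mul_apply, hodef, hbdef, hudef]
    by_cases hN' : (N : 𝓞 F) ∈ v.asIdeal
    · rw [restr_apply_of_not (P := fun v : HS => (N : 𝓞 F) ∉ v.asIdeal) (fun h' => h' hN'),
        mul_one]
      by_cases hb : FixC τ v
      · rw [restr_apply_of (P := fun v => NsV τ N v) ⟨hN', hb⟩,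
          restr_apply_of_not (P := fun v => SpV τ N v) (fun h' => h'.2 hb), mul_one,
          h.x0_ns v ⟨hN', hb⟩, one_mul]
      · rw [restr_apply_of_not (P := fun v => NsV τ N v) (fun h' => hb h'.2),
          restr_apply_of (P := fun v => SpV τ N v) ⟨hN', hb⟩, af_unit_mul_apply,
          af_unit_inv_apply, mul_one, mul_comm ((a : Af F) v),
          mul_inv_cancel_left₀ (unit_apply_ne_zero _ v)]
    · rw [restr_apply_of (P := fun v : HS => (N : 𝓞 F) ∉ v.asIdeal) hN',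
        restr_apply_of_not (P := fun v => NsV τ N v) (fun h' => hN' h'.1),
        restr_apply_of_not (P := fun v => SpV τ N v) (fun h' => hN' h'.1), mul_one, mul_one,
        af_unit_mul_apply, af_unit_inv_apply, mul_comm ((a : Af F) v),
        mul_inv_cancel_left₀ (unit_apply_ne_zero _ v)]
  refine hne (hpow j a ?_)
  have hb' : Deep τ N k (b * π ^ j) := fun v hv => by
    have h1 := h.le_of_cf_ne_zero ((A ^ j) φ).2 hne v
    rw [Subgroup.coe_mul, af_unit_mul_apply, hbdef, restr_apply_of (P := fun v => NsV τ N v) hv,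
      map_mul]
    have hd0 := valued_unit_ne_zero (diffId (F := F)) v
    have hN0 := valued_natCast_ne_zero (F := F) h.hN v
    calc Valued.v ((a : Af F) v) * Valued.v ((((π ^ j : nsId τ N) : (Af F)ˣ) : Af F) v)
        ≤ Valued.v ((a : Af F) v) * (Valued.v ((N : Af F) v) ^ (k + 1) /
            Valued.v ((diffId (F := F) : Af F) v)) := mul_le_mul' le_rfl (hj₀ j hj v hv)
      _ = (Valued.v ((a : Af F) v) * Valued.v ((N : Af F) v)) *
            (Valued.v ((diffId (F := F) : Af F) v))⁻¹ * Valued.v ((N : Af F) v) ^ k := by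
          rw [pow_succ', div_eq_mul_inv]; ac_rfl
      _ ≤ 1 * Valued.v ((N : Af F) v) ^ k := by
          refine mul_le_mul' ?_ le_rfl
          exact (mul_inv_le_iff₀ (zero_lt_iff.2 hd0)).2 (by rw [one_mul]; exact h1)
      _ = _ := one_mul _
  rw [show a * ((π ^ j : nsId τ N) : (Af F)ˣ) =
      x₀ * o * ((b * π ^ j : nsId τ N) : (Af F)ˣ) * u by
    rw [ha, Subgroup.coe_mul]; ac_rfl,
    h.inv _ φ.2 _ u (fun v hv => restr_apply_of_not hv _) fun v hv => ?_]
  · exact hk φ hφ o ho _ hb'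
  · obtain ⟨h1, h2⟩ := hpin v hv
    rw [hudef, restr_apply_of (P := fun v => SpV τ N v) hv, af_unit_mul_apply, af_unit_inv_apply,
      ← div_eq_mul_inv]
    exact ⟨h1, by rw [map_div₀, h2, div_self (valued_unit_ne_zero _ v)]⟩

theorem exists_finite_unit_classes (hN : 0 < N) :
    ∃ R : Set (nsId τ N), R.Finite ∧ ∀ b : nsId τ N, ∃ r ∈ R, ∀ v : HS,
      Valued.v (((zB τ N b : (Af F)ˣ) : Af F) v - ((zB τ N r : (Af F)ˣ) : Af F) v) ≤
        Valued.v ((N : Af F) v) := by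
  haveI : Finite (𝓞 F ⧸ Ideal.span {(N : 𝓞 F)}) :=
    Ideal.finiteQuotientOfFreeOfNeBot _ (by simpa [Ideal.span_singleton_eq_bot] using hN.ne')
  choose y hy using fun b : nsId τ N =>
    exists_int_sub_le ((zB τ N b : (Af F)ˣ) : Af F) (fun v => (valued_zB τ N b v).le) hN
  obtain ⟨R, hR, hrep⟩ := exists_finite_reps fun b : nsId τ N =>
    Ideal.Quotient.mk (Ideal.span {(N : 𝓞 F)}) (y b)
  refine ⟨R, hR, fun b => ?_⟩
  obtain ⟨r, hr, e⟩ := hrep b
  refine ⟨r, hr, fun v => ?_⟩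
  obtain ⟨d, hd⟩ := Ideal.mem_span_singleton'.1 (Ideal.Quotient.eq.1 e)
  have hyy : Valued.v (algebraMap F (Af F) ((y b : 𝓞 F) : F) v -
      algebraMap F (Af F) ((y r : 𝓞 F) : F) v) ≤ Valued.v ((N : Af F) v) := by
    rw [Valuation.map_sub_swap,
      show algebraMap F (Af F) ((y r : 𝓞 F) : F) v - algebraMap F (Af F) ((y b : 𝓞 F) : F) v =
        (algebraMap F (Af F) (((y r - y b : 𝓞 F)) : F)) v by
          rw [show ((y r - y b : 𝓞 F) : F) = ((y r : 𝓞 F) : F) - ((y b : 𝓞 F) : F) from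
            map_sub (algebraMap (𝓞 F) F) _ _, map_sub]; rfl,
      ← hd, RingOfIntegers.coe_eq_algebraMap, map_mul, map_mul, map_natCast, map_natCast,
      af_mul_apply, map_mul]
    refine mul_le_of_le_one_left' ?_
    rw [valued_algebraMap]
    exact v.valuation_le_one d
  rw [show ((zB τ N b : (Af F)ˣ) : Af F) v - ((zB τ N r : (Af F)ˣ) : Af F) v =
      ((((zB τ N b : (Af F)ˣ) : Af F) - algebraMap F (Af F) ((y b : 𝓞 F) : F)) v +
        (algebraMap F (Af F) ((y b : 𝓞 F) : F) v - algebraMap F (Af F) ((y r : 𝓞 F) : F) v)) +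
      -((((zB τ N r : (Af F)ˣ) : Af F) - algebraMap F (Af F) ((y r : 𝓞 F) : F)) v) from by
    rw [af_sub_apply, af_sub_apply]
    ring]
  refine Valued.v.map_add_le (Valued.v.map_add_le (hy b v) hyy) ?_
  rw [Valuation.map_neg]
  exact hy r v

end FLTAgent.LT.TraceTheta
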