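import Fermat.Agent.LT.TF.Trace.Coef
import Fermat.Agent.LT.TF.Defs

/-!
An automorphism of the field acting on finite ideles, on the character, and on coefficients.
-/

set_option autoImplicit false
set_option linter.style.haveILetI false
set_option linter.unusedSectionVars false

noncomputable section

namespace FLTAgent.LT.TraceTheta

open NumberField IsDedekindDomain WithZero
open FLTAgent.LT.RS FLTAgent.LT.Red

variable {F : Type*} [Field F] [NumberField F] (τ : F ≃+* F)

local notation "HS" => HeightOneSpectrum (𝓞 F)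

/-- The induced map of finite adeles. -/
abbrev Ta : Af F →+* Af F := afMap (τ : F →+* F)

/-- The induced map of finite ideles. -/
abbrev Tu : (Af F)ˣ →* (Af F)ˣ := Units.map (Ta τ).toMonoidHom

/-- The place below. -/
abbrev below (w : HS) : HS := placeBelow (τ : F →+* F) w

theorem mem_below_pow (w : HS) (z : 𝓞 F) (n : ℕ) :
    z ∈ (below τ w).asIdeal ^ n ↔ RingOfIntegers.mapRingEquiv τ z ∈ w.asIdeal ^ n := by
  set e := RingOfIntegers.mapRingEquiv τ
  have h : (below τ w).asIdeal = w.asIdeal.map e.symm := by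
    rw [Ideal.map_symm (I := w.asIdeal) e]
    rfl
  rw [h, ← Ideal.map_pow, Ideal.map_symm (I := w.asIdeal ^ n) e]
  rfl

theorem intValuation_below (w : HS) (z : 𝓞 F) :
    w.intValuation (RingOfIntegers.mapRingEquiv τ z) = (below τ w).intValuation z := by
  rcases eq_or_ne z 0 with rfl | hz
  · simp
  have hz' : RingOfIntegers.mapRingEquiv τ z ≠ 0 := by simpa using hz
  have key : ∀ n : ℕ, w.intValuation (RingOfIntegers.mapRingEquiv τ z) ≤ exp (-(n : ℤ)) ↔
      (below τ w).intValuation z ≤ exp (-(n : ℤ)) := fun n => by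
    rw [HeightOneSpectrum.intValuation_le_pow_iff_mem, HeightOneSpectrum.intValuation_le_pow_iff_mem,
      mem_below_pow]
  obtain ⟨a, ha⟩ : ∃ a : ℕ, w.intValuation (RingOfIntegers.mapRingEquiv τ z) = exp (-(a : ℤ)) :=
    ⟨_, HeightOneSpectrum.intValuation_if_neg _ hz'⟩
  obtain ⟨b, hb⟩ : ∃ b : ℕ, (below τ w).intValuation z = exp (-(b : ℤ)) :=
    ⟨_, HeightOneSpectrum.intValuation_if_neg _ hz⟩
  refine le_antisymm ?_ ?_
  · rw [hb]; exact (key b).2 hb.le
  · rw [ha]; exact (key a).1 ha.le

theorem valuation_below (w : HS) (x : F) :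
    w.valuation F (τ x) = (below τ w).valuation F x := by
  obtain ⟨a, b, hb, rfl⟩ := IsFractionRing.div_surjective (A := 𝓞 F) x
  rw [map_div₀ τ, map_div₀, map_div₀]
  rw [show τ (algebraMap (𝓞 F) F a) = algebraMap (𝓞 F) F (RingOfIntegers.mapRingEquiv τ a) from rfl,
    show τ (algebraMap (𝓞 F) F b) = algebraMap (𝓞 F) F (RingOfIntegers.mapRingEquiv τ b) from rfl]
  simp only [HeightOneSpectrum.valuation_of_algebraMap, intValuation_below]

theorem valued_complMap (w : HS) (x : (below τ w).adicCompletion F) :
    Valued.v (complMap (τ : F →+* F) w x) = Valued.v x := by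
  rcases eq_or_ne x 0 with rfl | hx
  · simp
  obtain ⟨y, hy⟩ := HeightOneSpectrum.valuation_surjective F (below τ w) (Valued.v x)
  have hy0 : (y : (below τ w).adicCompletion F) ≠ 0 := by
    intro h
    have := congrArg Valued.v h
    rw [HeightOneSpectrum.adicCompletion.valued_coe, hy, map_zero] at this
    exact hx ((map_eq_zero _).1 this)
  set u := x / (y : (below τ w).adicCompletion F) with hu
  have hu1 : Valued.v u = 1 := by
    rw [hu, map_div₀, HeightOneSpectrum.adicCompletion.valued_coe, hy,
      div_self ((map_ne_zero _).2 hx)]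
  have hmap1 : Valued.v (complMap (τ : F →+* F) w u) = 1 := by
    have a := complMap_integer (τ : F →+* F) w u hu1.le
    have b := complMap_integer (τ : F →+* F) w u⁻¹ (by
      show Valued.v u⁻¹ ≤ 1
      rw [map_inv₀, hu1, inv_one])
    rw [HeightOneSpectrum.mem_adicCompletionIntegers] at a b
    rw [map_inv₀, map_inv₀] at b
    refine le_antisymm a ?_
    have hne : Valued.v (complMap (τ : F →+* F) w u) ≠ 0 := by
      rw [map_ne_zero, map_ne_zero]
      intro h
      simp [h] at hu1
    exact (inv_le_one₀ (zero_lt_iff.2 hne)).1 b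
  have hx' : x = u * (y : (below τ w).adicCompletion F) := by rw [hu, div_mul_cancel₀ _ hy0]
  rw [hx', map_mul, map_mul, hmap1, map_mul, hu1, complMap_coe,
    HeightOneSpectrum.adicCompletion.valued_coe, HeightOneSpectrum.adicCompletion.valued_coe]
  congr 1
  exact valuation_below τ w y

theorem valued_Ta (a : Af F) (w : HS) : Valued.v (Ta τ a w) = Valued.v (a (below τ w)) :=
  valued_complMap τ w _

theorem intg_Ta {a : Af F} (h : Intg a) : Intg (Ta τ a) := fun w => by
  rw [valued_Ta]; exact h _

theorem valued_natCast_below (n : ℕ) (w : HS) :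
    Valued.v ((n : Af F) (below τ w)) = Valued.v ((n : Af F) w) := by
  rw [← valued_Ta, map_natCast]

theorem natCast_mem_below (n : ℕ) (w : HS) :
    (n : 𝓞 F) ∈ (below τ w).asIdeal ↔ (n : 𝓞 F) ∈ w.asIdeal := by
  show RingOfIntegers.mapRingHom (τ : F →+* F) (n : 𝓞 F) ∈ w.asIdeal ↔ _
  rw [map_natCast]

theorem below_below_symm (w : HS) : below τ (below τ.symm w) = w := by
  refine HeightOneSpectrum.ext (Ideal.ext fun z => ?_)
  show RingOfIntegers.mapRingHom (τ.symm : F →+* F)
    (RingOfIntegers.mapRingHom (τ : F →+* F) z) ∈ w.asIdeal ↔ _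
  rw [show RingOfIntegers.mapRingHom (τ.symm : F →+* F)
    (RingOfIntegers.mapRingHom (τ : F →+* F) z) = z from RingOfIntegers.ext (τ.symm_apply_apply _)]

theorem below_surjective : Function.Surjective (below τ) := fun w => ⟨_, below_below_symm τ w⟩

theorem below_injective : Function.Injective (below τ) := fun v w h => by
  have key : ∀ u : HS, below τ.symm (below τ u) = u := fun u => by
    conv_lhs => rw [show τ = τ.symm.symm from (RingEquiv.symm_symm τ).symm]
    exact below_below_symm τ.symm u
  rw [← key v, ← key w, h]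

variable [IsTotallyComplex F]

theorem trace_apply (x : F) : Algebra.trace ℚ F (τ x) = Algebra.trace ℚ F x :=
  Algebra.trace_eq_of_algEquiv
    ({ τ with commutes' := fun r => map_ratCast τ r } : F ≃ₐ[ℚ] F) x

theorem chi_Ta (y : Af F) : chi (Ta τ y) = chi y := by
  rw [chi_eq (η := τ (approx y)), neg_embF, chi, neg_embF, trChar_embF, trChar_embF, map_neg,
    map_neg, trace_apply]
  have e := intg_Ta τ (intg_sub_approx y)
  rwa [map_sub, afMap_algebraMap] at e

theorem IsDualAd.map {y : Af F} (h : IsDualAd y) : IsDualAd (Ta τ y) := by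
  intro c hc
  obtain ⟨n, hn, hny⟩ := exists_den_entry y
  obtain ⟨x, hx⟩ := exists_int_sub_le c hc hn
  set x' : 𝓞 F := RingOfIntegers.mapRingHom (τ.symm : F →+* F) x
  have e : algebraMap F (Af F) (x : F) = Ta τ (algebraMap F (Af F) (x' : F)) := by
    rw [afMap_algebraMap]
    exact congrArg _ (τ.apply_symm_apply (x : F)).symm
  have hsmall : Intg (Ta τ y * (c - algebraMap F (Af F) (x : F))) := fun w => by
    show Valued.v (Ta τ y w * (c - algebraMap F (Af F) (x : F)) w) ≤ 1
    rw [map_mul, valued_Ta]
    refine le_trans (mul_le_mul' le_rfl ((hx w).trans (valued_natCast_below τ n w).ge)) ?_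
    have := hny (below τ w)
    change Valued.v ((n : Af F) (below τ w) * y (below τ w)) ≤ 1 at this
    rwa [map_mul, mul_comm] at this
  rw [show Ta τ y * c = Ta τ y * (c - algebraMap F (Af F) (x : F)) +
      Ta τ (y * algebraMap F (Af F) (x' : F)) by rw [map_mul, ← e]; ring,
    chi_add, chi_of_intg hsmall, chi_Ta, one_mul]
  exact h _ (intg_algebraMap x'.2)

theorem valued_diffId_below (w : HS) :
    Valued.v ((diffId (F := F) : Af F) (below τ w)) = Valued.v ((diffId (F := F) : Af F) w) := by
  have le : ∀ (σ : F ≃+* F) (u : HS), Valued.v ((diffId (F := F) : Af F) (below σ u)) ≤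
      Valued.v ((diffId (F := F) : Af F) u) := fun σ u => by
    have hd : IsDualAd ((diffId (F := F) : Af F)) := (isDualAd_iff _).2 fun _ => le_rfl
    have h := (isDualAd_iff _).1 (hd.map σ) u
    rwa [valued_Ta] at h
  refine le_antisymm (le τ w) ?_
  have h := le τ.symm (below τ w)
  have key : below τ.symm (below τ w) = w := by
    conv_lhs => rw [show τ = τ.symm.symm from (RingEquiv.symm_symm τ).symm]
    exact below_below_symm τ.symm w
  rwa [key] at h

/-- Pullback of forms. -/
def Tform : Form F →ₗ[ℂ] Form F where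
  toFun φ x g := φ (infMap (τ : F →+* F) x) (gfMap (τ : F →+* F) g)
  map_add' _ _ := rfl
  map_smul' _ _ := rfl

theorem gfMap_upperGF (a : (Af F)ˣ) (b : Af F) :
    gfMap (τ : F →+* F) (upperGF a b) = upperGF (Tu τ a) (Ta τ b) := by
  apply Units.ext
  ext i j
  fin_cases i <;> fin_cases j <;> simp [gfMap, upperGF]

/-- The matrix of `τ` in the integral basis. -/
def galMat (j i : Idx F) : ℤ :=
  (RingOfIntegers.basis F).repr (RingOfIntegers.mapRingHom (τ : F →+* F)
    (RingOfIntegers.basis F i)) j

theorem sum_galMat (i : Idx F) :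
    τ (RingOfIntegers.basis F i : F) =
      ∑ j, (galMat τ j i : F) * (RingOfIntegers.basis F j : F) := by
  have h := congrArg (fun x : 𝓞 F ↦ (x : F)) ((RingOfIntegers.basis F).sum_repr
    (RingOfIntegers.mapRingHom (τ : F →+* F) (RingOfIntegers.basis F i)))
  simp only [map_sum, map_mul, zsmul_eq_mul, map_intCast] at h
  exact h.symm

theorem boxVec_galMat (m : ℕ) (y : Idx F → ℝ) (w : InfinitePlace F) :
    boxVec m (intLin (galMat τ) y) w =
      (m : ℂ) * ∑ i, (y i : ℂ) * w.embedding (τ (RingOfIntegers.basis F i : F)) := by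
  simp only [boxVec, intLin, Complex.ofReal_sum, Complex.ofReal_mul, Complex.ofReal_intCast,
    Finset.sum_mul, sum_galMat τ, map_sum, map_mul, map_intCast, Finset.mul_sum]
  rw [Finset.sum_comm]
  exact Finset.sum_congr rfl fun i _ => Finset.sum_congr rfl fun j _ => by ring

open Classical in
theorem embedding_comap (w : InfinitePlace F) (z : F) :
    (if (w.comap (τ : F →+* F)).embedding = w.embedding.comp (τ : F →+* F) then
        (w.comap (τ : F →+* F)).embedding z
      else (starRingEnd ℂ) ((w.comap (τ : F →+* F)).embedding z)) = w.embedding (τ z) := by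
  split_ifs with h
  · rw [h]; rfl
  · have hmk : InfinitePlace.mk ((w.comap (τ : F →+* F)).embedding) =
        InfinitePlace.mk (w.embedding.comp (τ : F →+* F)) := by
      rw [InfinitePlace.mk_embedding]
      conv_lhs => rw [← InfinitePlace.mk_embedding w]
      rfl
    rcases InfinitePlace.mk_eq_iff.1 hmk with h' | h'
    · exact absurd h' h
    · exact RingHom.congr_fun h' z

theorem infMap_ptX (m : ℕ) (y : Idx F → ℝ) (s : Set.Ioi (0 : ℝ)) :
    infMap (τ : F →+* F) (ptX (boxVec m y) fun _ => s) =
      ptX (boxVec m (intLin (galMat τ) y)) fun _ => s := by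
  funext w
  simp only [infMap, ptX, conjH3, boxVec_galMat]
  simp only [boxVec, ← embedding_comap τ w]
  split_ifs with h <;> simp [Complex.conj_ofReal, map_sum]

theorem continuous_infMap : Continuous (infMap (τ : F →+* F) : Xinf F → Xinf F) := by
  refine continuous_pi fun w => ?_
  simp only [infMap]
  split_ifs
  · exact continuous_apply _
  · exact (Complex.continuous_conj.comp (continuous_apply _).fst).prodMk (continuous_apply _).snd

theorem infMap_translate (m : ℕ) (β : 𝓞 F) (x : Xinf F) :
    infMap (τ : F →+* F) (translate (fun w ↦ (m : ℂ) * w.embedding (β : F)) x) =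
      translate (fun w ↦ (m : ℂ) * w.embedding
        ((RingOfIntegers.mapRingHom (τ : F →+* F) β : 𝓞 F) : F)) (infMap (τ : F →+* F) x) := by
  funext w
  show _ = ((infMap (τ : F →+* F) x w).1 + (m : ℂ) * w.embedding (τ (β : F)), _)
  simp only [infMap, translate, conjH3, ← embedding_comap τ w]
  split_ifs with h <;> simp

theorem surjective_intLin_galMat : Function.Surjective (intLin (galMat τ)) := fun z => by
  refine ⟨intLin (galMat τ.symm) z, (boxEquiv F).injective (funext fun w => ?_)⟩
  rw [boxEquiv_apply, boxEquiv_apply, boxVec_galMat]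
  simp only [boxVec, intLin, Complex.ofReal_sum, Complex.ofReal_mul, Complex.ofReal_intCast,
    Finset.sum_mul]
  rw [Finset.sum_comm]
  congr 1
  refine Finset.sum_congr rfl fun k _ => ?_
  conv_rhs => rw [← τ.apply_symm_apply (RingOfIntegers.basis F k : F), sum_galMat τ.symm k]
  simp only [map_sum, map_mul, map_intCast, Finset.mul_sum]
  exact Finset.sum_congr rfl fun j _ => by ring

/-- The coefficient of a pullback. -/
theorem cf_Tform {N : ℕ} (hN : 0 < N) (s : Set.Ioi (0 : ℝ)) {φ : Form F} (hφ : CuspZero N φ)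
    (a : (Af F)ˣ) : cf s (Tform τ φ) a = cf s φ (Tu τ a) := by
  set g := upperGF a 0
  have hg : gfMap (τ : F →+* F) g = upperGF (Tu τ a) 0 := by rw [gfMap_upperGF, map_zero]
  obtain ⟨m, hm⟩ := exists_hasPeriod hN hφ.aut (upperGF (Tu τ a) 0)
  have happ : ∀ x, Tform τ φ x g = φ (infMap (τ : F →+* F) x) (upperGF (Tu τ a) 0) := fun x => by
    show φ _ (gfMap (τ : F →+* F) g) = _
    rw [hg]
  have hc : Continuous fun x ↦ Tform τ φ x g := by
    simp only [happ]
    exact (hφ.cont _).comp (continuous_infMap τ)
  have hp : HasPeriod (Tform τ φ) g m := ⟨hm.pos, fun β x => by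
    rw [happ, happ, infMap_translate, hm.inv]⟩
  rw [cf, cf, wh_one_eq_fc hc hp, wh_one_eq_fc (hφ.cont _) hm]
  have hfun : periodFun (Tform τ φ) g m (fun _ => s) = fun y =>
      periodFun φ (upperGF (Tu τ a) 0) m (fun _ => s) (intLin (galMat τ) y) := by
    funext y
    rw [periodFun, periodFun, happ, infMap_ptX]
  have hk : kvec m (1 : F) = fun j => ∑ i, galMat τ i j * kvec m (1 : F) i := by
    funext j
    apply Int.cast_injective (α := ℚ)
    rw [kvec_cast (isDual_one m), Int.cast_sum]
    simp only [Int.cast_mul, kvec_cast (isDual_one m), freq, one_mul]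
    conv_lhs => rw [← trace_apply τ, sum_galMat, map_sum, Finset.mul_sum]
    refine Finset.sum_congr rfl fun i _ => ?_
    rw [show (galMat τ i j : F) * (RingOfIntegers.basis F i : F) =
      (galMat τ i j : ℚ) • (RingOfIntegers.basis F i : F) by rw [Algebra.smul_def, map_intCast],
      map_smul, smul_eq_mul]
    ring
  rw [hfun]
  conv_lhs => rw [hk]
  exact fc_intLin (zperiodic_periodFun (hφ.cont _) hm _) _ (surjective_intLin_galMat τ) _

end FLTAgent.LT.TraceTheta
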